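import Fermat.Agent.ExtVan.Thaine

/-!
`xi2` is congruent to `2 ^ k (1 - t ^ 2 / 8)` modulo `(ζ - 1) ^ 3`, hence is not a local `p`-th
power. This is what the class group argument needs.
-/

noncomputable section

namespace Fermat.Agent.ExtVan

open NumberField
open scoped Pointwise Classical

variable {p : ℕ} [hp : Fact p.Prime] {K : Type} [Field K] [NumberField K]
  [IsCyclotomicExtension {p} ℚ K]

variable (p K) in
/-- The ideal `(ζ - 1)`. -/
def piIdeal : Ideal (𝓞 K) := Ideal.span {zetaInt p K - 1}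

lemma natCast_mem_piIdeal_pow (hp5 : 5 ≤ p) : (p : 𝓞 K) ∈ piIdeal p K ^ 3 := by
  rw [piIdeal, Ideal.span_singleton_pow, Ideal.mem_span_singleton]
  exact (pow_dvd_pow _ (by omega)).trans
    (IsCyclotomicExtension.Rat.associated_zeta_sub_one_pow_prime (p := p)
      (IsCyclotomicExtension.zeta_spec p ℚ K)).dvd

lemma piIdeal_ne_bot : piIdeal p K ≠ ⊥ := by
  simp only [piIdeal, ne_eq, Ideal.span_singleton_eq_bot, sub_eq_zero]
  exact (zetaInt_spec (p := p) (K := K)).ne_one hp.out.one_lt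

lemma piIdeal_isPrime : (piIdeal p K).IsPrime :=
  IsCyclotomicExtension.Rat.isPrime_span_zeta_sub_one' (p := p)
    (IsCyclotomicExtension.zeta_spec p ℚ K)

lemma absNorm_piIdeal : Ideal.absNorm (piIdeal p K) = p := by
  have : IsCyclotomicExtension {p ^ (0 + 1)} ℚ K := by simpa
  exact IsCyclotomicExtension.Rat.absNorm_span_zeta_sub_one (p := p) (k := 0)
    (by simp)

variable (p K) in
/-- The quotient modulo `(ζ - 1) ^ 3`. -/
abbrev Cube : Type := 𝓞 K ⧸ piIdeal p K ^ 3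

variable (p K) in
/-- Reduction modulo `(ζ - 1) ^ 3`. -/
abbrev toCube : 𝓞 K →+* Cube p K := Ideal.Quotient.mk _

variable (p K) in
/-- The image `t` of `ζ - 1` in the quotient modulo `(ζ - 1) ^ 3`. -/
def piCube : Cube p K := toCube p K (zetaInt p K - 1)

lemma piCube_pow_three : piCube p K ^ 3 = 0 := by
  rw [piCube, ← map_pow, Ideal.Quotient.eq_zero_iff_mem, piIdeal]
  exact Ideal.pow_mem_pow (Ideal.mem_span_singleton_self _) 3

lemma natCast_cube (hp5 : 5 ≤ p) : (p : Cube p K) = 0 := by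
  rw [← map_natCast (toCube p K), Ideal.Quotient.eq_zero_iff_mem]
  exact natCast_mem_piIdeal_pow hp5

lemma charP_cube (hp5 : 5 ≤ p) : CharP (Cube p K) p := by
  have : Nontrivial (Cube p K) := by
    refine Ideal.Quotient.nontrivial_iff.mpr fun h => ?_
    exact piIdeal_isPrime.ne_top (top_le_iff.mp (h ▸ Ideal.pow_le_self (by norm_num)))
  exact
    (CharP.charP_iff_prime_eq_zero hp.out).mpr (natCast_cube hp5)

variable (hp5 : 5 ≤ p)
include hp5

/-- If `a + b t ^ 2 = 0` modulo `(ζ - 1) ^ 3`, then `p` divides the natural numbers `a` and `b`.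
-/
lemma dvd_of_add_mul_sq_eq_zero {a b : ℕ} (h : toCube p K (a + b * (zetaInt p K - 1) ^ 2) = 0) :
    p ∣ a ∧ p ∣ b := by
  have hpi := piIdeal_isPrime (p := p) (K := K)
  have hdiv : ∀ n : ℕ, (n : 𝓞 K) ∈ piIdeal p K → p ∣ n := fun n hn => by
    have h1 := (IsCyclotomicExtension.Rat.zeta_sub_one_dvd_intCast_iff' (p := p)
      (IsCyclotomicExtension.zeta_spec p ℚ K) (n := (n : ℤ))).mp
      (by
        rw [Int.cast_natCast]
        exact Ideal.mem_span_singleton.mp hn)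
    exact_mod_cast h1
  rw [Ideal.Quotient.eq_zero_iff_mem] at h
  have h2 : zetaInt p K - 1 ∈ piIdeal p K := Ideal.mem_span_singleton_self _
  have ha : p ∣ a := hdiv a (by
    have h3 : (b : 𝓞 K) * (zetaInt p K - 1) ^ 2 ∈ piIdeal p K :=
      Ideal.mul_mem_left _ _ (Ideal.pow_mem_of_mem _ h2 2 (by norm_num))
    simpa using sub_mem (Ideal.pow_le_self (by norm_num) h) h3)
  refine ⟨ha, hdiv b ?_⟩
  have h4 : (b : 𝓞 K) * (zetaInt p K - 1) ^ 2 ∈ piIdeal p K ^ 3 := by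
    obtain ⟨c, rfl⟩ := ha
    have h5 : ((p * c : ℕ) : 𝓞 K) ∈ piIdeal p K ^ 3 := by
      push_cast
      exact Ideal.mul_mem_right _ _ (natCast_mem_piIdeal_pow hp5)
    simpa using sub_mem h h5
  rw [piIdeal, Ideal.span_singleton_pow, Ideal.mem_span_singleton, pow_succ' _ 2] at h4
  rw [piIdeal, Ideal.mem_span_singleton]
  exact (mul_dvd_mul_iff_right (pow_ne_zero 2
    (sub_ne_zero.mpr ((zetaInt_spec (p := p) (K := K)).ne_one hp.out.one_lt)))).mp
    h4

omit hp5 in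
/-- The binomial expansion of `(1 + t) ^ k` when `t ^ 3 = 0`. -/
lemma one_add_pow_of_pow_three_eq_zero {R : Type*} [CommRing R] {t : R} (ht3 : t ^ 3 = 0) (k : ℕ) :
    (1 + t) ^ k = 1 + (k : R) * t + (k.choose 2 : R) * t ^ 2 := by
  induction k with
  | zero => simp
  | succ k ih =>
    rw [pow_succ, ih, Nat.choose_succ_succ', Nat.choose_one_right]
    push_cast
    linear_combination (k.choose 2 : R) * ht3

omit hp5 in
/-- `n (n - 1) / 2` modulo `p`, for the representative `n` of a unit. -/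
lemma natCast_val_choose_two (h2 : (2 : ZMod p) ≠ 0) (a : (ZMod p)ˣ) :
    (((a : ZMod p).val.choose 2 : ℕ) : ZMod p) = (a : ZMod p) * ((a : ZMod p) - 1) / 2 := by
  set n := (a : ZMod p).val with hn
  rw [eq_div_iff h2, show (2 : ZMod p) = ((2 : ℕ) : ZMod p) by norm_num, ← Nat.cast_mul]
  have h2dvd : 2 ∣ n * (n - 1) := (Nat.even_mul_pred_self n).two_dvd
  rw [Nat.choose_two_right, Nat.div_mul_cancel h2dvd, Nat.cast_mul]
  have hn1 : 1 ≤ n := by
    rw [hn]
    exact Nat.one_le_iff_ne_zero.mpr fun h => a.ne_zero ((ZMod.val_eq_zero _).mp h)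
  rw [Nat.cast_sub hn1, hn, ZMod.natCast_zmod_val, Nat.cast_one]

/-- The exponents of `σ_a (1 + ζ) = 2 exp (w a)` combine, weighted by `a⁻²`, to `(0, -1/8)`. -/
lemma sum_expo_smul_exponent :
    ∑ a : (ZMod p)ˣ, expo a • ((a : ZMod p) / 2, (a : ZMod p) ^ 2 / 8 - (a : ZMod p) / 4) =
      ((0 : ZMod p), -(8 : ZMod p)⁻¹) := by
  have h2 : (2 : ZMod p) ≠ 0 := two_ne_zero_of_three_le (by omega)
  have h8 : (8 : ZMod p) ≠ 0 := by
    rw [show (8 : ZMod p) = 2 * 2 * 2 by norm_num]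
    exact mul_ne_zero (mul_ne_zero h2 h2) h2
  have h4' : (4 : ZMod p) ≠ 0 := by
    rw [show (4 : ZMod p) = 2 * 2 by norm_num]; exact mul_ne_zero h2 h2
  have he : ∀ a : (ZMod p)ˣ, ((expo a : ℕ) : ZMod p) = ((a : ZMod p) ^ 2)⁻¹ := fun a => by
    rw [expo, ZMod.natCast_zmod_val, Units.val_pow_eq_pow_val, Units.val_inv_eq_inv_val, inv_pow]
  have hsi : ∑ a : (ZMod p)ˣ, ((a : ZMod p))⁻¹ = 0 := by
    rw [Fintype.sum_equiv (Equiv.inv (ZMod p)ˣ) _ (fun a : (ZMod p)ˣ => ((a : ZMod p)) ^ 1)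
      (fun a => by rw [Equiv.inv_apply, pow_one, Units.val_inv_eq_inv_val]),
          FiniteField.sum_pow_units, if_neg]
    rw [ZMod.card]
    intro h
    have := Nat.le_of_dvd one_pos h
    omega
  have hcard : (Fintype.card (ZMod p)ˣ : ZMod p) = -1 := by
    rw [ZMod.card_units, Nat.cast_sub hp.out.pos, ZMod.natCast_self, Nat.cast_one, zero_sub]
  ext
  · rw [Prod.fst_sum]
    simp only [nsmul_eq_mul, Prod.fst_mul, Prod.fst_natCast, he]
    rw [Finset.sum_congr rfl (g := fun a : (ZMod p)ˣ => ((a : ZMod p))⁻¹ * (2 : ZMod p)⁻¹)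
      fun a _ => by field_simp, ← Finset.sum_mul, hsi, zero_mul]
  · rw [Prod.snd_sum]
    simp only [nsmul_eq_mul, Prod.snd_mul, Prod.snd_natCast, he]
    rw [Finset.sum_congr rfl (g := fun a : (ZMod p)ˣ => (8 : ZMod p)⁻¹ -
      ((a : ZMod p))⁻¹ * (4 : ZMod p)⁻¹) fun a _ => by field_simp, Finset.sum_sub_distrib,
      ← Finset.sum_mul, hsi, zero_mul, sub_zero, Finset.sum_const, Finset.card_univ,
      nsmul_eq_mul, hcard]
    ring

/-- `xi2 ^ m` is not a `p`-th power modulo `(ζ - 1) ^ 3` unless `p ∣ m`. -/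
theorem xi2_pow_sub_pow_notMem {m : ℕ} (hm : ¬ p ∣ m) (x : 𝓞 K) :
    xi2 p K ^ m - x ^ p ∉ piIdeal p K ^ 3 := by
  intro hmem
  have := charP_cube (K := K) hp5
  let ι : ZMod p →+* Cube p K := ZMod.castHom dvd_rfl _
  set t := piCube p K with ht
  have ht3 : t ^ 3 = 0 := piCube_pow_three
  have ht4 : t ^ 4 = 0 := by rw [pow_succ, ht3, zero_mul]
  have h2 : (2 : ZMod p) ≠ 0 := two_ne_zero_of_three_le (by omega)
  let G : Multiplicative (ZMod p × ZMod p) →* Cube p K :=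
    { toFun := fun u => 1 + ι u.toAdd.1 * t + ι (u.toAdd.2 + u.toAdd.1 ^ 2 / 2) * t ^ 2
      map_one' := by
        rw [toAdd_one, Prod.fst_zero, Prod.snd_zero, zero_pow two_ne_zero, zero_div, add_zero,
          map_zero, zero_mul, zero_mul, add_zero, add_zero]
      map_mul' := fun u v => by
        have hq : ι ((u.toAdd.2 + v.toAdd.2) + (u.toAdd.1 + v.toAdd.1) ^ 2 / 2) =
            ι (u.toAdd.2 + u.toAdd.1 ^ 2 / 2) + ι (v.toAdd.2 + v.toAdd.1 ^ 2 / 2) +
              ι u.toAdd.1 * ι v.toAdd.1 := by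
          simp only [← map_add, ← map_mul]
          congr 1
          field_simp
          ring
        simp only [toAdd_mul, Prod.fst_add, Prod.snd_add, map_add ι u.toAdd.1, hq]
        linear_combination (-(ι u.toAdd.1 * ι (v.toAdd.2 + v.toAdd.1 ^ 2 / 2)
          + ι v.toAdd.1 * ι (u.toAdd.2 + u.toAdd.1 ^ 2 / 2))) * ht3
          - ι (u.toAdd.2 + u.toAdd.1 ^ 2 / 2) * ι (v.toAdd.2 + v.toAdd.1 ^ 2 / 2) * ht4 }
  let w : (ZMod p)ˣ → ZMod p × ZMod p := fun a =>
    ((a : ZMod p) / 2, (a : ZMod p) ^ 2 / 8 - (a : ZMod p) / 4)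
  have h8 : (8 : ZMod p) ≠ 0 := by
    rw [show (8 : ZMod p) = 2 * 2 * 2 by norm_num]
    exact mul_ne_zero (mul_ne_zero h2 h2) h2
  have h4' : (4 : ZMod p) ≠ 0 := by
    rw [show (4 : ZMod p) = 2 * 2 by norm_num]; exact mul_ne_zero h2 h2
  have hxi : ∀ a : (ZMod p)ˣ, toCube p K (sigma K a • xi0 p K) =
      ι 2 * G (Multiplicative.ofAdd (w a)) := by
    intro a
    set n := (a : ZMod p).val with hn
    have h1 : sigma K a • xi0 p K = 1 + zetaInt p K ^ n := by
      rw [xi0, smul_add, smul_one, sigma_smul_root a zetaInt_spec.pow_eq_one]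
    have h5 : toCube p K (zetaInt p K) = 1 + t := by rw [ht, piCube, map_sub, map_one]; ring
    rw [h1, map_add, map_one, map_pow, h5, one_add_pow_of_pow_three_eq_zero ht3, ← map_natCast ι n,
      ← map_natCast ι (n.choose 2), hn, natCast_val_choose_two h2, ZMod.natCast_zmod_val]
    simp only [G, MonoidHom.coe_mk, OneHom.coe_mk, w, toAdd_ofAdd]
    rw [mul_add, mul_add, mul_one, ← mul_assoc (ι 2), ← mul_assoc (ι 2), ← map_mul, ← map_mul,
      show (2 : ZMod p) * ((a : ZMod p) / 2) = a by field_simp,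
      show (2 : ZMod p) * ((a : ZMod p) ^ 2 / 8 - (a : ZMod p) / 4 + ((a : ZMod p) / 2) ^ 2 / 2)
        = (a : ZMod p) * ((a : ZMod p) - 1) / 2 by field_simp; ring, map_ofNat]
    ring
  set c : ZMod p := ∏ a : (ZMod p)ˣ, (2 : ZMod p) ^ expo a with hc
  have hsum : ∑ a : (ZMod p)ˣ, expo a • w a = ((0 : ZMod p), -(8 : ZMod p)⁻¹) :=
    sum_expo_smul_exponent hp5
  have hxi2 : toCube p K (xi2 p K) = ι c * G (Multiplicative.ofAdd ((0 : ZMod p),
      -(8 : ZMod p)⁻¹)) := by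
    rw [xi2, map_prod]
    simp only [map_pow, hxi, mul_pow, Finset.prod_mul_distrib]
    rw [← hsum, ofAdd_sum, hc, map_prod, map_prod]
    simp only [map_pow, ofAdd_nsmul]
  have hpow : toCube p K (xi2 p K ^ m) = ι (c ^ m) * (1 - ι ((m : ZMod p) * (8 : ZMod p)⁻¹) *
      t ^ 2) := by
    rw [map_pow, hxi2, mul_pow, ← map_pow ι, ← map_pow G, ← ofAdd_nsmul]
    simp [G, sub_eq_add_neg]
  obtain ⟨n, hn⟩ := exists_nat_sub_mem (P := ⟨piIdeal p K, piIdeal_isPrime, piIdeal_ne_bot⟩)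
    hp.out absNorm_piIdeal x
  have hx : toCube p K (x ^ p) = ι ((n : ZMod p) ^ p) := by
    obtain ⟨y, hy⟩ := Ideal.mem_span_singleton'.mp hn
    rw [show x = (n : 𝓞 K) + y * (zetaInt p K - 1) by rw [hy]; ring, map_pow, map_add,
      map_natCast, map_mul, add_pow_char, mul_pow, ← piCube, ← ht,
      show t ^ p = t ^ 3 * t ^ (p - 3) by rw [← pow_add]; congr 1; omega, ht3, zero_mul, mul_zero,
      add_zero, map_pow, map_natCast]
  rw [← Ideal.Quotient.eq] at hmem
  change toCube p K _ = toCube p K _ at hmem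
  rw [hpow, hx] at hmem
  set d : ZMod p := c ^ m - (n : ZMod p) ^ p with hd
  set d' : ZMod p := -(c ^ m * ((m : ZMod p) * (8 : ZMod p)⁻¹)) with hd'
  have hz : toCube p K ((d.val : 𝓞 K) + (d'.val : 𝓞 K) * (zetaInt p K - 1) ^ 2) = 0 := by
    rw [map_add, map_mul, map_pow, map_natCast, map_natCast, ← map_natCast ι d.val,
      ← map_natCast ι d'.val, ZMod.natCast_zmod_val, ZMod.natCast_zmod_val, ← piCube, ← ht, hd, hd',
      map_sub, map_neg, map_mul ι (c ^ m), ← hmem]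
    ring
  have h6 := (dvd_of_add_mul_sq_eq_zero hp5 hz).2
  have h7 : d' = 0 := by
    rw [← ZMod.natCast_zmod_val d', ZMod.natCast_eq_zero_iff]; exact h6
  rw [hd', neg_eq_zero, mul_eq_zero, mul_eq_zero] at h7
  rcases h7 with h7 | h7 | h7
  · exact pow_ne_zero m (Finset.prod_ne_zero_iff.mpr fun a _ => pow_ne_zero _ h2) h7
  · exact hm ((ZMod.natCast_eq_zero_iff m p).mp h7)
  · exact inv_ne_zero h8 h7

/-- `xi2` is not a `p`th power in the cyclotomic field. -/
theorem xi2_ne_pow (y : K) : y ^ p ≠ (xi2 p K : K) := by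
  intro h
  have hy : IsIntegral ℤ y := IsIntegral.of_pow hp.out.pos (h ▸ (xi2 p K).2)
  obtain ⟨Y, hY⟩ : ∃ Y : 𝓞 K, (Y : K) = y := ⟨⟨y, hy⟩, rfl⟩
  refine xi2_pow_sub_pow_notMem hp5 (m := 1)
    (fun h1 => by have := Nat.le_of_dvd one_pos h1; omega) Y ?_
  have : Y ^ p = xi2 p K := RingOfIntegers.coe_injective (by
    rw [map_pow, ← RingOfIntegers.coe_eq_algebraMap, ← RingOfIntegers.coe_eq_algebraMap, hY]
    exact h)
  rw [pow_one, this, sub_self]
  exact zero_mem _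

end Fermat.Agent.ExtVan
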