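import Mathlib.Analysis.SpecialFunctions.Pow.Real
import Mathlib.NumberTheory.NumberField.CanonicalEmbedding.FundamentalCone

/-!
A homogeneous weight on the mixed space of a number field which is a partition of unity for the
action of the units modulo torsion, together with a Lipschitz type estimate. It replaces the
fundamental domain in the comparison of partial zeta functions.
-/

noncomputable section

namespace Fermat.Agent.ExtVan

open NumberField NumberField.InfinitePlace NumberField.mixedEmbedding Module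
open NumberField.Units NumberField.Units.dirichletUnitTheorem
open scoped Classical

/-- The tent function. -/
def tent (t : ℝ) : ℝ := max 0 (1 - |t|)

lemma tent_nonneg (t : ℝ) : 0 ≤ tent t := le_max_left _ _

lemma tent_le_one (t : ℝ) : tent t ≤ 1 :=
  max_le zero_le_one (by linarith [abs_nonneg t])

lemma abs_lt_one_of_tent_ne_zero {t : ℝ} (h : tent t ≠ 0) : |t| < 1 := by
  by_contra hc
  exact h (max_eq_left (by linarith [not_lt.mp hc]))

lemma tent_lipschitz (a b : ℝ) : |tent a - tent b| ≤ |a - b| := by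
  unfold tent
  have h1 := abs_abs_sub_abs_le_abs_sub b a
  have h2 := abs_max_sub_max_le_abs (1 - |a|) (1 - |b|) 0
  rw [max_comm 0, max_comm 0]
  calc |max (1 - |a|) 0 - max (1 - |b|) 0| ≤ |1 - |a| - (1 - |b|)| := h2
    _ = |(|b| - |a|)| := by ring_nf
    _ ≤ |b - a| := h1
    _ = |a - b| := abs_sub_comm _ _

lemma tent_add_tent {c : ℝ} (h0 : 0 ≤ c) (h1 : c < 1) : tent (c - 1) + tent c = 1 := by
  unfold tent
  rw [abs_of_nonneg h0, abs_of_nonpos (by linarith), max_eq_right (by linarith),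
    max_eq_right (by linarith)]
  ring

lemma abs_prod_sub_prod_le {ι : Type*} (t : Finset ι) (f g : ι → ℝ)
    (hf : ∀ i ∈ t, 0 ≤ f i ∧ f i ≤ 1) (hg : ∀ i ∈ t, 0 ≤ g i ∧ g i ≤ 1) :
    |∏ i ∈ t, f i - ∏ i ∈ t, g i| ≤ ∑ i ∈ t, |f i - g i| := by
  classical
  induction t using Finset.induction with
  | empty => simp
  | insert a t ha ih =>
    rw [Finset.prod_insert ha, Finset.prod_insert ha, Finset.sum_insert ha]
    have ihh := ih (fun i hi => hf i (Finset.mem_insert_of_mem hi))
      (fun i hi => hg i (Finset.mem_insert_of_mem hi))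
    have hP0 : 0 ≤ ∏ i ∈ t, f i :=
      Finset.prod_nonneg fun i hi => (hf i (Finset.mem_insert_of_mem hi)).1
    have hP1 : ∏ i ∈ t, f i ≤ 1 :=
      Finset.prod_le_one (fun i hi => (hf i (Finset.mem_insert_of_mem hi)).1)
        (fun i hi => (hf i (Finset.mem_insert_of_mem hi)).2)
    obtain ⟨hg0, hg1⟩ := hg a (Finset.mem_insert_self a t)
    calc |f a * ∏ i ∈ t, f i - g a * ∏ i ∈ t, g i|
        = |(f a - g a) * ∏ i ∈ t, f i + g a * (∏ i ∈ t, f i - ∏ i ∈ t, g i)| := by ring_nf
      _ ≤ |(f a - g a) * ∏ i ∈ t, f i| + |g a * (∏ i ∈ t, f i - ∏ i ∈ t, g i)| := abs_add_le _ _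
      _ ≤ |f a - g a| + ∑ i ∈ t, |f i - g i| := by
        refine add_le_add ?_ ?_
        · rw [abs_mul, abs_of_nonneg hP0]
          exact mul_le_of_le_one_right (abs_nonneg _) hP1
        · rw [abs_mul, abs_of_nonneg hg0]
          exact (mul_le_of_le_one_left (abs_nonneg _) hg1).trans ihh

lemma abs_log_sub_log_le {a b : ℝ} (m : ℝ) (hm : 0 < m) (ha : m ≤ a) (hb : m ≤ b) :
    |Real.log a - Real.log b| ≤ |a - b| / m := by
  have key : ∀ x y : ℝ, m ≤ x → x ≤ y → Real.log y - Real.log x ≤ (y - x) / m := by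
    intro x y hx hxy
    have hx0 : 0 < x := hm.trans_le hx
    have := Real.log_le_sub_one_of_pos (div_pos (hx0.trans_le hxy) hx0)
    rw [Real.log_div (hx0.trans_le hxy).ne' hx0.ne'] at this
    refine this.trans ?_
    rw [div_sub_one hx0.ne']
    gcongr
  rcases le_total a b with h | h
  · have h' := Real.log_le_log (hm.trans_le ha) h
    rw [abs_sub_comm, abs_of_nonneg (by linarith), abs_sub_comm, abs_of_nonneg (by linarith)]
    exact key a b ha h
  · have h' := Real.log_le_log (hm.trans_le hb) h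
    rw [abs_of_nonneg (by linarith), abs_of_nonneg (by linarith)]
    exact key b a hb h

lemma abs_exp_sub_exp_le {a b m : ℝ} (ha : a ≤ m) (hb : b ≤ m) :
    |Real.exp a - Real.exp b| ≤ Real.exp m * |a - b| := by
  have key : ∀ x y : ℝ, x ≤ y → y ≤ m → Real.exp y - Real.exp x ≤ Real.exp m * (y - x) := by
    intro x y hxy hy
    have h1 : Real.exp x = Real.exp y * Real.exp (x - y) := by rw [← Real.exp_add]; ring_nf
    have h2 := Real.add_one_le_exp (x - y)
    have h3 : Real.exp y ≤ Real.exp m := Real.exp_le_exp.mpr hy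
    have h4 := Real.exp_pos y
    nlinarith [mul_le_mul_of_nonneg_left h2 h4.le,
      mul_le_mul_of_nonneg_right h3 (by linarith : (0:ℝ) ≤ y - x)]
  rcases le_total a b with h | h
  · rw [abs_sub_comm, abs_of_nonneg (by linarith [Real.exp_le_exp.mpr h]), abs_sub_comm,
      abs_of_nonneg (by linarith)]
    exact key a b h hb
  · rw [abs_of_nonneg (by linarith [Real.exp_le_exp.mpr h]), abs_of_nonneg (by linarith)]
    exact key b a h ha

/-- Arithmetic for the estimate far from the origin: a bound `c e m ^ (-d)` with `m = δ X / 8` and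
`e = R / m` decays like `(1 + X) ^ (-(d + 1))`. -/
lemma far_bound_mul_le {δ X R m e Cfar c q : ℝ} {d : ℕ} (hδ : 0 < δ) (hX : 1 ≤ X) (hc : 0 ≤ c)
    (hR : 0 ≤ R) (hm : m = δ / 8 * X) (he : e = R / m)
    (hC : Cfar = c * (8 * R / δ) * (8 / δ) ^ d) (hq : q ≤ c * e * (m ^ d)⁻¹) :
    q * (1 + X) ^ (d + 1) ≤ Cfar * 2 ^ (d + 1) := by
  subst hm he hC
  have hX0 : 0 < X := by linarith
  have hkey : c * (R / (δ / 8 * X)) * ((δ / 8 * X) ^ d)⁻¹
      = c * (8 * R / δ) * (8 / δ) ^ d / X ^ (d + 1) := by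
    rw [mul_pow, div_pow, div_pow, pow_succ]
    field_simp
  rw [hkey] at hq
  calc q * (1 + X) ^ (d + 1)
      ≤ c * (8 * R / δ) * (8 / δ) ^ d / X ^ (d + 1) * (2 * X) ^ (d + 1) := by
        refine mul_le_mul hq ?_ (by positivity) (by positivity)
        gcongr; linarith
    _ = c * (8 * R / δ) * (8 / δ) ^ d * 2 ^ (d + 1) := by
        rw [mul_pow]; field_simp

variable {K : Type*} [Field K] [NumberField K]

open scoped Classical in
/-- The coordinates of `logMap x` with respect to the basis of the unit lattice. -/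
def coord (i : Fin (Units.rank K)) : logSpace K →ₗ[ℝ] ℝ :=
  ((basisUnitLattice K).ofZLatticeBasis ℝ _).coord i

/-- The weight: a product of tents in the unit lattice coordinates of `logMap x`. -/
def weight (x : mixedSpace K) : ℝ :=
  if mixedEmbedding.norm x = 0 then 0 else ∏ i, tent (coord i (logMap x))

/-- The weighted summand `weight x · max (1, |N x|) ^ (-s)`. -/
def gfun (s : ℝ) (x : mixedSpace K) : ℝ :=
  weight x * (max 1 (mixedEmbedding.norm x)) ^ (-s)

lemma weight_nonneg (x : mixedSpace K) : 0 ≤ weight x := by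
  unfold weight
  split_ifs with h
  · exact le_rfl
  · exact Finset.prod_nonneg fun i _ => tent_nonneg _

lemma weight_le_one (x : mixedSpace K) : weight x ≤ 1 := by
  unfold weight
  split_ifs with h
  · exact zero_le_one
  · exact Finset.prod_le_one (fun i _ => tent_nonneg _) (fun i _ => tent_le_one _)

lemma gfun_nonneg (s : ℝ) (x : mixedSpace K) : 0 ≤ gfun s x :=
  mul_nonneg (weight_nonneg x) (Real.rpow_nonneg (zero_le_one.trans (le_max_left _ _)) _)

lemma gfun_le_one {s : ℝ} (hs : 0 ≤ s) (x : mixedSpace K) : gfun s x ≤ 1 := by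
  refine mul_le_one₀ (weight_le_one x)
    (Real.rpow_nonneg (zero_le_one.trans (le_max_left _ _)) _) ?_
  exact Real.rpow_le_one_of_one_le_of_nonpos (le_max_left _ _) (by linarith)

lemma normAtPlace_le_norm (w : InfinitePlace K) (x : mixedSpace K) : normAtPlace w x ≤ ‖x‖ := by
  rw [norm_eq_sup'_normAtPlace]
  exact Finset.le_sup' (fun w => normAtPlace w x) (Finset.mem_univ w)

lemma exists_normAtPlace_eq_norm (x : mixedSpace K) : ∃ w, normAtPlace w x = ‖x‖ := by
  rw [norm_eq_sup'_normAtPlace]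
  obtain ⟨w, -, hw⟩ := Finset.exists_mem_eq_sup' (Finset.univ_nonempty (α := InfinitePlace K))
    (fun w => normAtPlace w x)
  exact ⟨w, hw.symm⟩

lemma log_norm_eq {x : mixedSpace K} (hx : mixedEmbedding.norm x ≠ 0) :
    Real.log (mixedEmbedding.norm x) = ∑ w, (mult w : ℝ) * Real.log (normAtPlace w x) := by
  have h := mixedEmbedding.norm_ne_zero_iff.mp hx
  rw [mixedEmbedding.norm_apply, Real.log_prod (fun w _ => pow_ne_zero _ (h w))]
  simp [Real.log_pow]

/-- On the support of the weight all coordinates are comparable. -/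
lemma exists_weight_bound : ∃ M : ℝ, 0 ≤ M ∧ ∀ x : mixedSpace K, weight x ≠ 0 →
    mixedEmbedding.norm x ≠ 0 ∧ ∀ w, |Real.log (normAtPlace w x)
      - Real.log (mixedEmbedding.norm x) * (finrank ℚ K : ℝ)⁻¹| ≤ M := by
  classical
  set B := (basisUnitLattice K).ofZLatticeBasis ℝ _ with hB
  set M₁ : ℝ := ∑ i, ‖B i‖ with hM₁
  have hM₁0 : 0 ≤ M₁ := Finset.sum_nonneg fun i _ => norm_nonneg _
  refine ⟨(Fintype.card (InfinitePlace K) : ℝ) * M₁ + M₁,
    add_nonneg (mul_nonneg (Nat.cast_nonneg _) hM₁0) hM₁0, fun x hx => ?_⟩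
  have hn : mixedEmbedding.norm x ≠ 0 := fun h => hx (by simp [weight, h])
  refine ⟨hn, ?_⟩
  have hc : ∀ i, |coord i (logMap x)| < 1 := by
    intro i
    refine abs_lt_one_of_tent_ne_zero fun h0 => hx ?_
    unfold weight
    rw [if_neg hn]
    exact Finset.prod_eq_zero (Finset.mem_univ i) h0
  have hL : ‖logMap x‖ ≤ M₁ := by
    calc ‖logMap x‖ = ‖∑ i, coord i (logMap x) • B i‖ := by
          congr 1; exact (B.sum_repr (logMap x)).symm
      _ ≤ ∑ i, ‖coord i (logMap x) • B i‖ := norm_sum_le _ _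
      _ ≤ ∑ i, ‖B i‖ := by
          gcongr with i
          rw [_root_.norm_smul, Real.norm_eq_abs]
          exact mul_le_of_le_one_left (norm_nonneg _) (hc i).le
  set a : InfinitePlace K → ℝ := fun w => (mult w : ℝ) *
    (Real.log (normAtPlace w x) - Real.log (mixedEmbedding.norm x) * (finrank ℚ K : ℝ)⁻¹) with ha
  have ha1 : ∀ w, w ≠ w₀ → |a w| ≤ M₁ := fun w hw =>
    (norm_le_pi_norm (logMap x) ⟨w, hw⟩).trans hL
  have hsum : ∑ w, a w = 0 := by
    simp only [ha, mul_sub, Finset.sum_sub_distrib, ← Finset.sum_mul]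
    rw [← log_norm_eq hn, ← Nat.cast_sum, InfinitePlace.sum_mult_eq]
    field_simp [Nat.cast_ne_zero.mpr (finrank_pos (R := ℚ) (M := K)).ne']
    ring
  have ha2 : ∀ w, |a w| ≤ (Fintype.card (InfinitePlace K) : ℝ) * M₁ + M₁ := by
    intro w
    by_cases hw : w = w₀
    · subst hw
      rw [← Finset.add_sum_erase _ _ (Finset.mem_univ (w₀ : InfinitePlace K))] at hsum
      rw [eq_neg_of_add_eq_zero_left hsum, abs_neg]
      refine (Finset.abs_sum_le_sum_abs _ _).trans ?_
      refine (Finset.sum_le_sum (g := fun _ => M₁)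
        (fun v hv => ha1 v (Finset.ne_of_mem_erase hv))).trans ?_
      rw [Finset.sum_const, nsmul_eq_mul]
      refine le_add_of_le_of_nonneg (mul_le_mul_of_nonneg_right ?_ hM₁0) hM₁0
      exact_mod_cast Finset.card_le_univ _
    · exact (ha1 w hw).trans (le_add_of_nonneg_left (mul_nonneg (Nat.cast_nonneg _) hM₁0))
  intro w
  refine le_trans ?_ (ha2 w)
  rw [ha, abs_mul, Nat.abs_cast]
  exact le_mul_of_one_le_left (abs_nonneg _) (by exact_mod_cast mult_pos)

/-- On the support of the weight every absolute value is at least `δ ‖x‖`. -/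
lemma exists_cone_bound : ∃ δ : ℝ, 0 < δ ∧ δ ≤ 1 ∧ ∀ x : mixedSpace K, weight x ≠ 0 →
    ∀ w, δ * ‖x‖ ≤ normAtPlace w x := by
  obtain ⟨M, hM0, hM⟩ := exists_weight_bound (K := K)
  refine ⟨Real.exp (-(2 * M)), Real.exp_pos _, Real.exp_le_one_iff.mpr (by linarith),
    fun x hx w => ?_⟩
  obtain ⟨hn, hb⟩ := hM x hx
  obtain ⟨v, hv⟩ := exists_normAtPlace_eq_norm x
  have hne := mixedEmbedding.norm_ne_zero_iff.mp hn
  have pw := (normAtPlace_nonneg w x).lt_of_ne (hne w).symm
  have pv := (normAtPlace_nonneg v x).lt_of_ne (hne v).symm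
  rw [← hv, ← Real.exp_log pv, ← Real.exp_log pw, ← Real.exp_add]
  refine Real.exp_le_exp.mpr ?_
  have h1 := abs_le.mp (hb w)
  have h2 := abs_le.mp (hb v)
  linarith

lemma exists_coord_bound : ∃ C : ℝ, 0 ≤ C ∧ ∀ (i : Fin (Units.rank K)) (v : logSpace K),
    |coord i v| ≤ C * ‖v‖ := by
  refine ⟨∑ i : Fin (Units.rank K), ‖LinearMap.toContinuousLinearMap (coord (K := K) i)‖,
    by positivity, fun i v => ?_⟩
  have h := (LinearMap.toContinuousLinearMap (coord (K := K) i)).le_opNorm v
  rw [Real.norm_eq_abs] at h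
  refine h.trans (mul_le_mul_of_nonneg_right ?_ (norm_nonneg _))
  exact Finset.single_le_sum
    (f := fun i => ‖LinearMap.toContinuousLinearMap (coord (K := K) i)‖)
    (fun _ _ => norm_nonneg _) (Finset.mem_univ i)

lemma abs_normAtPlace_add_sub_le (w : InfinitePlace K) (x r : mixedSpace K) :
    |normAtPlace w (x + r) - normAtPlace w x| ≤ ‖r‖ := by
  have h1 := normAtPlace_add_le w x r
  have h2 := normAtPlace_add_le w (x + r) (-r)
  rw [add_neg_cancel_right, normAtPlace_neg] at h2
  have h3 := normAtPlace_le_norm w r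
  rw [abs_le]; constructor <;> linarith

lemma pow_finrank_le_norm {m : ℝ} (hm : 0 ≤ m) {y : mixedSpace K}
    (hy : ∀ w, m ≤ normAtPlace w y) : m ^ finrank ℚ K ≤ mixedEmbedding.norm y := by
  rw [mixedEmbedding.norm_apply, ← InfinitePlace.sum_mult_eq, ← Finset.prod_pow_eq_pow_sum]
  exact Finset.prod_le_prod (fun w _ => by positivity)
    fun w _ => pow_le_pow_left₀ hm (hy w) _

/-- If all logarithmic absolute values of `x` and `y` differ by at most `e`, so do, up to constant
factors, the logarithms of their norms and their images in the log space. -/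
lemma norm_logMap_sub_le {x y : mixedSpace K} (hx : mixedEmbedding.norm x ≠ 0)
    (hy : mixedEmbedding.norm y ≠ 0) {e : ℝ} (he0 : 0 ≤ e)
    (hlog : ∀ w, |Real.log (normAtPlace w y) - Real.log (normAtPlace w x)| ≤ e) :
    |Real.log (mixedEmbedding.norm y) - Real.log (mixedEmbedding.norm x)| ≤ finrank ℚ K * e ∧
      ‖logMap y - logMap x‖ ≤ 4 * e := by
  set d := finrank ℚ K with hd
  have hdpos : (0:ℝ) < d := Nat.cast_pos.mpr finrank_pos
  have hsumd : (∑ w : InfinitePlace K, (mult w : ℝ)) = d := by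
    rw [← Nat.cast_sum, InfinitePlace.sum_mult_eq]
  have hlogN : |Real.log (mixedEmbedding.norm y) - Real.log (mixedEmbedding.norm x)|
      ≤ d * e := by
    rw [log_norm_eq hx, log_norm_eq hy, ← Finset.sum_sub_distrib, ← hsumd, Finset.sum_mul]
    refine (Finset.abs_sum_le_sum_abs _ _).trans (Finset.sum_le_sum fun w _ => ?_)
    rw [← mul_sub, abs_mul, Nat.abs_cast]
    exact mul_le_mul_of_nonneg_left (hlog w) (Nat.cast_nonneg _)
  have hlm : ‖logMap y - logMap x‖ ≤ 4 * e := by
    refine (pi_norm_le_iff_of_nonneg (by linarith)).mpr fun w => ?_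
    rw [Real.norm_eq_abs, Pi.sub_apply, logMap_apply, logMap_apply, ← mul_sub, abs_mul,
      Nat.abs_cast]
    have hm2 : (mult w.val : ℝ) ≤ 2 := by
      have : mult w.val ≤ 2 := by unfold InfinitePlace.mult; split_ifs <;> norm_num
      exact_mod_cast this
    calc (mult w.val : ℝ) * _ ≤ 2 * (e + e) := by
          refine mul_le_mul hm2 ?_ (abs_nonneg _) (by norm_num)
          set L2 := Real.log (mixedEmbedding.norm y)
          set L1 := Real.log (mixedEmbedding.norm x)
          have e1 : Real.log (normAtPlace w.val y) - L2 * (d : ℝ)⁻¹ -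
              (Real.log (normAtPlace w.val x) - L1 * (d : ℝ)⁻¹) =
              (Real.log (normAtPlace w.val y) - Real.log (normAtPlace w.val x)) -
              (L2 - L1) * (d : ℝ)⁻¹ := by ring
          rw [e1]
          refine (abs_sub _ _).trans (add_le_add (hlog w.val) ?_)
          rw [abs_mul, abs_inv, Nat.abs_cast, ← div_eq_mul_inv, div_le_iff₀ hdpos]
          linarith
      _ = 4 * e := by ring
  exact ⟨hlogN, hlm⟩

/-- Translating the weight function costs a summable error, uniformly for `1 ≤ s ≤ 2`. -/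
theorem exists_gfun_translate_bound (r : mixedSpace K) : ∃ C : ℝ, ∀ s : ℝ, 1 ≤ s → s ≤ 2 →
    ∀ x : mixedSpace K, |gfun s (x + r) - gfun s x| ≤ C / (1 + ‖x‖) ^ (finrank ℚ K + 1) := by
  obtain ⟨δ, hδ0, hδ1, hδ⟩ := exists_cone_bound (K := K)
  obtain ⟨C₁, hC₁0, hC₁⟩ := exists_coord_bound (K := K)
  set d := finrank ℚ K with hd
  set R := ‖r‖ with hR
  have hR0 : 0 ≤ R := norm_nonneg r
  set A := 8 * (R + 1) / δ with hA
  set Cfar : ℝ := ((Units.rank K : ℝ) * C₁ * 4 + 2 * d) * (8 * R / δ) * (8 / δ) ^ d with hCfar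
  clear_value A Cfar
  refine ⟨max ((1 + A) ^ (d + 1)) (Cfar * 2 ^ (d + 1)), fun s hs1 hs2 x => ?_⟩
  have hx0 : 0 ≤ ‖x‖ := norm_nonneg x
  have hpos : 0 < (1 + ‖x‖) ^ (d + 1) := pow_pos (by linarith) _
  rw [le_div_iff₀ hpos]
  by_cases hxA : ‖x‖ < A
  · refine le_trans ?_ (le_max_left _ _)
    have h1 : |gfun s (x + r) - gfun s x| ≤ 1 :=
      abs_sub_le_of_nonneg_of_le (gfun_nonneg _ _) (gfun_le_one (by linarith) _)
        (gfun_nonneg _ _) (gfun_le_one (by linarith) _)
    calc |gfun s (x + r) - gfun s x| * (1 + ‖x‖) ^ (d + 1) ≤ 1 * (1 + ‖x‖) ^ (d + 1) :=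
          mul_le_mul_of_nonneg_right h1 hpos.le
      _ ≤ (1 + A) ^ (d + 1) := by
          rw [one_mul]; exact pow_le_pow_left₀ (by linarith) (by linarith) _
  have hxA := not_lt.mp hxA
  refine le_trans ?_ (le_max_right _ _)
  have h8 : 8 * (R + 1) ≤ δ * ‖x‖ := by
    rw [hA, div_le_iff₀ hδ0] at hxA; linarith
  have hδx : δ * ‖x‖ ≤ ‖x‖ := mul_le_of_le_one_left (norm_nonneg _) hδ1
  have hx1 : 1 ≤ ‖x‖ := by linarith
  have hδxr : δ * ‖x‖ - δ * R ≤ δ * ‖x + r‖ := by
    rw [← mul_sub]
    refine mul_le_mul_of_nonneg_left ?_ hδ0.le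
    have := norm_sub_norm_le x (-r)
    rw [norm_neg, sub_neg_eq_add] at this
    linarith
  have hw_diff : ∀ w, |normAtPlace w (x + r) - normAtPlace w x| ≤ R := fun w =>
    abs_normAtPlace_add_sub_le w x r
  have hCfar0 : 0 ≤ Cfar := hCfar ▸ mul_nonneg (mul_nonneg (add_nonneg (mul_nonneg
    (mul_nonneg (Nat.cast_nonneg _) hC₁0) (by norm_num)) (by positivity))
    (div_nonneg (by linarith) hδ0.le)) (pow_nonneg (div_nonneg (by norm_num) hδ0.le) _)
  by_cases hgood : ∀ w, δ / 4 * ‖x‖ ≤ normAtPlace w x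
  swap
  · push Not at hgood
    obtain ⟨w, hw⟩ := hgood
    have h0 : weight x = 0 := by
      by_contra hne
      have := hδ x hne w
      nlinarith
    have h1 : weight (x + r) = 0 := by
      by_contra hne
      have h4 := hδ _ hne w
      have h5 := (abs_le.mp (hw_diff w)).2
      have h6 : δ * R ≤ R := mul_le_of_le_one_left hR0 hδ1
      nlinarith
    simp only [gfun, h0, h1, zero_mul, sub_self, abs_zero]
    exact mul_nonneg hCfar0 (pow_nonneg zero_le_two _)
  set m := δ / 8 * ‖x‖ with hm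
  have hm1 : 1 ≤ m := by rw [hm]; nlinarith
  have hmx : ∀ w, m ≤ normAtPlace w x := fun w => by have := hgood w; rw [hm]; nlinarith
  have hmxr : ∀ w, m ≤ normAtPlace w (x + r) := fun w => by
    have := hgood w; have := (abs_le.mp (hw_diff w)).1; rw [hm]; nlinarith
  set e := R / m with he
  have he0 : 0 ≤ e := div_nonneg hR0 (by linarith)
  clear_value e m
  have hlog : ∀ w, |Real.log (normAtPlace w (x + r)) - Real.log (normAtPlace w x)| ≤ e :=
    fun w => (abs_log_sub_log_le m (by linarith) (hmxr w) (hmx w)).trans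
      (by rw [he]; exact div_le_div_of_nonneg_right (hw_diff w) (zero_le_one.trans hm1))
  have hn1 : mixedEmbedding.norm x ≠ 0 := mixedEmbedding.norm_ne_zero_iff.mpr fun w =>
    (lt_of_lt_of_le (by linarith) (hmx w)).ne'
  have hn2 : mixedEmbedding.norm (x + r) ≠ 0 := mixedEmbedding.norm_ne_zero_iff.mpr fun w =>
    (lt_of_lt_of_le (by linarith) (hmxr w)).ne'
  obtain ⟨hlogN, hlm⟩ := norm_logMap_sub_le hn1 hn2 he0 hlog
  have hW : |weight (x + r) - weight x| ≤ (Units.rank K : ℝ) * C₁ * 4 * e := by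
    unfold weight
    rw [if_neg hn1, if_neg hn2]
    refine (abs_prod_sub_prod_le _ _ _ (fun i _ => ⟨tent_nonneg _, tent_le_one _⟩)
      (fun i _ => ⟨tent_nonneg _, tent_le_one _⟩)).trans ?_
    calc ∑ i, |tent (coord i (logMap (x + r))) - tent (coord i (logMap x))|
        ≤ ∑ _i : Fin (Units.rank K), C₁ * (4 * e) := by
          refine Finset.sum_le_sum fun i _ => (tent_lipschitz _ _).trans ?_
          rw [← map_sub]
          exact (hC₁ i _).trans (mul_le_mul_of_nonneg_left hlm hC₁0)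
      _ = _ := by simp; ring
  have hNlow : ∀ y : mixedSpace K, (∀ w, m ≤ normAtPlace w y) →
      m ^ d ≤ mixedEmbedding.norm y := fun y => pow_finrank_le_norm (by linarith)
  have hmd : 1 ≤ m ^ d := one_le_pow₀ hm1
  have hN1 := hmd.trans (hNlow x hmx)
  have hN2 := hmd.trans (hNlow _ hmxr)
  have hsmall : ∀ y : mixedSpace K, (∀ w, m ≤ normAtPlace w y) →
      -s * Real.log (mixedEmbedding.norm y) ≤ -Real.log (m ^ d) := by
    intro y hy
    have h1 := Real.log_le_log (by positivity) (hNlow y hy)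
    have h2 := Real.log_nonneg hmd
    nlinarith
  unfold gfun
  rw [max_eq_right hN1, max_eq_right hN2, Real.rpow_def_of_pos (by linarith),
    Real.rpow_def_of_pos (by linarith), mul_comm (Real.log _) (-s), mul_comm (Real.log _) (-s)]
  set E2 := Real.exp (-s * Real.log (mixedEmbedding.norm (x + r)))
  set E1 := Real.exp (-s * Real.log (mixedEmbedding.norm x))
  have hExp : Real.exp (-Real.log (m ^ d)) = (m ^ d)⁻¹ := by
    rw [Real.exp_neg, Real.exp_log (by positivity)]
  have hE1 : E1 ≤ (m ^ d)⁻¹ := hExp ▸ Real.exp_le_exp.mpr (hsmall x hmx)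
  have hE12 : |E2 - E1| ≤ (m ^ d)⁻¹ * (2 * (d * e)) := by
    refine (abs_exp_sub_exp_le (hsmall _ hmxr) (hsmall x hmx)).trans ?_
    rw [hExp, ← mul_sub, abs_mul, abs_neg, abs_of_nonneg (by linarith : 0 ≤ s)]
    exact mul_le_mul_of_nonneg_left
      (mul_le_mul hs2 hlogN (abs_nonneg _) (by norm_num)) (by positivity)
  have hmain : |weight (x + r) * E2 - weight x * E1| ≤
      ((Units.rank K : ℝ) * C₁ * 4 + 2 * d) * e * (m ^ d)⁻¹ := by
    calc |weight (x + r) * E2 - weight x * E1|
        = |(weight (x + r) - weight x) * E1 + weight (x + r) * (E2 - E1)| := by ring_nf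
      _ ≤ |weight (x + r) - weight x| * E1 + weight (x + r) * |E2 - E1| := by
          refine (abs_add_le _ _).trans (add_le_add ?_ ?_)
          · rw [abs_mul, abs_of_pos (Real.exp_pos _)]
          · rw [abs_mul, abs_of_nonneg (weight_nonneg _)]
      _ ≤ (Units.rank K : ℝ) * C₁ * 4 * e * (m ^ d)⁻¹ + 1 * ((m ^ d)⁻¹ * (2 * (d * e))) := by
          exact add_le_add
            (mul_le_mul hW hE1 (Real.exp_pos _).le (le_trans (abs_nonneg _) hW))
            (mul_le_mul (weight_le_one _) hE12 (abs_nonneg _) zero_le_one)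
      _ = _ := by ring
  exact far_bound_mul_le hδ0 hx1 (by positivity) hR0 hm he hCfar hmain

end Fermat.Agent.ExtVan
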