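import Mathlib.Algebra.Module.ZLattice.Summable
import Mathlib.LinearAlgebra.FreeModule.IdealQuotient
import Mathlib.NumberTheory.NumberField.DedekindZeta
import Fermat.Agent.ExtVan.Tent

/-!
Partial zeta functions of the ideal classes differ by bounded amounts as `s → 1+`. This gives the
boundedness at `s = 1` of nontrivial class group `L`-series.
-/

noncomputable section

namespace Fermat.Agent.ExtVan

open NumberField NumberField.InfinitePlace NumberField.mixedEmbedding Module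
open NumberField.Units NumberField.Units.dirichletUnitTheorem
open NumberField.mixedEmbedding.fundamentalCone
open Filter Topology
open scoped nonZeroDivisors Classical

variable {K : Type*} [Field K] [NumberField K]

/-- `N I ^ (-s)`. -/
def nrm (s : ℝ) (I : (Ideal (𝓞 K))⁰) : ℝ := (Ideal.absNorm I.1 : ℝ) ^ (-s)

lemma nrm_nonneg (s : ℝ) (I : (Ideal (𝓞 K))⁰) : 0 ≤ nrm s I :=
  Real.rpow_nonneg (Nat.cast_nonneg _) _

/-- The Dedekind zeta function as a real sum over nonzero ideals. -/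
def zetaR (K : Type*) [Field K] [NumberField K] (s : ℝ) : ℝ := ∑' I : (Ideal (𝓞 K))⁰, nrm s I

/-- The Dirichlet series counting ideals by norm converges absolutely for `s > 1`. -/
lemma lseriesSummable_count {s : ℝ} (hs : 1 < s) :
    LSeriesSummable (fun n ↦ Nat.card {I : Ideal (𝓞 K) // Ideal.absNorm I = n}) (s : ℂ) := by
  have h : Tendsto (fun n : ℕ ↦ (∑ k ∈ Finset.Icc 1 n,
      (Nat.card {I : Ideal (𝓞 K) // Ideal.absNorm I = k} : ℝ)) / n) atTop
      (𝓝 (dedekindZeta_residue K)) := by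
    refine ((NumberField.Ideal.tendsto_norm_le_div_atTop₀ K).comp
      tendsto_natCast_atTop_atTop).congr fun n ↦ ?_
    simp only [Function.comp_apply, Nat.cast_le, ← Nat.cast_sum]
    congr
    rw [← add_left_inj 1, ← Ideal.card_norm_le_eq_card_norm_le_add_one,
      show Finset.Icc 1 n = Finset.Ioc 0 n from Finset.Icc_succ_left_eq_Ioc _ _,
      show 1 = Nat.card {I : Ideal (𝓞 K) // Ideal.absNorm I = 0} by
        simp [Ideal.absNorm_eq_zero_iff],
      Finset.sum_Ioc_add_eq_sum_Icc (n.zero_le),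
      ← Finset.card_preimage_eq_sum_card_image_eq (fun k _ ↦ Ideal.finite_setOfPred_absNorm_eq k)]
    simp [Set.coe_eq_subtype]
  have := LSeriesSummable_of_sum_norm_bigO_and_nonneg
    (f := fun n ↦ (Nat.card {I : Ideal (𝓞 K) // Ideal.absNorm I = n} : ℝ))
    (r := 1) (s := (s : ℂ))
      (Asymptotics.isBigO_atTop_natCast_rpow_of_tendsto_div_rpow (by simpa using h))
    (fun n ↦ Nat.cast_nonneg _) zero_le_one (by simpa using hs)
  simpa using this

lemma fibre_finite (n : ℕ) : Finite {I : (Ideal (𝓞 K))⁰ // Ideal.absNorm I.1 = n} := by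
  have : Finite {I : Ideal (𝓞 K) // Ideal.absNorm I = n} :=
    (Ideal.finite_setOfPred_absNorm_eq n).to_subtype
  exact Finite.of_injective (fun I => (⟨I.1.1, I.2⟩ : {I : Ideal (𝓞 K) // Ideal.absNorm I = n}))
    fun a b h => Subtype.ext (Subtype.ext (congrArg Subtype.val h :))

/-- The ideals of norm `n` contribute the `n`-th term of that Dirichlet series. -/
lemma fibre_tsum (s : ℝ) (n : ℕ) :
    ((∑' I : {I : (Ideal (𝓞 K))⁰ // Ideal.absNorm I.1 = n}, nrm s I.1 : ℝ) : ℂ) =
      LSeries.term (fun n ↦ Nat.card {I : Ideal (𝓞 K) // Ideal.absNorm I = n}) (s : ℂ) n := by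
  have := fibre_finite (K := K) n
  have : Fintype {I : (Ideal (𝓞 K))⁰ // Ideal.absNorm I.1 = n} := Fintype.ofFinite _
  rcases eq_or_ne n 0 with rfl | hn
  · have : IsEmpty {I : (Ideal (𝓞 K))⁰ // Ideal.absNorm I.1 = 0} :=
      ⟨fun I => Ideal.absNorm_ne_zero_of_nonZeroDivisors I.1 I.2⟩
    simp [tsum_empty]
  · rw [tsum_fintype, LSeries.term_of_ne_zero hn,
      Finset.sum_congr rfl (g := fun _ => (n : ℝ) ^ (-s)) (fun I _ => by rw [nrm, I.2]),
      Finset.sum_const, nsmul_eq_mul, Complex.ofReal_mul,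
      Complex.ofReal_cpow (Nat.cast_nonneg n), Complex.ofReal_neg, Complex.cpow_neg,
      Complex.ofReal_natCast, ← div_eq_mul_inv, Finset.card_univ, ← Nat.card_eq_fintype_card]
    congr 2
    refine Nat.card_congr ⟨fun I => ⟨I.1.1, I.2⟩, fun I => ⟨⟨I.1, ?_⟩, I.2⟩, fun _ => rfl,
      fun _ => rfl⟩
    refine mem_nonZeroDivisors_of_ne_zero fun h => hn ?_
    simpa [h] using I.2.symm

lemma summable_nrm {s : ℝ} (hs : 1 < s) : Summable (nrm (K := K) s) := by
  rw [← (Equiv.sigmaFiberEquiv fun I : (Ideal (𝓞 K))⁰ => Ideal.absNorm I.1).summable_iff]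
  refine (summable_sigma_of_nonneg fun x => nrm_nonneg _ _).mpr ⟨fun n => ?_, ?_⟩
  · have := fibre_finite (K := K) n
    exact Summable.of_finite
  · rw [← Complex.summable_ofReal]
    simp only [Equiv.sigmaFiberEquiv, Equiv.coe_fn_mk]
    simp_rw [fibre_tsum]
    exact lseriesSummable_count hs

lemma dedekindZeta_eq_zetaR {s : ℝ} (hs : 1 < s) :
    dedekindZeta K (s : ℂ) = (zetaR K s : ℂ) := by
  unfold zetaR
  rw [← (Equiv.sigmaFiberEquiv fun I : (Ideal (𝓞 K))⁰ => Ideal.absNorm I.1).tsum_eq,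
    Summable.tsum_sigma (f := fun c => nrm s
      (Equiv.sigmaFiberEquiv (fun I : (Ideal (𝓞 K))⁰ => Ideal.absNorm I.1) c))
      ((Equiv.sigmaFiberEquiv fun I : (Ideal (𝓞 K))⁰ => Ideal.absNorm I.1).summable_iff.mpr
        (summable_nrm hs) :),
    Complex.ofReal_tsum]
  simp only [Equiv.sigmaFiberEquiv, Equiv.coe_fn_mk, fibre_tsum]
  rfl

/-- `(s - 1) ζ_K(s)` tends to the residue. -/
lemma tendsto_zetaR :
    Tendsto (fun s : ℝ => (s - 1) * zetaR K s) (𝓝[>] 1) (𝓝 (dedekindZeta_residue K)) := by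
  have h := (Complex.continuous_re.tendsto _).comp (tendsto_sub_one_mul_dedekindZeta_nhdsGT K)
  rw [Complex.ofReal_re] at h
  refine h.congr' ?_
  filter_upwards [self_mem_nhdsWithin] with s hs
  rw [Function.comp_apply, dedekindZeta_eq_zetaR hs]
  simp

/-- The image of an algebraic integer in the mixed space. -/
def emb (x : 𝓞 K) : mixedSpace K := mixedEmbedding K (x : K)

lemma emb_injective : Function.Injective (emb (K := K)) :=
  (mixedEmbedding_injective K).comp RingOfIntegers.coe_injective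

omit [NumberField K] in
lemma emb_add (x y : 𝓞 K) : emb (x + y) = emb x + emb y := by simp [emb]

/-- The translation error `(1 + ‖x‖) ^ (-(d + 1))` is summable over the integers. -/
lemma summable_H : Summable fun x : 𝓞 K => ((1 + ‖emb x‖) ^ (finrank ℚ K + 1))⁻¹ := by
  have hfin : finrank ℤ (mixedEmbedding.integerLattice K) = finrank ℚ K := by
    rw [ZLattice.rank ℝ (mixedEmbedding.integerLattice K), mixedEmbedding.finrank]
  have hsum := ZLattice.summable_norm_pow_inv (mixedEmbedding.integerLattice K) (finrank ℚ K + 1)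
    (by omega)
  have hinj : Function.Injective (fun x : 𝓞 K => (⟨emb x, ⟨x, rfl⟩⟩ :
      mixedEmbedding.integerLattice K)) := fun x y h => emb_injective (congrArg Subtype.val h)
  refine Summable.of_norm_bounded_eventually (hsum.comp_injective hinj) ?_
  rw [Filter.eventually_cofinite]
  refine (Set.finite_singleton (0 : 𝓞 K)).subset fun x hx => ?_
  by_contra h0
  refine hx ?_
  have hpos : 0 < ‖emb x‖ :=
    norm_pos_iff.mpr fun h => h0 (emb_injective (by rw [h]; simp [emb]))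
  have hle : ‖emb x‖ ^ (finrank ℚ K + 1) ≤ (1 + ‖emb x‖) ^ (finrank ℚ K + 1) :=
    pow_le_pow_left₀ hpos.le (by linarith) _
  simp only [Real.norm_eq_abs, Function.comp_apply, inv_pow]
  rw [abs_of_nonneg (by positivity)]
  exact inv_anti₀ (pow_pos hpos _) hle

/-! ### The unit partition -/

/-- The product of the inverse fundamental units with exponents `k i ∈ {0, 1}`. -/
def epsU (k : Fin (Units.rank K) → Fin 2) : (𝓞 K)ˣ :=
  ∏ i, fundSystem K i ^ (-((k i : ℕ) : ℤ))

lemma coord_basis (i j : Fin (Units.rank K)) :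
    coord j (basisUnitLattice K i : logSpace K) = if i = j then 1 else 0 := by
  rw [coord, ← Basis.ofZLatticeBasis_apply ℝ (unitLattice K) (basisUnitLattice K) i,
    Basis.coord_apply, Basis.repr_self, Finsupp.single_apply]

lemma coord_logEmbedding_prod (m : Fin (Units.rank K) → ℤ) (j : Fin (Units.rank K)) :
    coord j (logEmbedding K (Additive.ofMul (∏ i, fundSystem K i ^ m i))) = m j := by
  rw [ofMul_prod, map_sum, map_sum]
  simp only [ofMul_zpow, map_zsmul, logEmbedding_fundSystem, coord_basis]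
  simp

lemma coord_mem_of_mem_cone {a : mixedSpace K} (ha : a ∈ fundamentalCone K)
    (j : Fin (Units.rank K)) : 0 ≤ coord j (logMap a) ∧ coord j (logMap a) < 1 :=
  (ZSpan.mem_fundamentalDomain _).mp ha.1 j

lemma coord_epsU_smul {a : mixedSpace K} (ha : a ∈ fundamentalCone K)
    (k : Fin (Units.rank K) → Fin 2) (j : Fin (Units.rank K)) :
    coord j (logMap (epsU k • a)) = coord j (logMap a) - ((k j : ℕ) : ℝ) := by
  rw [logMap_unit_smul _ (norm_pos_of_mem ha).ne', map_add, epsU, coord_logEmbedding_prod]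
  push_cast
  ring

/-- The translates of a point of the fundamental cone by the `epsU k` have weights summing to `1`.
-/
lemma sum_weight_eq_one {a : mixedSpace K} (ha : a ∈ fundamentalCone K) :
    ∑ k : Fin (Units.rank K) → Fin 2, weight (epsU k • a) = 1 := by
  have hn : ∀ k, mixedEmbedding.norm (epsU (K := K) k • a) ≠ 0 := fun k => by
    rw [norm_unit_smul]; exact (norm_pos_of_mem ha).ne'
  simp only [weight, if_neg (hn _), coord_epsU_smul ha]
  rw [← Fintype.prod_sum (fun j (e : Fin 2) => tent (coord j (logMap a) - ((e : ℕ) : ℝ)))]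
  refine Finset.prod_eq_one fun j _ => ?_
  obtain ⟨h0, h1⟩ := coord_mem_of_mem_cone ha j
  rw [Fin.sum_univ_two, add_comm]
  simpa using tent_add_tent h0 h1

variable (J : (Ideal (𝓞 K))⁰)

/-- The sum over the elements of `J` of the weighted `max (1, |N x|) ^ (-s)`. -/
def lsum (s : ℝ) : ℝ := ∑' x : (J : Ideal (𝓞 K)), gfun s (emb (x : 𝓞 K))

/-- The element `epsU k · a` of `J` attached to `k` and to `a` in the cone. -/
def pairMap (z : (Fin (Units.rank K) → Fin 2) × idealSet K J) : (J : Ideal (𝓞 K)) :=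
  ⟨(epsU z.1 : 𝓞 K) * (preimageOfMemIntegerSet (idealSetMap K J z.2) : 𝓞 K),
    (J : Ideal (𝓞 K)).mul_mem_left _ (preimage_of_IdealSetMap K J z.2)⟩

lemma emb_pairMap (z : (Fin (Units.rank K) → Fin 2) × idealSet K J) :
    emb (pairMap J z : 𝓞 K) = epsU z.1 • (z.2 : mixedSpace K) := by
  rw [unitSMul_smul, emb, pairMap, RingOfIntegers.coe_eq_algebraMap, map_mul, map_mul,
    mixedEmbedding_preimageOfMemIntegerSet, idealSetMap_apply]

lemma pairMap_injective : Function.Injective (pairMap J) := by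
  rintro ⟨k, a⟩ ⟨k', a'⟩ h
  have he : epsU k • (a : mixedSpace K) = epsU k' • (a' : mixedSpace K) := by
    rw [← emb_pairMap J (k, a), ← emb_pairMap J (k', a'), h]
  have hk : k = k' := by
    funext j
    have h1 := coord_epsU_smul a.2.1 k j
    rw [he, coord_epsU_smul a'.2.1 k' j] at h1
    obtain ⟨p0, p1⟩ := coord_mem_of_mem_cone a.2.1 j
    obtain ⟨q0, q1⟩ := coord_mem_of_mem_cone a'.2.1 j
    have l1 : ((k j : ℕ) : ℝ) < ((k' j : ℕ) : ℝ) + 1 := by linarith
    have l2 : ((k' j : ℕ) : ℝ) < ((k j : ℕ) : ℝ) + 1 := by linarith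
    have n1 : (k j : ℕ) < (k' j : ℕ) + 1 := by exact_mod_cast l1
    have n2 : (k' j : ℕ) < (k j : ℕ) + 1 := by exact_mod_cast l2
    exact Fin.ext (by omega)
  subst hk
  exact Prod.ext rfl (Subtype.ext (MulAction.injective (epsU k) he))

/-- The summand of `lsum` is supported on the image of `pairMap`. -/
lemma support_subset_range (s : ℝ) :
    Function.support (fun x : (J : Ideal (𝓞 K)) => gfun s (emb (x : 𝓞 K))) ⊆
      Set.range (pairMap J) := by
  intro x hx
  have hw : weight (emb (x : 𝓞 K)) ≠ 0 := fun h => hx (by simp [gfun, h])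
  have hn : mixedEmbedding.norm (emb (x : 𝓞 K)) ≠ 0 := fun h => hw (by simp [weight, h])
  obtain ⟨u, hu⟩ := exists_unit_smul_mem hn
  obtain ⟨⟨ζ, m⟩, hζ, -⟩ := exist_unique_eq_mul_prod K u
  simp only at hζ
  set a := (∏ i, fundSystem K i ^ m i) • emb (x : 𝓞 K) with ha
  have hac : a ∈ fundamentalCone K := by
    have h := torsion_smul_mem_of_mem hu ((torsion K).inv_mem ζ.2)
    rwa [hζ, mul_smul, inv_smul_smul] at h
  have haJ : a ∈ idealSet K J := by
    refine mem_idealSet.mpr ⟨hac, ((∏ i, fundSystem K i ^ m i : (𝓞 K)ˣ) : 𝓞 K) * x,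
      (J : Ideal (𝓞 K)).mul_mem_left _ x.2, ?_⟩
    rw [ha, unitSMul_smul, emb]
    simp only [map_mul]
  have hm : ∀ j, m j = 0 ∨ m j = 1 := by
    intro j
    obtain ⟨p0, p1⟩ := coord_mem_of_mem_cone hac j
    rw [ha, logMap_unit_smul _ hn, map_add, coord_logEmbedding_prod] at p0 p1
    have ht : tent (coord j (logMap (emb (x : 𝓞 K)))) ≠ 0 := by
      rw [weight, if_neg hn, Finset.prod_ne_zero_iff] at hw
      exact hw j (Finset.mem_univ j)
    obtain ⟨t0, t1⟩ := abs_lt.mp (abs_lt_one_of_tent_ne_zero ht)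
    have l1 : (m j : ℝ) < 2 := by linarith
    have l2 : (-1 : ℝ) < m j := by linarith
    have n1 : m j < 2 := by exact_mod_cast l1
    have n2 : -1 < m j := by exact_mod_cast l2
    omega
  have hmk : ∀ j, (((if m j = 0 then (0 : Fin 2) else 1) : Fin 2) : ℕ) = (m j : ℤ) := by
    intro j; rcases hm j with h | h <;> simp [h]
  refine ⟨(fun j => if m j = 0 then 0 else 1, ⟨a, haJ⟩), Subtype.ext (emb_injective ?_)⟩
  rw [emb_pairMap]
  simp only [ha, ← mul_smul, epsU, hmk, ← Finset.prod_mul_distrib, zpow_neg, inv_mul_cancel,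
    Finset.prod_const_one, one_smul]

/-- Nonzero elements of `J` in the cone versus principal ideals. -/
def idealSetPrincipalEquiv : idealSet K J ≃
    {I : (Ideal (𝓞 K))⁰ // (J : Ideal (𝓞 K)) ∣ I ∧ Submodule.IsPrincipal (I : Ideal (𝓞 K))}
      × torsion K :=
  (idealSetEquiv K J).trans <|
    (Equiv.subtypeEquiv (q := fun z => (J : Ideal (𝓞 K)) ∣ z.1.1.1) (integerSetEquiv K)
      (fun a => by simp [Ideal.dvd_span_singleton])).trans <|
    (Equiv.prodSubtypeFstEquivSubtypeProd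
      (p := fun I : {I : (Ideal (𝓞 K))⁰ // Submodule.IsPrincipal I.1} =>
        (J : Ideal (𝓞 K)) ∣ I.1.1)).trans <|
    Equiv.prodCongrLeft fun _ => (Equiv.subtypeSubtypeEquivSubtypeInter
      (fun I : (Ideal (𝓞 K))⁰ => Submodule.IsPrincipal I.1)
      (fun I => (J : Ideal (𝓞 K)) ∣ I.1)).trans (Equiv.subtypeEquivRight fun _ => and_comm)

lemma norm_of_idealSet (a : idealSet K J) :
    mixedEmbedding.norm (a : mixedSpace K) =
      Ideal.absNorm ((idealSetPrincipalEquiv J a).1.1 : Ideal (𝓞 K)) := by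
  rw [← intNorm_idealSetEquiv_apply, intNorm, ← Ideal.absNorm_span_singleton]
  rfl

lemma gfun_pair (s : ℝ) (z : (Fin (Units.rank K) → Fin 2) × idealSet K J) :
    gfun s (emb (pairMap J z : 𝓞 K)) =
      weight (epsU z.1 • (z.2 : mixedSpace K)) * nrm s (idealSetPrincipalEquiv J z.2).1.1 := by
  rw [emb_pairMap, gfun, norm_unit_smul, norm_of_idealSet, nrm, max_eq_right]
  exact_mod_cast Nat.one_le_iff_ne_zero.mpr (Ideal.absNorm_ne_zero_of_nonZeroDivisors _)

lemma summable_idealSet {s : ℝ} (hs : 1 < s) :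
    Summable fun a : idealSet K J => nrm s (idealSetPrincipalEquiv J a).1.1 := by
  have h1 : Summable fun I : {I : (Ideal (𝓞 K))⁰ //
      (J : Ideal (𝓞 K)) ∣ I ∧ Submodule.IsPrincipal (I : Ideal (𝓞 K))} => nrm s I.1 :=
    (summable_nrm hs).subtype _
  have h2 : Summable fun z : {I : (Ideal (𝓞 K))⁰ //
      (J : Ideal (𝓞 K)) ∣ I ∧ Submodule.IsPrincipal (I : Ideal (𝓞 K))} × torsion K =>
      nrm s z.1.1 :=
    (summable_prod_of_nonneg fun z => nrm_nonneg _ _).mpr ⟨fun _ => Summable.of_finite,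
      by simpa using h1.mul_left (Nat.card (torsion K) : ℝ)⟩
  exact ((idealSetPrincipalEquiv J).summable_iff.mpr h2 :)

lemma summable_pair {s : ℝ} (hs : 1 < s) :
    Summable fun z : (Fin (Units.rank K) → Fin 2) × idealSet K J =>
      gfun s (emb (pairMap J z : 𝓞 K)) := by
  refine (summable_prod_of_nonneg fun z => gfun_nonneg _ _).mpr
    ⟨fun k => Summable.of_nonneg_of_le (fun _ => gfun_nonneg _ _) (fun a => ?_)
      (summable_idealSet J hs), Summable.of_finite⟩
  rw [gfun_pair]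
  exact mul_le_of_le_one_left (nrm_nonneg _ _) (weight_le_one _)

lemma summable_lsum {s : ℝ} (hs : 1 < s) :
    Summable fun x : (J : Ideal (𝓞 K)) => gfun s (emb (x : 𝓞 K)) :=
  ((pairMap_injective J).summable_iff fun _ hx =>
    Function.notMem_support.mp fun h => hx (support_subset_range J s h)).mp (summable_pair J hs)

/-- `lsum J s` is the number of roots of unity times the sum of `N I ^ (-s)` over the principal
ideals `I` divisible by `J`. -/
lemma lsum_eq {s : ℝ} (hs : 1 < s) :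
    lsum J s = torsionOrder K * ∑' I : {I : (Ideal (𝓞 K))⁰ //
      (J : Ideal (𝓞 K)) ∣ I ∧ Submodule.IsPrincipal (I : Ideal (𝓞 K))}, nrm s I.1 := by
  let w : (Fin (Units.rank K) → Fin 2) → idealSet K J → ℝ :=
    fun k a => weight (epsU k • (a : mixedSpace K))
  let F : idealSet K J → ℝ := fun a => nrm s (idealSetPrincipalEquiv J a).1.1
  have hg : ∀ z, gfun s (emb (pairMap J z : 𝓞 K)) = w z.1 z.2 * F z.2 := fun z => gfun_pair J s z
  have hsum : Summable fun z : (Fin (Units.rank K) → Fin 2) × idealSet K J => w z.1 z.2 * F z.2 :=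
    (summable_pair J hs).congr hg
  have hfac : ∀ k, Summable fun a => w k a * F a := fun k => hsum.prod_factor k
  have h1 : lsum J s = ∑ k, ∑' a, w k a * F a := by
    rw [lsum, ← Function.Injective.tsum_eq (f := fun x : (J : Ideal (𝓞 K)) =>
        gfun s (emb (x : 𝓞 K))) (pairMap_injective J) (support_subset_range J s),
      tsum_congr hg, hsum.tsum_prod, tsum_fintype]
  have h2 : ∑ k, ∑' a, w k a * F a = ∑' a, F a := by
    rw [← Summable.tsum_finsetSum (fun k _ => hfac k)]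
    refine tsum_congr fun a => ?_
    rw [← Finset.sum_mul, show ∑ k, w k a = 1 from sum_weight_eq_one a.2.1, one_mul]
  let G : {I : (Ideal (𝓞 K))⁰ //
      (J : Ideal (𝓞 K)) ∣ I ∧ Submodule.IsPrincipal (I : Ideal (𝓞 K))} × torsion K → ℝ :=
    fun z => nrm s z.1.1
  have hG : Summable G := (idealSetPrincipalEquiv J).summable_iff.mp (summable_idealSet J hs)
  have h3 : ∑' a, F a = ∑' z, G z := (idealSetPrincipalEquiv J).tsum_eq G
  rw [h1, h2, h3, hG.tsum_prod, ← tsum_mul_left]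
  exact tsum_congr fun I => by simp [G, torsionOrder]

/-- An integer is a chosen representative of its class modulo `J` plus an element of `J`. -/
def cosetEquiv : 𝓞 K ≃ (𝓞 K ⧸ (J : Ideal (𝓞 K))) × (J : Ideal (𝓞 K)) where
  toFun x := (Ideal.Quotient.mk _ x,
    ⟨x - (Ideal.Quotient.mk (J : Ideal (𝓞 K)) x).out, by
      rw [← Ideal.Quotient.eq]; exact (Ideal.Quotient.mk_out _).symm⟩)
  invFun z := z.1.out + z.2
  left_inv x := by simp
  right_inv z := by
    have h : Ideal.Quotient.mk (J : Ideal (𝓞 K)) (z.1.out + z.2) = z.1 := by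
      rw [map_add, Ideal.Quotient.mk_out, Ideal.Quotient.eq_zero_iff_mem.mpr z.2.2, add_zero]
    ext
    · exact h
    · simp [h]

/-- Lattice sums over `J` and over all integers agree up to the index and a bounded error. -/
lemma exists_index_bound : ∃ C : ℝ, ∀ s : ℝ, 1 < s → s ≤ 2 →
    |lsum (1 : (Ideal (𝓞 K))⁰) s - (Ideal.absNorm (J : Ideal (𝓞 K)) : ℝ) * lsum J s| ≤ C := by
  have : Finite (𝓞 K ⧸ (J : Ideal (𝓞 K))) :=
    Ideal.finiteQuotientOfFreeOfNeBot _ (nonZeroDivisors.ne_zero J.2)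
  have : Fintype (𝓞 K ⧸ (J : Ideal (𝓞 K))) := Fintype.ofFinite _
  choose C hC using fun q : 𝓞 K ⧸ (J : Ideal (𝓞 K)) =>
    exists_gfun_translate_bound (emb (K := K) q.out)
  set H := ∑' y : (J : Ideal (𝓞 K)), ((1 + ‖emb (y : 𝓞 K)‖) ^ (finrank ℚ K + 1))⁻¹ with hH
  refine ⟨∑ q, C q * H, fun s hs hs2 => ?_⟩
  let e1 : ((1 : (Ideal (𝓞 K))⁰) : Ideal (𝓞 K)) ≃ 𝓞 K := Equiv.subtypeUnivEquiv fun x => by simp
  have hl1 : lsum (1 : (Ideal (𝓞 K))⁰) s = ∑' x : 𝓞 K, gfun s (emb x) :=
    e1.tsum_eq (fun x => gfun s (emb x))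
  have hsum : Summable fun x : 𝓞 K => gfun s (emb x) :=
    e1.summable_iff.mp (summable_lsum 1 hs)
  have hsp := (cosetEquiv J).symm.summable_iff.mpr hsum
  rw [hl1, ← (cosetEquiv J).symm.tsum_eq,
    Summable.tsum_prod (f := fun c => gfun s (emb ((cosetEquiv J).symm c))) hsp, tsum_fintype,
    Ideal.absNorm_apply, Submodule.cardQuot_apply, Nat.card_eq_fintype_card,
    ← Finset.card_univ, ← nsmul_eq_mul, ← Finset.sum_const, ← Finset.sum_sub_distrib]
  refine (Finset.abs_sum_le_sum_abs _ _).trans (Finset.sum_le_sum fun q _ => ?_)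
  have hq : Summable fun y : (J : Ideal (𝓞 K)) => gfun s (emb ((cosetEquiv J).symm (q, y))) :=
    hsp.prod_factor q
  rw [lsum, ← hq.tsum_sub (summable_lsum J hs), hH, ← tsum_mul_left]
  rw [← Real.norm_eq_abs]
  refine tsum_of_norm_bounded (((summable_H (K := K)).subtype _).mul_left (C q)).hasSum fun y => ?_
  rw [Real.norm_eq_abs]
  refine le_trans ?_ ((hC q s hs.le hs2 (emb (y : 𝓞 K))).trans_eq (div_eq_mul_inv _ _))
  rw [← emb_add, add_comm (y : 𝓞 K)]
  rfl

variable {J}

/-- The partial zeta function of an ideal class. -/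
def classZeta (C : ClassGroup (𝓞 K)) (s : ℝ) : ℝ :=
  ∑' I : {I : (Ideal (𝓞 K))⁰ // ClassGroup.mk0 I = C}, nrm s I.1

/-- The partial zeta function of `C` through the principal ideals divisible by `J`, for `J` in the
class `C⁻¹`. -/
lemma classZeta_eq {C : ClassGroup (𝓞 K)} (hJ : ClassGroup.mk0 J = C⁻¹) (s : ℝ) :
    classZeta C s = (Ideal.absNorm (J : Ideal (𝓞 K)) : ℝ) ^ s *
      ∑' I : {I : (Ideal (𝓞 K))⁰ //
        (J : Ideal (𝓞 K)) ∣ I ∧ Submodule.IsPrincipal (I : Ideal (𝓞 K))}, nrm s I.1 := by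
  let e : {I : (Ideal (𝓞 K))⁰ // ClassGroup.mk0 I = C} ≃ {I : (Ideal (𝓞 K))⁰ //
      (J : Ideal (𝓞 K)) ∣ I ∧ Submodule.IsPrincipal (I : Ideal (𝓞 K))} :=
    ((Equiv.dvd J).subtypeEquiv (q := fun I => Submodule.IsPrincipal (I.1 : Ideal (𝓞 K)))
      fun I => by
        rw [← ClassGroup.mk0_eq_one_iff (SetLike.coe_mem _)]
        simp_rw [Equiv.dvd_apply, Subtype.coe_eta, _root_.map_mul, hJ, inv_mul_eq_one,
            eq_comm]).trans
      ((Equiv.subtypeSubtypeEquivSubtypeInter (fun I : (Ideal (𝓞 K))⁰ ↦ J ∣ I)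
        (fun I => Submodule.IsPrincipal (I : Ideal (𝓞 K)))).trans
        (Equiv.subtypeEquivRight fun I => by rw [nonZeroDivisors_dvd_iff_dvd_coe]))
  rw [← tsum_mul_left, ← e.tsum_eq, classZeta]
  refine tsum_congr fun I => ?_
  have he : ((e I).1 : Ideal (𝓞 K)) = (J : Ideal (𝓞 K)) * (I.1 : Ideal (𝓞 K)) := rfl
  have hJ0 : (0 : ℝ) < (Ideal.absNorm (J : Ideal (𝓞 K)) : ℝ) :=
    Nat.cast_pos.mpr (Ideal.absNorm_pos_of_nonZeroDivisors J)
  rw [nrm, nrm, he, map_mul, Nat.cast_mul, Real.mul_rpow hJ0.le (Nat.cast_nonneg _),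
    ← mul_assoc, ← Real.rpow_add hJ0, add_neg_cancel, Real.rpow_zero, one_mul]

lemma classZeta_nonneg_and_le {s : ℝ} (hs : 1 < s) (C : ClassGroup (𝓞 K)) :
    0 ≤ classZeta C s ∧ classZeta C s ≤ zetaR K s :=
  ⟨tsum_nonneg fun _ => nrm_nonneg _ _,
    Summable.tsum_subtype_le (nrm s) {I | ClassGroup.mk0 I = C} (fun _ => nrm_nonneg _ _)
      (summable_nrm hs)⟩

/-- Two partial zeta functions differ by a bounded amount near `s = 1`. -/
theorem exists_classZeta_sub_bound (C : ClassGroup (𝓞 K)) :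
    ∃ B : ℝ, ∀ᶠ s in 𝓝[>] (1 : ℝ), |classZeta C s - classZeta (1 : ClassGroup (𝓞 K)) s| ≤ B := by
  obtain ⟨J, hJ⟩ := ClassGroup.mk0_surjective C⁻¹
  obtain ⟨D, hD⟩ := exists_index_bound J
  set N : ℝ := (Ideal.absNorm (J : Ideal (𝓞 K)) : ℝ) with hN
  have hN1 : 1 ≤ N := by
    rw [hN, Nat.one_le_cast]
    exact Nat.one_le_iff_ne_zero.mpr (Ideal.absNorm_ne_zero_of_nonZeroDivisors J)
  refine ⟨N * D / torsionOrder K + N * Real.log N * (dedekindZeta_residue K + 1), ?_⟩
  filter_upwards [self_mem_nhdsWithin, nhdsWithin_le_nhds (Iic_mem_nhds one_lt_two),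
    (tendsto_zetaR (K := K)).eventually (Iic_mem_nhds (lt_add_one _))] with s (hs : 1 < s) hs2 hζ
  have hw : (0 : ℝ) < torsionOrder K := Nat.cast_pos.mpr (torsionOrder_pos K)
  have h1 : classZeta (1 : ClassGroup (𝓞 K)) s = lsum (1 : (Ideal (𝓞 K))⁰) s / torsionOrder K := by
    rw [classZeta_eq (J := 1) (by simp), lsum_eq _ hs]
    simp [hw.ne']
  have h2 : classZeta C s = N ^ (s - 1) * (N * lsum J s) / torsionOrder K := by
    rw [classZeta_eq hJ, lsum_eq _ hs, ← hN,
      show N ^ s = N ^ (s - 1) * N by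
        rw [Real.rpow_sub_one (by linarith)]; field_simp]
    field_simp
  have h3 : N ^ (s - 1) ≤ N := by
    nth_rw 2 [← Real.rpow_one N]
    exact Real.rpow_le_rpow_of_exponent_le hN1 (by linarith [Set.mem_Iic.mp hs2])
  have h4 : |N ^ (s - 1) - 1| ≤ N * ((s - 1) * Real.log N) := by
    have hl : 0 ≤ Real.log N := Real.log_nonneg hN1
    have := abs_exp_sub_exp_le (a := Real.log N * (s - 1)) (b := 0) (m := Real.log N)
      (mul_le_of_le_one_right hl (by linarith [Set.mem_Iic.mp hs2])) hl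
    rw [Real.exp_zero, sub_zero, Real.exp_log (by linarith),
      ← Real.rpow_def_of_pos (by linarith), abs_of_nonneg (mul_nonneg hl (by linarith))] at this
    linarith
  have hz := classZeta_nonneg_and_le hs (1 : ClassGroup (𝓞 K))
  have hD' : 0 ≤ D := (abs_nonneg _).trans (hD s hs hs2)
  calc |classZeta C s - classZeta 1 s|
      = |N ^ (s - 1) * (N * lsum J s - lsum 1 s) / torsionOrder K
          + (N ^ (s - 1) - 1) * classZeta 1 s| := by rw [h1, h2]; congr 1; ring
    _ ≤ |N ^ (s - 1) * (N * lsum J s - lsum 1 s) / torsionOrder K|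
          + |(N ^ (s - 1) - 1) * classZeta 1 s| := abs_add_le _ _
    _ ≤ _ := by
        refine add_le_add ?_ ?_
        · rw [abs_div, abs_of_pos hw, abs_mul, abs_of_nonneg (Real.rpow_nonneg (by linarith) _),
            abs_sub_comm]
          exact div_le_div_of_nonneg_right
            (mul_le_mul h3 (hD s hs hs2) (abs_nonneg _) (by linarith)) hw.le
        · rw [abs_mul, abs_of_nonneg hz.1]
          calc |N ^ (s - 1) - 1| * classZeta 1 s
              ≤ N * ((s - 1) * Real.log N) * zetaR K s :=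
                mul_le_mul h4 hz.2 hz.1 ((abs_nonneg _).trans h4)
            _ = N * Real.log N * ((s - 1) * zetaR K s) := by ring
            _ ≤ _ := mul_le_mul_of_nonneg_left hζ
                (mul_nonneg (by linarith) (Real.log_nonneg hN1))

/-- The `L`-series of a class group character. -/
def charL (χ : ClassGroup (𝓞 K) →* ℂ) (s : ℝ) : ℂ :=
  ∑' I : (Ideal (𝓞 K))⁰, χ (ClassGroup.mk0 I) * (nrm s I : ℂ)

lemma summable_charL {χ : ClassGroup (𝓞 K) →* ℂ} (hχ : ∀ C, ‖χ C‖ = 1) {s : ℝ} (hs : 1 < s) :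
    Summable fun I : (Ideal (𝓞 K))⁰ => χ (ClassGroup.mk0 I) * (nrm s I : ℂ) :=
  Summable.of_norm (by simpa [hχ, abs_of_nonneg (nrm_nonneg _ _)] using summable_nrm hs)

/-- The `L`-series of a nontrivial class group character is bounded near `s = 1`. -/
theorem exists_charL_bound {χ : ClassGroup (𝓞 K) →* ℂ} (hχ : ∀ C, ‖χ C‖ = 1) (hne : χ ≠ 1) :
    ∃ B : ℝ, ∀ᶠ s in 𝓝[>] (1 : ℝ), ‖charL χ s‖ ≤ B := by
  choose B hB using exists_classZeta_sub_bound (K := K)
  refine ⟨∑ C, B C, ?_⟩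
  filter_upwards [eventually_all.mpr hB, self_mem_nhdsWithin] with s hB (hs : 1 < s)
  have h := summable_charL hχ hs
  rw [charL, ← (Equiv.sigmaFiberEquiv (ClassGroup.mk0 (R := 𝓞 K))).tsum_eq,
    Summable.tsum_sigma (f := fun c => χ (ClassGroup.mk0
      (Equiv.sigmaFiberEquiv (ClassGroup.mk0 (R := 𝓞 K)) c)) *
      (nrm s (Equiv.sigmaFiberEquiv (ClassGroup.mk0 (R := 𝓞 K)) c) : ℂ))
      ((Equiv.sigmaFiberEquiv (ClassGroup.mk0 (R := 𝓞 K))).summable_iff.mpr h :), tsum_fintype]
  have hz : ∀ C : ClassGroup (𝓞 K), (∑' I : {I : (Ideal (𝓞 K))⁰ // ClassGroup.mk0 I = C},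
      χ (ClassGroup.mk0 I.1) * (nrm s I.1 : ℂ)) = χ C * (classZeta C s : ℂ) := by
    intro C
    rw [classZeta, Complex.ofReal_tsum, ← tsum_mul_left]
    exact tsum_congr fun I => by rw [I.2]
  simp only [Equiv.sigmaFiberEquiv, Equiv.coe_fn_mk, hz]
  have hsum : ∑ C : ClassGroup (𝓞 K), χ C = 0 := sum_hom_units_eq_zero χ hne
  calc ‖∑ C, χ C * (classZeta C s : ℂ)‖
      = ‖∑ C, χ C * ((classZeta C s - classZeta 1 s : ℝ) : ℂ)‖ := by
        congr 1
        simp only [Complex.ofReal_sub, mul_sub, Finset.sum_sub_distrib]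
        rw [← Finset.sum_mul Finset.univ χ, hsum, zero_mul, sub_zero]
    _ ≤ ∑ C, ‖χ C * ((classZeta C s - classZeta 1 s : ℝ) : ℂ)‖ := norm_sum_le _ _
    _ ≤ _ := Finset.sum_le_sum fun C _ => by
        rw [norm_mul, hχ, one_mul, Complex.norm_real, Real.norm_eq_abs]
        exact hB C

end Fermat.Agent.ExtVan
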