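import Mathlib.Analysis.Normed.Group.Tannery
import Mathlib.Analysis.PSeries
import Mathlib.Analysis.SpecialFunctions.Complex.CircleAddChar
import Mathlib.RingTheory.DedekindDomain.Factorization
import Mathlib.RingTheory.Ideal.Int
import Mathlib.RingTheory.Polynomial.Cyclotomic.Basic
import Fermat.Agent.ExtVan.Partial
import Fermat.Agent.Gal.EulerLog

/-!
Euler products over the primes of a number field and the density argument. They give primes of
degree one with prescribed class character, for Thaine's argument.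
-/

noncomputable section

namespace Fermat.Agent.ExtVan

open NumberField Filter Topology IsDedekindDomain
open scoped nonZeroDivisors Classical

variable {K : Type*} [Field K] [NumberField K]

/-- A prime as a nonzero ideal. -/
def primeNZ (P : HeightOneSpectrum (𝓞 K)) : (Ideal (𝓞 K))⁰ :=
  ⟨P.asIdeal, mem_nonZeroDivisors_of_ne_zero P.ne_bot⟩

/-- The ideals all whose prime factors lie in `S`. -/
def suppOn (S : Finset (HeightOneSpectrum (𝓞 K))) : Set (Ideal (𝓞 K))⁰ :=
  {I | ∀ P : HeightOneSpectrum (𝓞 K), P.asIdeal ∣ (I : Ideal (𝓞 K)) → P ∈ S}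

/-- The sum of `f` over the ideals supported on `S` is the finite Euler product over `S`. -/
lemma tsum_suppOn {f : (Ideal (𝓞 K))⁰ →* ℂ} (hf : Summable fun I => ‖f I‖)
    (hlt : ∀ P, ‖f (primeNZ P)‖ < 1) (S : Finset (HeightOneSpectrum (𝓞 K))) :
    ∑' I : suppOn S, f I = ∏ P ∈ S, (1 - f (primeNZ P))⁻¹ := by
  induction S using Finset.induction with
  | empty =>
    have h1 : suppOn (∅ : Finset (HeightOneSpectrum (𝓞 K))) = {1} := by
      refine Set.eq_singleton_iff_unique_mem.mpr ⟨fun P hP => ?_, fun I hI => ?_⟩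
      · exact absurd (isUnit_of_dvd_one hP) P.prime.not_isUnit
      · by_contra hne
        obtain ⟨M, hM, hle⟩ := Ideal.exists_le_maximal (I : Ideal (𝓞 K))
          fun h => hne (Subtype.ext (by simpa [Ideal.one_eq_top] using h))
        have hMne : M ≠ ⊥ := fun h => nonZeroDivisors.ne_zero I.2 (le_bot_iff.mp (h ▸ hle))
        exact absurd (hI ⟨M, hM.isPrime, hMne⟩ (Ideal.dvd_iff_le.mpr hle)) (Finset.notMem_empty _)
    rw [Finset.prod_empty, h1, tsum_singleton, map_one]
  | insert P S hP ih =>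
    let e : ℕ × suppOn S → suppOn (insert P S) := fun z => ⟨primeNZ P ^ z.1 * z.2.1, fun Q hQ => by
      rcases (Q.prime.dvd_mul (a := P.asIdeal ^ z.1) (b := (z.2.1 : Ideal (𝓞 K)))).mp hQ with h | h
      · have hle := Ideal.dvd_iff_le.mp (Q.prime.dvd_of_dvd_pow h)
        exact Finset.mem_insert.mpr (Or.inl (HeightOneSpectrum.ext
          (P.isMaximal.eq_of_le Q.isPrime.ne_top hle).symm))
      · exact Finset.mem_insert_of_mem (z.2.2 Q h)⟩
    have he : Function.Bijective e := by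
      constructor
      · rintro ⟨k, a⟩ ⟨l, b⟩ h
        have h' : P.asIdeal ^ k * (a.1 : Ideal (𝓞 K)) = P.asIdeal ^ l * (b.1 : Ideal (𝓞 K)) :=
          congrArg (fun I => ((Subtype.val I).1 : Ideal (𝓞 K))) h
        have ha : ¬ P.asIdeal ∣ (a.1 : Ideal (𝓞 K)) := fun hd => hP (a.2 P hd)
        have hb : ¬ P.asIdeal ∣ (b.1 : Ideal (𝓞 K)) := fun hd => hP (b.2 P hd)
        have hkl : k = l := by
          by_contra hne
          have hP0 : (P.asIdeal : Ideal (𝓞 K)) ≠ 0 := P.ne_bot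
          rcases Nat.lt_or_ge k l with hk | hk
          · obtain ⟨d, rfl⟩ := Nat.exists_eq_add_of_lt hk
            rw [add_assoc, pow_add, mul_assoc] at h'
            exact ha ((mul_left_cancel₀ (pow_ne_zero _ hP0) h').symm ▸
              dvd_mul_of_dvd_left (dvd_pow_self _ (Nat.succ_ne_zero d)) _)
          · obtain ⟨d, rfl⟩ := Nat.exists_eq_add_of_lt (lt_of_le_of_ne hk (Ne.symm hne))
            rw [add_assoc, pow_add, mul_assoc] at h'
            exact hb ((mul_left_cancel₀ (pow_ne_zero _ hP0) h') ▸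
              dvd_mul_of_dvd_left (dvd_pow_self _ (Nat.succ_ne_zero d)) _)
        subst hkl
        exact Prod.ext rfl (Subtype.ext (Subtype.ext
          (mul_left_cancel₀ (pow_ne_zero _ P.ne_bot) h')))
      · rintro ⟨I, hI⟩
        have hfin : FiniteMultiplicity P.asIdeal (I : Ideal (𝓞 K)) :=
          FiniteMultiplicity.of_prime_left P.prime (nonZeroDivisors.ne_zero I.2)
        obtain ⟨c, hc, hndvd⟩ := hfin.exists_eq_pow_mul_and_not_dvd
        have hc0 : c ≠ 0 := by
          rintro rfl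
          exact hndvd (dvd_zero _)
        refine ⟨(multiplicity P.asIdeal (I : Ideal (𝓞 K)),
          ⟨⟨c, mem_nonZeroDivisors_of_ne_zero hc0⟩, fun Q hQ => ?_⟩), ?_⟩
        · rcases Finset.mem_insert.mp (hI Q (hc ▸ dvd_mul_of_dvd_right hQ _)) with rfl | h
          · exact absurd hQ hndvd
          · exact h
        · exact Subtype.ext (Subtype.ext hc.symm)
    rw [Finset.prod_insert hP, ← ih, ← tsum_geometric_of_norm_lt_one (hlt P),
      tsum_mul_tsum_of_summable_norm ?_ ?_, ← (Equiv.ofBijective e he).tsum_eq]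
    · refine tsum_congr fun z => ?_
      rw [← map_pow, ← map_mul]
      rfl
    · simpa [norm_pow] using summable_geometric_of_lt_one (norm_nonneg _) (hlt P)
    · exact hf.subtype _

/-- The Euler product of a multiplicative function with absolutely convergent sum. -/
lemma tendsto_prod_euler {f : (Ideal (𝓞 K))⁰ →* ℂ} (hf : Summable fun I => ‖f I‖)
    (hlt : ∀ P, ‖f (primeNZ P)‖ < 1) :
    Tendsto (fun S : Finset (HeightOneSpectrum (𝓞 K)) => ∏ P ∈ S, (1 - f (primeNZ P))⁻¹) atTop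
      (𝓝 (∑' I, f I)) := by
  simp only [← tsum_suppOn hf hlt, tsum_subtype]
  refine tendsto_tsum_of_dominated_convergence hf (fun I => ?_)
    (Eventually.of_forall fun S I => ?_)
  · refine tendsto_const_nhds.congr' ?_
    have hfin : {P : HeightOneSpectrum (𝓞 K) | P.asIdeal ∣ (I : Ideal (𝓞 K))}.Finite :=
      Ideal.finite_factors (nonZeroDivisors.ne_zero I.2)
    filter_upwards [eventually_ge_atTop hfin.toFinset] with S hS
    rw [Set.indicator_of_mem]
    exact fun P hP => hS (hfin.mem_toFinset.mpr hP)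
  · exact norm_indicator_le_norm_self _ _

/-- `N P ^ (-s)` for a prime `P`. -/
def xP (s : ℝ) (P : HeightOneSpectrum (𝓞 K)) : ℝ := (Ideal.absNorm P.asIdeal : ℝ) ^ (-s)

lemma two_le_absNorm (P : HeightOneSpectrum (𝓞 K)) : 2 ≤ Ideal.absNorm P.asIdeal := by
  have h0 : Ideal.absNorm P.asIdeal ≠ 0 := fun h => P.ne_bot (Ideal.absNorm_eq_zero_iff.mp h)
  have h1 : Ideal.absNorm P.asIdeal ≠ 1 :=
    fun h => P.isPrime.ne_top (Ideal.absNorm_eq_one_iff.mp h)
  omega

lemma xP_pos (s : ℝ) (P : HeightOneSpectrum (𝓞 K)) : 0 < xP s P :=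
  Real.rpow_pos_of_pos (Nat.cast_pos.mpr (zero_lt_two.trans_le (two_le_absNorm P))) _

lemma xP_le_half {s : ℝ} (hs : 1 ≤ s) (P : HeightOneSpectrum (𝓞 K)) : xP s P ≤ 1 / 2 := by
  have h2 : (2 : ℝ) ≤ (Ideal.absNorm P.asIdeal : ℝ) := by exact_mod_cast two_le_absNorm P
  calc xP s P ≤ (Ideal.absNorm P.asIdeal : ℝ) ^ (-1 : ℝ) :=
        Real.rpow_le_rpow_of_exponent_le (by linarith) (by linarith)
    _ ≤ 1 / 2 := by
        rw [Real.rpow_neg_one, one_div]
        exact inv_anti₀ two_pos h2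

/-- `I ↦ N I ^ (-s)` as a complex valued multiplicative function. -/
def nrmHom (s : ℝ) : (Ideal (𝓞 K))⁰ →* ℂ where
  toFun I := (nrm s I : ℂ)
  map_one' := by simp [nrm]
  map_mul' I J := by
    rw [← Complex.ofReal_mul, nrm, nrm, nrm,
      ← Real.mul_rpow (Nat.cast_nonneg _) (Nat.cast_nonneg _),
      ← Nat.cast_mul, ← map_mul]
    rfl

lemma nrmHom_prime (s : ℝ) (P : HeightOneSpectrum (𝓞 K)) :
    nrmHom s (primeNZ P) = (xP s P : ℂ) := rfl

lemma tendsto_zetaR_euler {s : ℝ} (hs : 1 < s) :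
    Tendsto (fun S : Finset (HeightOneSpectrum (𝓞 K)) => ∏ P ∈ S, (1 - xP s P)⁻¹) atTop
      (𝓝 (zetaR K s)) := by
  have h := tendsto_prod_euler (f := nrmHom (K := K) s)
    (by simpa [nrmHom, abs_of_nonneg (nrm_nonneg _ _)] using summable_nrm hs)
    fun P => by
      rw [nrmHom_prime, Complex.norm_real, Real.norm_eq_abs, abs_of_pos (xP_pos s P)]
      linarith [xP_le_half hs.le P]
  have h2 := (Complex.continuous_re.tendsto _).comp h
  convert h2 using 1
  · funext S
    simp only [Function.comp_apply, nrmHom_prime]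
    norm_cast
  · congr 1
    show zetaR K s = (∑' I, (nrm s I : ℂ)).re
    rw [← Complex.ofReal_tsum]
    rfl

/-- Lower bound: `exp (∑ x_P) ≤ ζ(s)`. -/
lemma exp_sum_le_zetaR {s : ℝ} (hs : 1 < s) (T : Finset (HeightOneSpectrum (𝓞 K))) :
    Real.exp (∑ P ∈ T, xP s P) ≤ zetaR K s := by
  refine ge_of_tendsto (tendsto_zetaR_euler hs) ?_
  filter_upwards [eventually_ge_atTop T] with S hS
  rw [Real.exp_sum]
  have h1 : ∀ P : HeightOneSpectrum (𝓞 K), 1 ≤ (1 - xP s P)⁻¹ := fun P =>
    (Real.one_le_exp (xP_pos s P).le).trans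
      (Gal.exp_le_inv_one_sub (by linarith [xP_le_half hs.le P]))
  calc ∏ P ∈ T, Real.exp (xP s P) ≤ ∏ P ∈ T, (1 - xP s P)⁻¹ :=
        Finset.prod_le_prod (fun P _ => (Real.exp_pos _).le)
          fun P _ => Gal.exp_le_inv_one_sub (by linarith [xP_le_half hs.le P])
    _ ≤ ∏ P ∈ S, (1 - xP s P)⁻¹ :=
        Finset.prod_le_prod_of_subset_of_one_le hS
          (fun P _ => zero_le_one.trans (h1 P)) fun P _ _ => h1 P

variable {p : ℕ} [Fact p.Prime]

/-- The complex character `C ↦ exp (2 π i j φ(C) / p)` of the class group. -/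
def chiOf (φ : ClassGroup (𝓞 K) →* Multiplicative (ZMod p)) (j : ZMod p) :
    ClassGroup (𝓞 K) →* ℂ where
  toFun C := ZMod.stdAddChar (j * (φ C).toAdd)
  map_one' := by simp
  map_mul' a b := by simp [mul_add, AddChar.map_add_eq_mul]

omit [NumberField K] in
lemma norm_chiOf (φ : ClassGroup (𝓞 K) →* Multiplicative (ZMod p)) (j : ZMod p)
    (C : ClassGroup (𝓞 K)) : ‖chiOf φ j C‖ = 1 := by
  show ‖ZMod.stdAddChar (j * (φ C).toAdd)‖ = 1
  rw [ZMod.stdAddChar_apply, Circle.norm_coe]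

omit [NumberField K] in
lemma chiOf_ne_one {φ : ClassGroup (𝓞 K) →* Multiplicative (ZMod p)} (hφ : φ ≠ 1) {j : ZMod p}
    (hj : j ≠ 0) : chiOf φ j ≠ 1 := by
  intro h
  refine hφ (MonoidHom.ext fun C => ?_)
  have h1 : ZMod.stdAddChar (j * (φ C).toAdd) = (1 : ℂ) := DFunLike.congr_fun h C
  rw [← AddChar.map_zero_eq_one (ZMod.stdAddChar (N := p)), ZMod.injective_stdAddChar.eq_iff,
    mul_eq_zero] at h1
  exact Multiplicative.toAdd.injective (h1.resolve_left hj)

lemma prod_one_sub_stdAddChar (a : ZMod p) (x : ℂ) :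
    ∏ j : ZMod p, (1 - ZMod.stdAddChar (j * a) * x) =
      if a = 0 then (1 - x) ^ p else 1 - x ^ p := by
  split_ifs with h
  · simp [h]
  rw [Fintype.prod_equiv (Equiv.mulRight₀ a h) (fun j => 1 - ZMod.stdAddChar (j * a) * x)
    (fun j => 1 - ZMod.stdAddChar j * x) fun j => rfl]
  set ζ : ℂ := ZMod.stdAddChar (1 : ZMod p) with hζ
  have hpow : ∀ k : ℕ, ζ ^ k = ZMod.stdAddChar ((k : ℕ) : ZMod p) := fun k => by
    rw [hζ, ← AddChar.map_nsmul_eq_pow, nsmul_one]
  have hp : 0 < p := (Fact.out : p.Prime).pos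
  have hprim : IsPrimitiveRoot ζ p := by
    refine ⟨by rw [hpow, ZMod.natCast_self, AddChar.map_zero_eq_one], fun l hl => ?_⟩
    rw [hpow, ← AddChar.map_zero_eq_one (ZMod.stdAddChar (N := p)),
      ZMod.injective_stdAddChar.eq_iff] at hl
    exact (ZMod.natCast_eq_zero_iff _ _).mp hl
  have := hprim.pow_sub_pow_eq_prod_sub_mul 1 x hp
  rw [one_pow] at this
  rw [this]
  refine Finset.prod_bij (fun j _ => ZMod.stdAddChar j) (fun j _ => ?_) (fun i _ j _ h =>
    ZMod.injective_stdAddChar h) (fun μ hμ => ?_) fun j _ => rfl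
  · rw [Polynomial.mem_nthRootsFinset hp, ← AddChar.map_nsmul_eq_pow]
    simp
  · obtain ⟨k, -, rfl⟩ := hprim.eq_pow_of_pow_eq_one ((Polynomial.mem_nthRootsFinset hp _).mp hμ)
    exact ⟨(k : ZMod p), Finset.mem_univ _, (hpow k).symm⟩

/-- A finite set `T` of primes in the kernel of `φ` gives the lower bound `exp (p ∑_{P ∈ T} N P ^
(-s))` for the product of the `L`-series of the powers of the character of `φ`. -/
theorem exp_sum_le_prod_charL {φ : ClassGroup (𝓞 K) →* Multiplicative (ZMod p)} {s : ℝ}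
    (hs : 1 < s) (T : Finset (HeightOneSpectrum (𝓞 K)))
    (hT : ∀ P ∈ T, φ (ClassGroup.mk0 (primeNZ P)) = 1) :
    Real.exp (p * ∑ P ∈ T, xP s P) ≤ ∏ j : ZMod p, ‖charL (chiOf φ j) s‖ := by
  set F : ZMod p → (Ideal (𝓞 K))⁰ →* ℂ := fun j =>
    ((chiOf φ j).comp ClassGroup.mk0) * nrmHom s with hF
  have hnorm : ∀ j I, ‖F j I‖ = nrm s I := fun j I => by
    show ‖chiOf φ j (ClassGroup.mk0 I) * (nrm s I : ℂ)‖ = _
    rw [norm_mul, norm_chiOf, one_mul, Complex.norm_real, Real.norm_eq_abs,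
      abs_of_nonneg (nrm_nonneg _ _)]
  have hlim : Tendsto (fun S : Finset (HeightOneSpectrum (𝓞 K)) =>
      ∏ j : ZMod p, ‖∏ P ∈ S, (1 - F j (primeNZ P))⁻¹‖) atTop
      (𝓝 (∏ j : ZMod p, ‖charL (chiOf φ j) s‖)) := by
    refine tendsto_finsetProd _ fun j _ => ((continuous_norm.tendsto _).comp ?_)
    exact tendsto_prod_euler (by simpa only [hnorm] using summable_nrm hs)
      fun P => by rw [hnorm]; exact (xP_le_half hs.le P).trans_lt (by norm_num)
  refine ge_of_tendsto hlim ?_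
  filter_upwards [eventually_ge_atTop T] with S hS
  simp only [norm_prod]
  rw [Finset.prod_comm, Finset.mul_sum, Real.exp_sum]
  have hfac : ∀ P, ∏ j : ZMod p, ‖(1 - F j (primeNZ P))⁻¹‖ =
      if φ (ClassGroup.mk0 (primeNZ P)) = 1 then ((1 - xP s P)⁻¹) ^ p
        else (1 - xP s P ^ p)⁻¹ := by
    intro P
    simp only [norm_inv, Finset.prod_inv_distrib, ← norm_prod]
    have h1 : ∏ j : ZMod p, (1 - F j (primeNZ P)) = _ :=
      prod_one_sub_stdAddChar (φ (ClassGroup.mk0 (primeNZ P))).toAdd (xP s P : ℂ)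
    have hx := xP_le_half hs.le P
    have hx0 := (xP_pos s P).le
    rw [h1]
    by_cases h : φ (ClassGroup.mk0 (primeNZ P)) = 1
    · rw [if_pos h, if_pos (by simp [h]), norm_pow, inv_pow, ← Complex.ofReal_one,
        ← Complex.ofReal_sub, Complex.norm_real, Real.norm_eq_abs, abs_of_nonneg (by linarith)]
    · rw [if_neg h, if_neg (show ¬ Multiplicative.toAdd (φ (ClassGroup.mk0 (primeNZ P))) = 0 from
        fun h0 => h (Multiplicative.toAdd.injective h0)), ← Complex.ofReal_one,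
        ← Complex.ofReal_pow, ← Complex.ofReal_sub, Complex.norm_real, Real.norm_eq_abs,
        abs_of_nonneg (sub_nonneg.mpr (pow_le_one₀ hx0 (by linarith)))]
  simp only [hfac]
  have h1 : ∀ P : HeightOneSpectrum (𝓞 K), 1 ≤ (if φ (ClassGroup.mk0 (primeNZ P)) = 1 then
      ((1 - xP s P)⁻¹) ^ p else (1 - xP s P ^ p)⁻¹) := by
    intro P
    have hx := xP_le_half hs.le P
    have hx0 := xP_pos s P
    split_ifs
    · exact one_le_pow₀ ((one_le_inv₀ (by linarith)).mpr (by linarith))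
    · exact (one_le_inv₀ (sub_pos.mpr (pow_lt_one₀ hx0.le (by linarith)
        (Fact.out : p.Prime).ne_zero))).mpr (by linarith [pow_pos hx0 p])
  calc ∏ P ∈ T, Real.exp (p * xP s P) ≤ ∏ P ∈ T, (if φ (ClassGroup.mk0 (primeNZ P)) = 1 then
        ((1 - xP s P)⁻¹) ^ p else (1 - xP s P ^ p)⁻¹) := by
        refine Finset.prod_le_prod (fun P _ => (Real.exp_pos _).le) fun P hP => ?_
        rw [if_pos (hT P hP), Real.exp_nat_mul]
        exact pow_le_pow_left₀ (Real.exp_pos _).le
          (Gal.exp_le_inv_one_sub (by linarith [xP_le_half hs.le P])) _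
    _ ≤ _ := Finset.prod_le_prod_of_subset_of_one_le hS
          (fun P _ => zero_le_one.trans (h1 P)) fun P _ _ => h1 P

/-- The rational prime below `P`. -/
def ratBelow (P : HeightOneSpectrum (𝓞 K)) : ℕ := Ideal.absNorm (Ideal.under ℤ P.asIdeal)

omit [NumberField K] in
lemma ratBelow_prime (P : HeightOneSpectrum (𝓞 K)) : (ratBelow P).Prime := by
  have : NeZero P.asIdeal := ⟨P.ne_bot⟩
  exact Nat.absNorm_under_prime P.asIdeal

/-- At most `[K : ℚ]` primes lie over a given rational prime. -/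
lemma card_fibre_ratBelow (l : ℕ) (U : Finset (HeightOneSpectrum (𝓞 K)))
    (hU : ∀ P ∈ U, ratBelow P = l) (hl : l.Prime) : U.card ≤ Module.finrank ℚ K := by
  have hdvd : ∏ P ∈ U, P.asIdeal ∣ Ideal.span {(l : 𝓞 K)} := by
    have h := Finset.prod_primes_dvd (Ideal.span {(l : 𝓞 K)})
      (s := U.map ⟨HeightOneSpectrum.asIdeal, fun a b h => HeightOneSpectrum.ext h⟩)
      (fun I hI => by obtain ⟨P, -, rfl⟩ := Finset.mem_map.mp hI; exact P.prime)
      (fun I hI => by
        obtain ⟨P, hP, rfl⟩ := Finset.mem_map.mp hI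
        refine Ideal.dvd_span_singleton.mpr ?_
        rw [← hU P hP]
        exact Int.absNorm_under_mem P.asIdeal)
    rwa [Finset.prod_map] at h
  have h2 := map_dvd Ideal.absNorm hdvd
  rw [map_prod, Ideal.absNorm_span_singleton, ← map_natCast (algebraMap ℤ (𝓞 K)),
    Algebra.norm_algebraMap, Int.natAbs_pow, Int.natAbs_natCast, RingOfIntegers.rank] at h2
  have h3 : l ^ U.card ∣ ∏ P ∈ U, Ideal.absNorm P.asIdeal := by
    rw [← Finset.prod_const]
    exact Finset.prod_dvd_prod_of_dvd _ _ fun P hP =>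
      hU P hP ▸ Int.absNorm_under_dvd_absNorm P.asIdeal
  exact Nat.pow_dvd_pow_iff_le_right hl.one_lt |>.mp (h3.trans h2)

/-- The primes of degree at least two contribute a bounded amount. -/
lemma exists_nondegreeOne_bound : ∃ D : ℝ, ∀ s : ℝ, 1 < s →
    ∀ U : Finset (HeightOneSpectrum (𝓞 K)), (∀ P ∈ U, ¬ (Ideal.absNorm P.asIdeal).Prime) →
      ∑ P ∈ U, xP s P ≤ D := by
  refine ⟨(Module.finrank ℚ K : ℝ) * ∑' l : ℕ, ((l : ℝ) ^ 2)⁻¹, fun s hs U hU => ?_⟩
  have hb : ∀ P ∈ U, xP s P ≤ ((ratBelow P : ℝ) ^ 2)⁻¹ := by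
    intro P hP
    have hl := ratBelow_prime P
    have hd : ratBelow P ∣ Ideal.absNorm P.asIdeal := Int.absNorm_under_dvd_absNorm P.asIdeal
    have hpow : Ideal.absNorm P.asIdeal ∣ ratBelow P ^ Module.finrank ℚ K := by
      have h := map_dvd Ideal.absNorm (Ideal.dvd_span_singleton.mpr
        (Int.absNorm_under_mem P.asIdeal))
      rwa [Ideal.absNorm_span_singleton, ← map_natCast (algebraMap ℤ (𝓞 K)),
        Algebra.norm_algebraMap, Int.natAbs_pow, Int.natAbs_natCast, RingOfIntegers.rank] at h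
    obtain ⟨f, -, hf⟩ := (Nat.dvd_prime_pow hl).mp hpow
    have hf2 : 2 ≤ f := by
      by_contra hlt
      have := two_le_absNorm P
      interval_cases f
      · simp [hf] at this
      · exact hU P hP (by rwa [hf, pow_one])
    have h1 : (1 : ℝ) ≤ ratBelow P := by exact_mod_cast hl.one_lt.le
    calc xP s P ≤ (Ideal.absNorm P.asIdeal : ℝ) ^ (-1 : ℝ) := Real.rpow_le_rpow_of_exponent_le
          (by exact_mod_cast (one_le_two.trans (two_le_absNorm P))) (by linarith)
      _ ≤ _ := by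
          rw [Real.rpow_neg_one, hf, Nat.cast_pow]
          exact inv_anti₀ (pow_pos (by linarith) _) (pow_le_pow_right₀ h1 hf2)
  refine (Finset.sum_le_sum hb).trans ?_
  rw [← Finset.sum_fiberwise_of_maps_to (t := U.image ratBelow)
    (fun P hP => Finset.mem_image_of_mem _ hP)]
  calc _ ≤ ∑ l ∈ U.image ratBelow, (Module.finrank ℚ K : ℝ) * ((l : ℝ) ^ 2)⁻¹ := by
        refine Finset.sum_le_sum fun l hl => ?_
        obtain ⟨P, -, rfl⟩ := Finset.mem_image.mp hl
        rw [Finset.sum_congr rfl (g := fun _ => ((ratBelow P : ℝ) ^ 2)⁻¹) fun Q hQ => by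
          rw [(Finset.mem_filter.mp hQ).2], Finset.sum_const, nsmul_eq_mul]
        refine mul_le_mul_of_nonneg_right ?_ (by positivity)
        exact_mod_cast card_fibre_ratBelow _ _ (fun Q hQ => (Finset.mem_filter.mp hQ).2)
          (ratBelow_prime P)
    _ ≤ _ := by
        rw [← Finset.mul_sum]
        exact mul_le_mul_of_nonneg_left (((Real.summable_nat_pow_inv).mpr one_lt_two).sum_le_tsum _
          fun l _ => by positivity) (Nat.cast_nonneg _)

/-- The squares `N P ^ (-2 s)` sum to at most `ζ_K(2)`. -/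
lemma sum_xP_sq_le {s : ℝ} (hs : 1 < s) (U : Finset (HeightOneSpectrum (𝓞 K))) :
    ∑ P ∈ U, xP s P ^ 2 ≤ zetaR K 2 := by
  calc ∑ P ∈ U, xP s P ^ 2 ≤ ∑ P ∈ U, nrm 2 (primeNZ P) := by
        refine Finset.sum_le_sum fun P _ => ?_
        rw [xP, ← Real.rpow_natCast, ← Real.rpow_mul (Nat.cast_nonneg _)]
        exact Real.rpow_le_rpow_of_exponent_le
          (by exact_mod_cast (one_le_two.trans (two_le_absNorm P))) (by push_cast; linarith)
    _ ≤ zetaR K 2 := by
        have := (summable_nrm (K := K) one_lt_two).sum_le_tsum (U.map ⟨primeNZ, fun a b h =>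
          HeightOneSpectrum.ext (congrArg Subtype.val h :)⟩) fun I _ => nrm_nonneg _ _
        rw [Finset.sum_map] at this
        exact this

/-- The sum over `S` splits into the primes of degree one in and outside the kernel of `φ`, and a
bounded rest. -/
lemma sum_xP_add_sq_le {s : ℝ} (hs : 1 < s) (φ : ClassGroup (𝓞 K) →* Multiplicative (ZMod p))
    (E : Finset (HeightOneSpectrum (𝓞 K))) {D : ℝ}
    (hD : ∀ s : ℝ, 1 < s → ∀ U : Finset (HeightOneSpectrum (𝓞 K)),
      (∀ P ∈ U, ¬ (Ideal.absNorm P.asIdeal).Prime) → ∑ P ∈ U, xP s P ≤ D)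
    (S : Finset (HeightOneSpectrum (𝓞 K))) :
    ∑ P ∈ S, (xP s P + 2 * xP s P ^ 2) ≤
      (∑ P ∈ S.filter (fun P => (Ideal.absNorm P.asIdeal).Prime ∧
          φ (ClassGroup.mk0 (primeNZ P)) = 1), xP s P) +
        (∑ P ∈ S.filter (fun P => P ∉ E ∧ (Ideal.absNorm P.asIdeal).Prime ∧
          φ (ClassGroup.mk0 (primeNZ P)) ≠ 1), xP s P) + (D + 2 * zetaR K 2 + E.card) := by
  rw [Finset.sum_add_distrib, ← Finset.mul_sum]
  have e1 : ∀ P ∈ S, xP s P ≤
      (if (Ideal.absNorm P.asIdeal).Prime ∧ φ (ClassGroup.mk0 (primeNZ P)) = 1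
        then xP s P else 0) +
      (if P ∉ E ∧ (Ideal.absNorm P.asIdeal).Prime ∧ φ (ClassGroup.mk0 (primeNZ P)) ≠ 1
        then xP s P else 0) +
      (if ¬ (Ideal.absNorm P.asIdeal).Prime then xP s P else 0) +
      (if P ∈ E then (1 : ℝ) else 0) := by
    intro P _
    have h0 := (xP_pos s P).le
    have h1 := xP_le_half hs.le P
    split_ifs <;> first | linarith | (exfalso; tauto)
  have e2 := Finset.sum_le_sum e1
  simp only [Finset.sum_add_distrib, ← Finset.sum_filter] at e2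
  have e3 := hD s hs (S.filter fun P => ¬ (Ideal.absNorm P.asIdeal).Prime)
    fun P hP => (Finset.mem_filter.mp hP).2
  have e4 : (∑ _P ∈ S.filter (fun P => P ∈ E), (1 : ℝ)) ≤ E.card := by
    rw [Finset.sum_const, nsmul_eq_mul, mul_one]
    exact_mod_cast Finset.card_le_card fun P hP => (Finset.mem_filter.mp hP).2
  have e5 := sum_xP_sq_le hs S
  linarith

/-- A nontrivial class character `φ` modulo `p` and an extension `L` in which almost all primes of
degree one outside the kernel of `φ` have `p` factors of the same norm cannot both exist: the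
growth of the zeta functions at `1` forbids it. -/
theorem density_contradiction {L : Type*} [Field L] [NumberField L] [Algebra K L] (hp : 3 ≤ p)
    (φ : ClassGroup (𝓞 K) →* Multiplicative (ZMod p)) (hφ : φ ≠ 1)
    (E : Finset (HeightOneSpectrum (𝓞 K)))
    (hsplit : ∀ P : HeightOneSpectrum (𝓞 K), P ∉ E → (Ideal.absNorm P.asIdeal).Prime →
      φ (ClassGroup.mk0 (primeNZ P)) ≠ 1 →
      ∃ T : Finset (HeightOneSpectrum (𝓞 L)), p ≤ T.card ∧ ∀ Q ∈ T,
        Ideal.absNorm Q.asIdeal = Ideal.absNorm P.asIdeal ∧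
          Q.asIdeal.comap (algebraMap (𝓞 K) (𝓞 L)) = P.asIdeal) : False := by
  obtain ⟨D, hD⟩ := exists_nondegreeOne_bound (K := K)
  choose B hB using fun j : ZMod p => fun hj : j ≠ 0 =>
    exists_charL_bound (norm_chiOf φ j) (chiOf_ne_one hφ hj)
  set R₁ := dedekindZeta_residue K with hR₁
  set R₂ := dedekindZeta_residue L with hR₂
  set BB : ℝ := ∏ j ∈ (Finset.univ : Finset (ZMod p)).erase 0,
    (if hj : j ≠ 0 then max (B j hj) 0 else 1) with hBB
  have hpp : p.Prime := Fact.out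
  set M : ℝ := Real.exp (p * (D + 2 * zetaR K 2 + E.card)) * ((R₁ + 1) * BB) * (R₂ + 1) with hM
  have key : ∀ᶠ s in 𝓝[>] (1 : ℝ), ((s - 1) * zetaR K s) ^ p ≤ M * (s - 1) ^ (p - 2) := by
    filter_upwards [self_mem_nhdsWithin,
      (tendsto_zetaR (K := K)).eventually (Iic_mem_nhds (lt_add_one R₁)),
      (tendsto_zetaR (K := L)).eventually (Iic_mem_nhds (lt_add_one R₂)),
      eventually_all.mpr fun j : ZMod p => eventually_all.mpr fun hj : j ≠ 0 => hB j hj]
      with s (hs : 1 < s) hζK hζL hBs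
    have hs0 : 0 < s - 1 := by linarith
    have hprod : (s - 1) * ∏ j : ZMod p, ‖charL (chiOf φ j) s‖ ≤ (R₁ + 1) * BB := by
      rw [← Finset.mul_prod_erase _ _ (Finset.mem_univ (0 : ZMod p)), ← mul_assoc]
      have h0 : charL (chiOf φ (0 : ZMod p)) s = (zetaR K s : ℂ) := by
        rw [charL, zetaR, Complex.ofReal_tsum]
        refine tsum_congr fun I => ?_
        simp [chiOf]
      have hz : 0 ≤ zetaR K s := tsum_nonneg fun _ => nrm_nonneg _ _
      rw [h0, Complex.norm_real, Real.norm_eq_abs, abs_of_nonneg hz]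
      refine mul_le_mul hζK ?_ (Finset.prod_nonneg fun _ _ => norm_nonneg _)
        ((mul_nonneg hs0.le hz).trans hζK)
      refine Finset.prod_le_prod (fun _ _ => norm_nonneg _) fun j hj => ?_
      rw [dif_pos (Finset.ne_of_mem_erase hj)]
      exact (hBs j (Finset.ne_of_mem_erase hj)).trans (le_max_left _ _)
    have hfin : ∀ S : Finset (HeightOneSpectrum (𝓞 K)),
        ((s - 1) * ∏ P ∈ S, (1 - xP s P)⁻¹) ^ p ≤ M * (s - 1) ^ (p - 2) := by
      intro S
      set S0 := S.filter fun P => (Ideal.absNorm P.asIdeal).Prime ∧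
        φ (ClassGroup.mk0 (primeNZ P)) = 1 with hS0
      set S1 := S.filter fun P => P ∉ E ∧ (Ideal.absNorm P.asIdeal).Prime ∧
        φ (ClassGroup.mk0 (primeNZ P)) ≠ 1 with hS1
      have hA0 : Real.exp (p * ∑ P ∈ S0, xP s P) * (s - 1) ≤ (R₁ + 1) * BB :=
        le_trans (by
          rw [mul_comm (s - 1)]
          exact mul_le_mul_of_nonneg_right (exp_sum_le_prod_charL hs S0
            fun P hP => (Finset.mem_filter.mp hP).2.2) hs0.le) hprod
      choose! T hT using hsplit
      have hdisj : (S1 : Set (HeightOneSpectrum (𝓞 K))).PairwiseDisjoint T := by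
        intro P hP Q hQ hne
        rw [Function.onFun, Finset.disjoint_left]
        intro x hxP hxQ
        obtain ⟨hP1, hP2, hP3⟩ := (Finset.mem_filter.mp hP).2
        obtain ⟨hQ1, hQ2, hQ3⟩ := (Finset.mem_filter.mp hQ).2
        exact hne (HeightOneSpectrum.ext
          (((hT P hP1 hP2 hP3).2 x hxP).2.symm.trans ((hT Q hQ1 hQ2 hQ3).2 x hxQ).2))
      have hA1 : Real.exp (p * ∑ P ∈ S1, xP s P) * (s - 1) ≤ R₂ + 1 := by
        refine le_trans ?_ hζL
        rw [mul_comm (s - 1)]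
        refine mul_le_mul_of_nonneg_right ?_ hs0.le
        refine le_trans (Real.exp_le_exp.mpr ?_) (exp_sum_le_zetaR hs (S1.biUnion T))
        rw [Finset.sum_biUnion hdisj, Finset.mul_sum]
        refine Finset.sum_le_sum fun P hP => ?_
        obtain ⟨hP1, hP2, hP3⟩ := (Finset.mem_filter.mp hP).2
        obtain ⟨hcard, hTP⟩ := hT P hP1 hP2 hP3
        rw [Finset.sum_congr rfl (g := fun _ => xP s P) fun Q hQ => by rw [xP, xP, (hTP Q hQ).1],
          Finset.sum_const, nsmul_eq_mul]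
        exact mul_le_mul_of_nonneg_right (by exact_mod_cast hcard) (xP_pos s P).le
      have hsum : ∑ P ∈ S, (xP s P + 2 * xP s P ^ 2) ≤
          (∑ P ∈ S0, xP s P) + (∑ P ∈ S1, xP s P) + (D + 2 * zetaR K 2 + E.card) :=
        sum_xP_add_sq_le hs φ E hD S
      have hpr0 : ∀ P ∈ S, 0 ≤ (1 - xP s P)⁻¹ := fun P _ =>
        inv_nonneg.mpr (by linarith [xP_le_half hs.le P])
      have hP : ∏ P ∈ S, (1 - xP s P)⁻¹ ≤ Real.exp (∑ P ∈ S, (xP s P + 2 * xP s P ^ 2)) := by
        rw [Real.exp_sum]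
        exact Finset.prod_le_prod hpr0
          fun P _ => Gal.inv_one_sub_le_exp (xP_pos s P).le (xP_le_half hs.le P)
      calc ((s - 1) * ∏ P ∈ S, (1 - xP s P)⁻¹) ^ p
          ≤ ((s - 1) * Real.exp ((∑ P ∈ S0, xP s P) + (∑ P ∈ S1, xP s P) +
              (D + 2 * zetaR K 2 + E.card))) ^ p :=
            pow_le_pow_left₀ (mul_nonneg hs0.le (Finset.prod_nonneg hpr0))
              (mul_le_mul_of_nonneg_left (hP.trans (Real.exp_le_exp.mpr hsum)) hs0.le) _
        _ = Real.exp (p * (D + 2 * zetaR K 2 + E.card)) *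
              (Real.exp (p * ∑ P ∈ S0, xP s P) * (s - 1)) *
              (Real.exp (p * ∑ P ∈ S1, xP s P) * (s - 1)) * (s - 1) ^ (p - 2) := by
            rw [mul_pow, ← Real.exp_nat_mul, mul_add, mul_add, Real.exp_add, Real.exp_add,
              show (s - 1) ^ p = (s - 1) ^ (p - 2) * (s - 1) * (s - 1) by
                rw [mul_assoc, ← pow_two, ← pow_add, Nat.sub_add_cancel (by omega)]]
            ring
        _ ≤ M * (s - 1) ^ (p - 2) := by
            have := le_trans (mul_nonneg (Real.exp_pos (p * ∑ P ∈ S0, xP s P)).le hs0.le) hA0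
            refine mul_le_mul_of_nonneg_right (mul_le_mul (mul_le_mul_of_nonneg_left hA0
              (Real.exp_pos _).le) hA1 (mul_nonneg (Real.exp_pos _).le hs0.le)
              (mul_nonneg (Real.exp_pos _).le this)) (pow_nonneg hs0.le _)
    exact le_of_tendsto (((tendsto_zetaR_euler hs).const_mul (s - 1)).pow p)
      (Eventually.of_forall hfin)
  have h1 : Tendsto (fun s : ℝ => ((s - 1) * zetaR K s) ^ p) (𝓝[>] 1) (𝓝 (R₁ ^ p)) :=
    tendsto_zetaR.pow p
  have h2 : Tendsto (fun s : ℝ => M * (s - 1) ^ (p - 2)) (𝓝[>] 1) (𝓝 0) := by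
    have hc : Continuous fun s : ℝ => M * (s - 1) ^ (p - 2) := by fun_prop
    have := tendsto_nhdsWithin_of_tendsto_nhds (s := Set.Ioi (1 : ℝ)) (hc.tendsto 1)
    simpa [zero_pow (by omega : p - 2 ≠ 0)] using this
  have h3 := le_of_tendsto_of_tendsto h1 h2 key
  exact absurd (pow_pos (dedekindZeta_residue_pos K) p) (not_lt.mpr h3)

end Fermat.Agent.ExtVan
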