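import Mathlib.NumberTheory.NumberField.Cyclotomic.Galois
import Mathlib.NumberTheory.NumberField.Cyclotomic.Ideal
import Mathlib.RingTheory.ClassGroup.Basic
import Mathlib.RingTheory.DedekindDomain.Factorization
import Mathlib.RingTheory.Ideal.Norm.AbsNorm
import Mathlib.RingTheory.RootsOfUnity.Lemmas

/-!
Galois action on primes of degree one in the `p`-th cyclotomic field; auxiliary facts on roots of
unity modulo primes and on homomorphisms out of the class group. These are the preliminaries for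
Thaine's argument.
-/

noncomputable section

namespace Fermat.Agent.ExtVan

open NumberField IsDedekindDomain
open scoped Pointwise nonZeroDivisors Classical

/-- Roots of unity congruent modulo a prime not containing the order are equal. -/
lemma root_eq_of_sub_mem {R : Type*} [CommRing R] [IsDomain R] {P : Ideal R} [hP : P.IsPrime]
    {n : ℕ} (hn : n.Prime) (hnP : (n : R) ∉ P) {z : R} (hz : IsPrimitiveRoot z n)
    {a b : ℕ} (h : z ^ a - z ^ b ∈ P) : z ^ a = z ^ b := by
  have : NeZero n := ⟨hn.ne_zero⟩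
  wlog hab : a ≤ b generalizing a b
  · exact (this (by simpa using neg_mem h) (le_of_not_ge hab)).symm
  obtain ⟨d, rfl⟩ := Nat.exists_eq_add_of_le hab
  rw [pow_add] at h ⊢
  by_contra hne
  have hzd : z ^ d ≠ 1 := fun h1 => hne (by rw [h1, mul_one])
  have hz0 : z ^ a ∉ P := fun hm =>
      hP.ne_top <| P.eq_top_of_isUnit_mem hm ((hz.isUnit hn.ne_zero).pow a)
  have h1 : 1 - z ^ d ∈ P := by
    rw [← mul_one (z ^ a), mul_assoc, one_mul, ← mul_sub] at h
    exact (hP.mem_or_mem h).resolve_left hz0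
  have hzd' : IsPrimitiveRoot (z ^ d) n := by
    refine hz.pow_of_coprime d ?_
    exact (hn.coprime_iff_not_dvd.mpr fun hd => hzd ((hz.pow_eq_one_iff_dvd d).mpr hd)).symm
  refine hnP ?_
  obtain ⟨m, rfl⟩ : ∃ m, n = m + 1 := ⟨n - 1, by have := hn.one_lt; omega⟩
  have hprod := hzd'.prod_one_sub_pow_eq_order
  rw [Nat.cast_add, Nat.cast_one, ← hprod]
  rw [← Finset.mul_prod_erase _ _ (Finset.mem_range.mpr
    (show 0 < m by have := hn.one_lt; omega))]
  exact P.mul_mem_right _ (by simpa using h1)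

variable {p : ℕ} [hp : Fact p.Prime] {K : Type*} [Field K] [NumberField K]
  [IsCyclotomicExtension {p} ℚ K]

omit [NumberField K] [IsCyclotomicExtension {p} ℚ K] in
/-- A prime `p ≥ 3` other than `3` is at least `5`. -/
lemma five_le_of_ne_three (hp3 : 3 ≤ p) (h : p ≠ 3) : 5 ≤ p := by
  by_contra h5
  obtain rfl : p = 4 := by omega
  exact absurd hp.out (by decide)

omit [NumberField K] [IsCyclotomicExtension {p} ℚ K] in
/-- `2` is nonzero modulo a prime `p ≥ 3`. -/
lemma two_ne_zero_of_three_le (hp3 : 3 ≤ p) : (2 : ZMod p) ≠ 0 := fun h => by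
  have : p ∣ 2 := (ZMod.natCast_eq_zero_iff 2 p).mp (by exact_mod_cast h)
  have := Nat.le_of_dvd two_pos this
  omega

variable (K) in
/-- The automorphism `σ_a : ζ ↦ ζ ^ a` of the cyclotomic field. -/
def sigma (a : (ZMod p)ˣ) : K ≃ₐ[ℚ] K :=
  (IsCyclotomicExtension.Rat.galEquivZMod p K).symm a

lemma sigma_mul (a b : (ZMod p)ˣ) : sigma K (a * b) = sigma K a * sigma K b := map_mul _ a b

lemma sigma_one : sigma K (1 : (ZMod p)ˣ) = 1 := map_one _

lemma sigma_inv (a : (ZMod p)ˣ) : sigma K a⁻¹ = (sigma K a)⁻¹ := map_inv _ a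

lemma sigma_smul_root (a : (ZMod p)ˣ) {x : 𝓞 K} (hx : x ^ p = 1) :
    sigma K a • x = x ^ (a : ZMod p).val := by
  rw [IsCyclotomicExtension.Rat.galEquivZMod_smul_of_pow_eq p K _ hx, sigma,
    MulEquiv.apply_symm_apply]

variable (p K) in
/-- The root of unity in `𝓞 K`. -/
def zetaInt : 𝓞 K := (IsCyclotomicExtension.zeta_spec p ℚ K).toInteger

lemma zetaInt_spec : IsPrimitiveRoot (zetaInt p K) p :=
  (IsCyclotomicExtension.zeta_spec p ℚ K).toInteger_isPrimitiveRoot

lemma absNorm_smul (σ : K ≃ₐ[ℚ] K) (I : Ideal (𝓞 K)) :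
    Ideal.absNorm (σ • I) = Ideal.absNorm I := by
  rw [Ideal.absNorm_apply, Ideal.absNorm_apply, Submodule.cardQuot_apply, Submodule.cardQuot_apply]
  refine Nat.card_congr
      (Ideal.quotientEquiv I _ (MulSemiringAction.toRingEquiv _ _ σ) ?_).toEquiv.symm
  rfl

/-- `σ` applied to a prime. -/
def smulPrime (σ : K ≃ₐ[ℚ] K) (P : HeightOneSpectrum (𝓞 K)) : HeightOneSpectrum (𝓞 K) where
  asIdeal := σ • P.asIdeal
  isPrime := Ideal.IsPrime.smul σ
  ne_bot h := P.ne_bot (by
    have := congrArg (σ⁻¹ • ·) h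
    simpa [Ideal.smul_bot] using this)

lemma natCast_smul (σ : K ≃ₐ[ℚ] K) (n : ℕ) : σ • (n : 𝓞 K) = n :=
  map_natCast (MulSemiringAction.toRingHom _ _ σ) n

lemma natCast_mem_smul {σ : K ≃ₐ[ℚ] K} {n : ℕ} {I : Ideal (𝓞 K)} :
    (n : 𝓞 K) ∈ σ • I ↔ (n : 𝓞 K) ∈ I := by
  rw [Ideal.mem_pointwise_smul_iff_inv_smul_mem, natCast_smul]

section DegreeOne

variable {l : ℕ} {P : HeightOneSpectrum (𝓞 K)}

lemma natCast_mem_of_absNorm (hP : Ideal.absNorm P.asIdeal = l) : (l : 𝓞 K) ∈ P.asIdeal :=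
  hP ▸ Ideal.absNorm_mem _

omit [IsCyclotomicExtension {p} ℚ K] in
lemma p_notMem_of_absNorm (hl : l.Prime) (hlp : l ≠ p) (hP : Ideal.absNorm P.asIdeal = l) :
    (p : 𝓞 K) ∉ P.asIdeal := by
  intro h
  refine P.isPrime.ne_top ((Ideal.eq_top_iff_one _).mpr ?_)
  have hco : IsCoprime (l : ℤ) (p : ℤ) :=
    Int.isCoprime_iff_gcd_eq_one.mpr (by simpa using (Nat.coprime_primes hl hp.out).mpr hlp)
  obtain ⟨u, v, huv⟩ := hco
  have h1 : ((u * l + v * p : ℤ) : 𝓞 K) ∈ P.asIdeal := by
    push_cast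
    exact add_mem (Ideal.mul_mem_left _ _ (natCast_mem_of_absNorm hP)) (Ideal.mul_mem_left _ _ h)
  rwa [huv, Int.cast_one] at h1

/-- Every integer is congruent to a natural number modulo a prime of degree one. -/
lemma exists_nat_sub_mem (hl : l.Prime) (hP : Ideal.absNorm P.asIdeal = l) (x : 𝓞 K) :
    ∃ n : ℕ, x - n ∈ P.asIdeal := by
  have : Fact l.Prime := ⟨hl⟩
  have hcard : Nat.card (𝓞 K ⧸ P.asIdeal) = l := by
    rw [← hP, Ideal.absNorm_apply, Submodule.cardQuot_apply]
  have hfin : Finite (𝓞 K ⧸ P.asIdeal) := Nat.finite_of_card_ne_zero (hcard ▸ hl.ne_zero)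
  have : Fintype (𝓞 K ⧸ P.asIdeal) := Fintype.ofFinite _
  have : CharP (𝓞 K ⧸ P.asIdeal) l :=
    charP_of_card_eq_prime (by rw [← Nat.card_eq_fintype_card]; exact hcard)
  obtain ⟨c, hc⟩ := (ZMod.castHom_bijective (R := 𝓞 K ⧸ P.asIdeal)
    (by rw [← Nat.card_eq_fintype_card]; exact hcard)).2 (Ideal.Quotient.mk P.asIdeal x)
  refine ⟨c.val, ?_⟩
  rw [← Ideal.Quotient.eq, map_natCast, ← hc,
    ← map_natCast (ZMod.castHom (dvd_refl l) (𝓞 K ⧸ P.asIdeal)) c.val,
    ZMod.natCast_zmod_val]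

/-- The conjugates of a prime of degree one over `l ≠ p` are distinct. -/
lemma sigma_smul_injective (hl : l.Prime) (hlp : l ≠ p) (hP : Ideal.absNorm P.asIdeal = l) :
    Function.Injective fun a : (ZMod p)ˣ => sigma K a • P.asIdeal := by
  have key : ∀ a : (ZMod p)ˣ, sigma K a • P.asIdeal = P.asIdeal → a = 1 := by
    intro a ha
    obtain ⟨n, hn⟩ := exists_nat_sub_mem hl hP (zetaInt p K)
    have h1 : sigma K a • (zetaInt p K - n) ∈ P.asIdeal := by
      have h2 := Ideal.smul_mem_pointwise_smul (sigma K a) _ P.asIdeal hn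
      rwa [ha] at h2
    rw [smul_sub, natCast_smul, sigma_smul_root a (zetaInt_spec).pow_eq_one] at h1
    have h2 : zetaInt p K ^ (a : ZMod p).val - zetaInt p K ^ 1 ∈ P.asIdeal := by
      have := sub_mem h1 hn
      simpa using this
    have h3 := root_eq_of_sub_mem hp.out (p_notMem_of_absNorm hl hlp hP) zetaInt_spec h2
    have h4 := zetaInt_spec.pow_inj (ZMod.val_lt _) hp.out.one_lt h3
    exact Units.ext ((ZMod.val_eq_one hp.out.one_lt _).mp h4)
  intro a b h
  simp only at h
  have := key (b⁻¹ * a) (by rw [sigma_mul, mul_smul, h, ← mul_smul, ← sigma_mul, inv_mul_cancel,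
    sigma_one, one_smul])
  rwa [inv_mul_eq_one, eq_comm] at this

/-- A prime of degree one generates, with its conjugates, the rational prime below it. -/
lemma span_natCast_eq_prod (hl : l.Prime) (hlp : l ≠ p) (hP : Ideal.absNorm P.asIdeal = l) :
    Ideal.span {(l : 𝓞 K)} = ∏ a : (ZMod p)ˣ, sigma K a • P.asIdeal := by
  have hinj := sigma_smul_injective hl hlp hP
  have hdvd : ∏ a : (ZMod p)ˣ, sigma K a • P.asIdeal ∣ Ideal.span {(l : 𝓞 K)} := by
    have h := Finset.prod_primes_dvd (Ideal.span {(l : 𝓞 K)})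
      (s := Finset.univ.map ⟨fun a : (ZMod p)ˣ => sigma K a • P.asIdeal, hinj⟩)
      (fun I hI => by
        obtain ⟨a, -, rfl⟩ := Finset.mem_map.mp hI
        exact (smulPrime (sigma K a) P).prime)
      (fun I hI => by
        obtain ⟨a, -, rfl⟩ := Finset.mem_map.mp hI
        exact Ideal.dvd_span_singleton.mpr (natCast_mem_smul.mpr (natCast_mem_of_absNorm hP)))
    rwa [Finset.prod_map] at h
  obtain ⟨C, hC⟩ := hdvd
  have hn := congrArg Ideal.absNorm hC
  rw [map_mul, map_prod, Ideal.absNorm_span_singleton, ← map_natCast (algebraMap ℤ (𝓞 K)),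
    Algebra.norm_algebraMap, RingOfIntegers.rank, IsCyclotomicExtension.finrank (n := p) K
      (Polynomial.cyclotomic.irreducible_rat hp.out.pos), Nat.totient_prime hp.out] at hn
  simp only [absNorm_smul, hP, Finset.prod_const, Finset.card_univ,
    ZMod.card_units_eq_totient, Nat.totient_prime hp.out, Int.natAbs_pow, Int.natAbs_natCast] at hn
  have : Ideal.absNorm C = 1 := by
    have h0 : l ^ (p - 1) ≠ 0 := pow_ne_zero _ hl.ne_zero
    exact (mul_eq_left₀ h0).mp hn.symm
  rw [hC, Ideal.absNorm_eq_one_iff.mp this, ← Ideal.one_eq_top, mul_one]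

end DegreeOne

/-! ### Homomorphisms out of the class group -/

variable {A : Type*} [AddCommGroup A] {R : Type*} [CommRing R] [IsDedekindDomain R]

/-- A homomorphism on the class group as an additive function of ideals, zero at the zero ideal.
-/
def onIdeal (φ : ClassGroup R →* Multiplicative A) (I : Ideal R) : A :=
  if h : I = ⊥ then 0 else (φ (ClassGroup.mk0 ⟨I, mem_nonZeroDivisors_of_ne_zero h⟩)).toAdd

lemma onIdeal_coe (φ : ClassGroup R →* Multiplicative A) (I : (Ideal R)⁰) :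
    onIdeal φ (I : Ideal R) = (φ (ClassGroup.mk0 I)).toAdd := by
  rw [onIdeal, dif_neg (show (I : Ideal R) ≠ ⊥ from nonZeroDivisors.ne_zero I.2)]

lemma onIdeal_mul (φ : ClassGroup R →* Multiplicative A) {I J : Ideal R} (hI : I ≠ ⊥)
    (hJ : J ≠ ⊥) : onIdeal φ (I * J) = onIdeal φ I + onIdeal φ J := by
  rw [onIdeal, onIdeal, onIdeal, dif_neg hI, dif_neg hJ,
    dif_neg (show I * J ≠ ⊥ from mul_ne_zero hI hJ), ← toAdd_mul,
    ← map_mul φ, ← map_mul ClassGroup.mk0]
  rfl

lemma onIdeal_span (φ : ClassGroup R →* Multiplicative A) {x : R} (hx : x ≠ 0) :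
    onIdeal φ (Ideal.span {x}) = 0 := by
  have h : Ideal.span {x} ≠ ⊥ := by simpa using hx
  rw [onIdeal, dif_neg h]
  have h1 : ClassGroup.mk0 (⟨Ideal.span {x}, mem_nonZeroDivisors_of_ne_zero h⟩ : (Ideal R)⁰) =
      1 := by
    rw [ClassGroup.mk0_eq_one_iff]
    exact ⟨⟨x, rfl⟩⟩
  rw [h1, map_one, toAdd_one]

/-- `onIdeal φ` is additive over the prime factorisation. -/
lemma onIdeal_eq_sum (φ : ClassGroup R →* Multiplicative A) {I : Ideal R} (hI : I ≠ ⊥) :
    onIdeal φ I = ∑ Q ∈ (UniqueFactorizationMonoid.normalizedFactors I).toFinset,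
      (UniqueFactorizationMonoid.normalizedFactors I).count Q • onIdeal φ Q := by
  rw [← Finset.sum_multiset_map_count]
  conv_lhs => rw [← associated_iff_eq.mp (UniqueFactorizationMonoid.prod_normalizedFactors hI)]
  have hm : ∀ m : Multiset (Ideal R), (∀ Q ∈ m, Q ≠ ⊥) →
      onIdeal φ m.prod = (m.map (onIdeal φ)).sum := by
    intro m
    induction m using Multiset.induction_on with
    | empty =>
      intro
      simp only [Multiset.prod_zero, Multiset.map_zero, Multiset.sum_zero]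
      rw [Ideal.one_eq_top, ← Ideal.span_singleton_one]
      exact onIdeal_span φ one_ne_zero
    | cons Q m ih =>
      intro h
      rw [Multiset.prod_cons, Multiset.map_cons, Multiset.sum_cons,
        onIdeal_mul φ (h Q (Multiset.mem_cons_self _ _))
          (Multiset.prod_ne_zero fun h0 => h 0 (Multiset.mem_cons_of_mem h0) rfl),
        ih fun Q hQ => h Q (Multiset.mem_cons_of_mem hQ)]
  exact hm _ fun Q hQ => (UniqueFactorizationMonoid.prime_of_normalized_factor Q hQ).ne_zero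

end Fermat.Agent.ExtVan
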