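import Mathlib.NumberTheory.NumberField.Norm
import Mathlib.NumberTheory.RamificationInertia.Galois
import Mathlib.RepresentationTheory.Homological.GroupCohomology.Hilbert90
import Mathlib.RingTheory.Polynomial.Cyclotomic.Basic
import Mathlib.RingTheory.RootsOfUnity.CyclotomicUnits
import Fermat.Agent.ExtVan.Cyclo

/-!
Thaine's argument modulo `p`, for the cyclotomic unit `1 + ζ`. It shows that a nontrivial
`ω²`-class character makes the unit a local `p`-th power.
-/

noncomputable section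

namespace Fermat.Agent.ExtVan

open NumberField IsDedekindDomain
open scoped Pointwise nonZeroDivisors Classical

section Kummer

variable {K M : Type*} [Field K] [NumberField K] [Field M] [NumberField M] [Algebra K M]
  [IsGalois K M] {l : ℕ} [hl : Fact l.Prime] [IsCyclotomicExtension {l} K M]
  (Q : HeightOneSpectrum (𝓞 K)) (L : Ideal (𝓞 M)) [L.IsPrime] [L.LiesOver Q.asIdeal]

/-- In a Galois extension the ramification index is the order of the inertia group. -/
lemma ramificationIdx'_eq_card_inertia :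
    Q.asIdeal.ramificationIdx' L = Nat.card (L.inertia (M ≃ₐ[K] M)) := by
  have : Q.asIdeal.IsMaximal := Q.isMaximal
  rw [Ideal.ramificationIdx'_eq_ramificationIdx Q.asIdeal L Q.ne_bot,
    Ideal.card_inertia_eq_ramificationIdxIn Q.asIdeal L,
    Ideal.ramificationIdxIn_eq_ramificationIdx Q.asIdeal L (M ≃ₐ[K] M)]

omit [IsGalois K M] in
lemma multiplicity_algebraMap (hL : L ≠ ⊥) {x : 𝓞 K} (hx : x ≠ 0) :
    multiplicity L (Ideal.span {algebraMap (𝓞 K) (𝓞 M) x}) =
      Q.asIdeal.ramificationIdx' L * multiplicity Q.asIdeal (Ideal.span {x}) := by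
  have hI : Ideal.span {x} ≠ ⊥ := by simpa using hx
  rw [← Set.image_singleton, ← Ideal.map_span]
  refine multiplicity_eq_of_emultiplicity_eq_some ?_
  rw [Ideal.IsDedekindDomain.emultiplicity_map_eq_ramificationIdx'_mul hI Q.irreducible
    (Ideal.prime_of_isPrime hL ‹_›).irreducible hL, Nat.cast_mul,
    (FiniteMultiplicity.of_prime_left Q.prime hI).emultiplicity_eq_multiplicity]

variable (K M l) in
/-- The root of unity of order `l` in `M`. -/
def zetaM : 𝓞 M := (IsCyclotomicExtension.zeta_spec l K M).toInteger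

omit [NumberField K] [NumberField M] [IsGalois K M] in
lemma zetaM_spec : IsPrimitiveRoot (zetaM K M l) l :=
  (IsCyclotomicExtension.zeta_spec l K M).toInteger_isPrimitiveRoot

omit [NumberField K] [NumberField M] [IsGalois K M] in
lemma smul_zetaM (σ : M ≃ₐ[K] M) : σ • zetaM K M l =
    zetaM K M l ^ ((IsCyclotomicExtension.zeta_spec l K M).autToPow K σ : ZMod l).val := by
  apply RingOfIntegers.coe_injective
  show σ ((zetaM K M l : 𝓞 M) : M) = _
  rw [zetaM, map_pow]
  exact ((IsCyclotomicExtension.zeta_spec l K M).autToPow_spec K σ).symm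

omit [NumberField K] [NumberField M] [IsGalois K M] in
/-- Primes not over `l` are unramified in the `l`-th cyclotomic extension. -/
lemma inertia_eq_bot_of_notMem (hlL : (l : 𝓞 M) ∉ L) : L.inertia (M ≃ₐ[K] M) = ⊥ := by
  refine (Subgroup.eq_bot_iff_forall _).mpr fun σ hσ => ?_
  have h1 := hσ (zetaM K M l)
  rw [smul_zetaM] at h1
  have h2 := root_eq_of_sub_mem hl.out hlL (zetaM_spec (K := K)) (b := 1) (by simpa using h1)
  have h3 := (zetaM_spec (K := K) (M := M)).pow_inj (ZMod.val_lt _) hl.out.one_lt h2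
  apply IsPrimitiveRoot.autToPow_injective K (IsCyclotomicExtension.zeta_spec l K M)
  rw [map_one]
  exact Units.ext ((ZMod.val_eq_one hl.out.one_lt _).mp h3)

lemma ramificationIdx'_eq_one_of_notMem (hlL : (l : 𝓞 M) ∉ L) :
    Q.asIdeal.ramificationIdx' L = 1 := by
  rw [ramificationIdx'_eq_card_inertia, inertia_eq_bot_of_notMem L hlL, Subgroup.card_bot]

omit [NumberField K] [NumberField M] [IsGalois K M] in
lemma span_natCast_eq_pow : Ideal.span {(l : 𝓞 M)} =
    Ideal.span {zetaM K M l - 1} ^ (l - 1) := by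
  have hz := zetaM_spec (K := K) (M := M) (l := l)
  obtain ⟨m, hm⟩ : ∃ m, l = m + 1 := ⟨l - 1, by have := hl.out.one_lt; omega⟩
  have hprod := IsPrimitiveRoot.prod_one_sub_pow_eq_order (n := m) (by rwa [← hm])
  rw [show l - 1 = m by omega, show ((l : ℕ) : 𝓞 M) = (m : 𝓞 M) + 1 by rw [hm]; push_cast; rfl,
    ← hprod, ← Ideal.prod_span_singleton]
  rw [Finset.prod_congr rfl (g := fun _ => Ideal.span {zetaM K M l - 1}) fun k hk => ?_]
  · simp
  rw [Ideal.span_singleton_eq_span_singleton]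
  have h1 : Associated (zetaM K M l - 1) (zetaM K M l ^ (k + 1) - 1) := by
    refine hz.associated_sub_one_pow_sub_one_of_coprime ?_
    have := Finset.mem_range.mp hk
    exact (hl.out.coprime_iff_not_dvd.mpr
        (Nat.not_dvd_of_pos_of_lt (Nat.succ_pos k) (by omega))).symm
  refine Associated.trans ?_ h1.symm
  rw [← neg_sub]
  exact (Associated.refl _).neg_left

/-- A prime over `l` which divides `l` once is totally ramified in the `l`-th cyclotomic
extension: the ramification index, inertia group, valuation of `ζ_l - 1`, Galois group and its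
order. -/
lemma totally_ramified (hL : L ≠ ⊥) (hlQ : multiplicity Q.asIdeal (Ideal.span {(l : 𝓞 K)}) = 1)
    (hlL : (l : 𝓞 M) ∈ L) :
    Q.asIdeal.ramificationIdx' L = l - 1 ∧ L.inertia (M ≃ₐ[K] M) = ⊤ ∧
      multiplicity L (Ideal.span {zetaM K M l - 1}) = 1 ∧
      Function.Bijective ((IsCyclotomicExtension.zeta_spec l K M).autToPow K) ∧
      Nat.card (M ≃ₐ[K] M) = l - 1 := by
  have hinj := IsPrimitiveRoot.autToPow_injective K (IsCyclotomicExtension.zeta_spec l K M)
  have hLp : Prime L := Ideal.prime_of_isPrime hL ‹_›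
  have hcard : Nat.card (ZMod l)ˣ = l - 1 := by
    rw [Nat.card_eq_fintype_card, ZMod.card_units_eq_totient, Nat.totient_prime hl.out]
  have hG : Nat.card (M ≃ₐ[K] M) ≤ l - 1 := hcard ▸ Nat.card_le_card_of_injective _ hinj
  have hI : Nat.card (L.inertia (M ≃ₐ[K] M)) ≤ Nat.card (M ≃ₐ[K] M) :=
    Nat.card_le_card_of_injective _ Subtype.val_injective
  have hl0 : (l : 𝓞 K) ≠ 0 := Nat.cast_ne_zero.mpr hl.out.ne_zero
  have h1 := multiplicity_algebraMap Q L hL hl0
  rw [hlQ, mul_one, map_natCast, span_natCast_eq_pow (K := K),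
    ramificationIdx'_eq_card_inertia] at h1
  set m := multiplicity L (Ideal.span {zetaM K M l - 1}) with hm
  have hπ0 : Ideal.span {zetaM K M l - 1} ≠ ⊥ := by
    simp only [ne_eq, Ideal.span_singleton_eq_bot, sub_eq_zero]
    exact (zetaM_spec (K := K)).ne_one hl.out.one_lt
  rw [FiniteMultiplicity.multiplicity_pow hLp (FiniteMultiplicity.of_prime_left hLp hπ0), ← hm]
    at h1
  have hm1 : 1 ≤ m := by
    refine Nat.one_le_iff_ne_zero.mpr fun h0 => ?_
    have hdvd : L ∣ Ideal.span {(l : 𝓞 M)} := Ideal.dvd_span_singleton.mpr hlL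
    rw [span_natCast_eq_pow (K := K)] at hdvd
    exact multiplicity_eq_zero.mp h0 (hLp.dvd_of_dvd_pow hdvd)
  have hcI : Nat.card (L.inertia (M ≃ₐ[K] M)) = l - 1 :=
    le_antisymm (hI.trans hG) (h1 ▸ Nat.le_mul_of_pos_right _ hm1)
  have hcG : Nat.card (M ≃ₐ[K] M) = l - 1 := le_antisymm hG (hcI ▸ hI)
  refine ⟨(ramificationIdx'_eq_card_inertia Q L).trans hcI,
    Subgroup.card_eq_iff_eq_top _ |>.mp (hcI.trans hcG.symm), ?_, ?_, hcG⟩
  · exact (Nat.mul_eq_left (by have := hl.out.one_lt; omega)).mp (h1.trans hcI)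
  · exact (Nat.bijective_iff_injective_and_card _).mpr ⟨hinj, hcG.trans hcard.symm⟩

/-- `b` generates an invariant ideal: `(N b) = (b) ^ [M : K]`. -/
lemma span_algebraMap_norm {b : 𝓞 M} (hb : ∀ σ : M ≃ₐ[K] M, Associated (σ • b) b) :
    Ideal.span {algebraMap (𝓞 K) (𝓞 M) (RingOfIntegers.norm K b)} =
      Ideal.span {b} ^ Nat.card (M ≃ₐ[K] M) := by
  have h : algebraMap (𝓞 K) (𝓞 M) (RingOfIntegers.norm K b) = ∏ σ : M ≃ₐ[K] M, σ • b := by
    apply RingOfIntegers.coe_injective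
    rw [map_prod]
    exact (RingOfIntegers.coe_algebraMap_norm K b).trans (Algebra.norm_eq_prod_automorphisms K _)
  rw [h, ← Ideal.prod_span_singleton]
  simp [Nat.card_eq_fintype_card, fun σ => Ideal.span_singleton_eq_span_singleton.mpr (hb σ)]

end Kummer

variable {p : ℕ} [hp : Fact p.Prime] {K : Type} [Field K] [NumberField K]
  [IsCyclotomicExtension {p} ℚ K]

variable (p K) in
/-- The cyclotomic unit `1 + ζ`. -/
def xi0 : 𝓞 K := 1 + zetaInt p K

/-- Exponent lifting `a⁻²`. -/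
def expo (a : (ZMod p)ˣ) : ℕ := (((a⁻¹ ^ 2 : (ZMod p)ˣ)) : ZMod p).val

variable (p K) in
/-- Projection of `1 + ζ` to the `ω²`-component. -/
def xi2 : 𝓞 K := ∏ a : (ZMod p)ˣ, (sigma K a • xi0 p K) ^ expo a

omit hp [IsCyclotomicExtension {p} ℚ K] in
/-- Fermat's little theorem at a prime of absolute norm `l`. -/
lemma natCast_pow_sub_one_mem {l : ℕ} (hl : l.Prime) {P : HeightOneSpectrum (𝓞 K)}
    (hP : Ideal.absNorm P.asIdeal = l) {n : ℕ} (hn : ¬ l ∣ n) :
    (n : 𝓞 K) ^ (l - 1) - 1 ∈ P.asIdeal := by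
  have : Fact l.Prime := ⟨hl⟩
  obtain ⟨c, hc⟩ : (l : ℤ) ∣ (n : ℤ) ^ (l - 1) - 1 := by
    rw [← ZMod.intCast_zmod_eq_zero_iff_dvd]
    push_cast
    rw [ZMod.pow_card_sub_one_eq_one (by rwa [Ne, ZMod.natCast_eq_zero_iff]), sub_self]
  have h2 := congrArg (fun t : ℤ => (t : 𝓞 K)) hc
  push_cast at h2
  rw [h2]
  exact P.asIdeal.mul_mem_right _ (natCast_mem_of_absNorm hP)

/-- A prime of degree one over `l ≠ p` exists only for `l ≡ 1` modulo `p`. -/
lemma prime_dvd_pred {l : ℕ} (hl : l.Prime) (hlp : l ≠ p) {P : HeightOneSpectrum (𝓞 K)}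
    (hP : Ideal.absNorm P.asIdeal = l) : p ∣ l - 1 := by
  have : Fact l.Prime := ⟨hl⟩
  obtain ⟨n, hn⟩ := exists_nat_sub_mem hl hP (zetaInt p K)
  have hnl : ¬ l ∣ n := by
    rintro ⟨c, rfl⟩
    rw [Nat.cast_mul] at hn
    have h0 := add_mem hn (P.asIdeal.mul_mem_right (c : 𝓞 K) (natCast_mem_of_absNorm hP))
    rw [sub_add_cancel] at h0
    exact P.isPrime.ne_top (P.asIdeal.eq_top_of_isUnit_mem h0 (zetaInt_spec.isUnit hp.out.ne_zero))
  have h3 : zetaInt p K ^ (l - 1) - (n : 𝓞 K) ^ (l - 1) ∈ P.asIdeal :=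
    P.asIdeal.mem_of_dvd (sub_dvd_pow_sub_pow _ _ _) hn
  have h4 := add_mem h3 (natCast_pow_sub_one_mem hl hP hnl)
  rw [sub_add_sub_cancel] at h4
  have h5 := root_eq_of_sub_mem hp.out (p_notMem_of_absNorm hl hlp hP) zetaInt_spec (b := 0)
    (a := l - 1) (by simpa using h4)
  rw [pow_zero] at h5
  exact (zetaInt_spec.pow_eq_one_iff_dvd _).mp h5

section Construction

variable {M : Type*} [Field M] [NumberField M] [Algebra K M] [IsGalois K M] {l : ℕ}
  [hl : Fact l.Prime] [IsCyclotomicExtension {l} K M]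

variable (p l K M) in
/-- The element `1 + ζ z` of `𝓞 M`, with `z` of order `l`. -/
def epsM : 𝓞 M := 1 + algebraMap (𝓞 K) (𝓞 M) (zetaInt p K) * zetaM K M l

/-- `1 + ζ z` has norm one to `K`. -/
lemma norm_epsM (hodd : Odd l) (h1p : l % p = 1) (hp2 : p ≠ 2)
    (hbij : Function.Bijective ((IsCyclotomicExtension.zeta_spec l K M).autToPow K)) :
    Algebra.norm K ((epsM p K M l : 𝓞 M) : M) = 1 := by
  apply (algebraMap K M).injective
  rw [map_one, Algebra.norm_eq_prod_automorphisms]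
  set x : M := algebraMap K M (zetaInt p K : K) with hx
  set z : M := ((zetaM K M l : 𝓞 M) : M) with hz
  have hzp : IsPrimitiveRoot z l :=
    (zetaM_spec (K := K)).map_of_injective RingOfIntegers.coe_injective
  have hxp : IsPrimitiveRoot x p :=
    ((zetaInt_spec (p := p) (K := K)).map_of_injective
      RingOfIntegers.coe_injective).map_of_injective
      (algebraMap K M).injective
  have hterm : ∀ σ : M ≃ₐ[K] M, σ ((epsM p K M l : 𝓞 M) : M) =
      1 + x * z ^ ((IsCyclotomicExtension.zeta_spec l K M).autToPow K σ : ZMod l).val := by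
    intro σ
    have h1 : σ z = z ^ ((IsCyclotomicExtension.zeta_spec l K M).autToPow K σ : ZMod l).val := by
      rw [hz, ← map_pow, ← smul_zetaM]
      rfl
    have h2 : ((epsM p K M l : 𝓞 M) : M) = 1 + x * z := by
      rw [hx, hz]
      rfl
    rw [h2, map_add, map_one, map_mul, hx, AlgEquiv.commutes, h1]
  simp only [hterm]
  refine (Fintype.prod_equiv (Equiv.ofBijective _ hbij) _
    (fun a : (ZMod l)ˣ => 1 + x * z ^ (a : ZMod l).val) fun σ => rfl).trans ?_
  have hall : ∏ a : ZMod l, (1 + x * z ^ a.val) = 1 + x := by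
    have h := hzp.pow_add_pow_eq_prod_add_mul 1 x hodd
    have hxl : x ^ l = x := by
      rw [← Nat.div_add_mod l p, h1p, pow_add, pow_mul, hxp.pow_eq_one, one_pow, one_mul, pow_one]
    rw [one_pow, hxl] at h
    rw [h]
    refine Finset.prod_bij (fun a _ => z ^ a.val) (fun a _ => ?_) (fun a _ b _ hab => ?_)
      (fun μ hμ => ?_) fun a _ => by ring
    · rw [Polynomial.mem_nthRootsFinset hl.out.pos, ← pow_mul, mul_comm, pow_mul, hzp.pow_eq_one,
        one_pow]
    · exact ZMod.val_injective _ (hzp.pow_inj (ZMod.val_lt a) (ZMod.val_lt b) hab)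
    · obtain ⟨k, hk, rfl⟩ :=
        hzp.eq_pow_of_pow_eq_one ((Polynomial.mem_nthRootsFinset hl.out.pos _).mp hμ)
      exact ⟨(k : ZMod l), Finset.mem_univ _, by rw [ZMod.val_natCast_of_lt hk]⟩
  have h0 : (1 : M) + x ≠ 0 := fun h => by
    have h1 : x = -1 := eq_neg_of_add_eq_zero_right h
    have h2 : x ^ 2 = 1 := by rw [h1]; norm_num
    have := Nat.le_of_dvd two_pos ((hxp.pow_eq_one_iff_dvd 2).mp h2)
    have := hp.out.two_le
    omega
  rw [← Finset.mul_prod_erase _ _ (Finset.mem_univ (0 : ZMod l)), ZMod.val_zero, pow_zero, mul_one,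
    mul_eq_left₀ h0] at hall
  refine Eq.trans ?_ hall
  refine Finset.prod_bij (fun a _ => (a : ZMod l)) (fun a _ => ?_)
    (fun a _ b _ h => Units.ext h) (fun a ha => ?_) fun a _ => rfl
  · simp [a.ne_zero]
  · exact ⟨Units.mk0 a (Finset.ne_of_mem_erase ha), Finset.mem_univ _, rfl⟩

omit [NumberField K] [NumberField M] [IsGalois K M] in
lemma sub_mem_of_top_inertia {L : Ideal (𝓞 M)} (h : L.inertia (M ≃ₐ[K] M) = ⊤)
    (σ : M ≃ₐ[K] M) (d : 𝓞 M) : σ • d - d ∈ L :=
  (h ▸ Subgroup.mem_top σ : σ ∈ L.inertia (M ≃ₐ[K] M)) d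

omit [NumberField K] [IsGalois K M] in
/-- The residue relation at a totally ramified prime: if `ε * τ b = b` and `τ z = z ^ g`, then `ε
g ^ v(b) ≡ 1`. -/
lemma residue_relation {L : Ideal (𝓞 M)} [L.IsPrime] (hL : L ≠ ⊥)
    (htop : L.inertia (M ≃ₐ[K] M) = ⊤)
    (hπ : multiplicity L (Ideal.span {zetaM K M l - 1}) = 1) {g : ℕ} {τ : M ≃ₐ[K] M}
    (hτ : τ • zetaM K M l = zetaM K M l ^ g) {ε b : 𝓞 M} (hb : b ≠ 0)
    (hεb : ε * τ • b = b) :
    ε * (g : 𝓞 M) ^ multiplicity L (Ideal.span {b}) - 1 ∈ L := by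
  set π := zetaM K M l - 1 with hπdef
  set n := multiplicity L (Ideal.span {b})
  set u := ∑ i ∈ Finset.range g, zetaM K M l ^ i with hu
  have hLp : Prime L := Ideal.prime_of_isPrime hL ‹_›
  have hfin : ∀ x : 𝓞 M, x ≠ 0 → FiniteMultiplicity L (Ideal.span {x}) := fun x hx =>
    FiniteMultiplicity.of_prime_left hLp (by simpa using hx)
  have hπ0 : π ≠ 0 := sub_ne_zero.mpr ((zetaM_spec (K := K)).ne_one hl.out.one_lt)
  have hmem : ∀ (x : 𝓞 M) (k : ℕ), x ≠ 0 →
      (x ∈ L ^ k ↔ k ≤ multiplicity L (Ideal.span {x})) := fun x k hx => by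
    rw [← Ideal.dvd_span_singleton]
    exact (hfin x hx).pow_dvd_iff_le_multiplicity
  have hπn : multiplicity L (Ideal.span {π ^ n}) = n := by
    rw [← Ideal.span_singleton_pow, FiniteMultiplicity.multiplicity_pow hLp (hfin π hπ0), hπ,
        mul_one]
  have hp0 : π ^ n ≠ 0 := pow_ne_zero _ hπ0
  have hin : π ^ n ∈ L ^ n := (hmem _ n hp0).mpr hπn.ge
  have hnot : π ^ n ∉ L ^ (n + 1) := fun h => by
    have := (hmem _ (n + 1) hp0).mp h; omega
  obtain ⟨d, e, he, hde⟩ := Ideal.exists_mul_add_mem_pow_succ hL (π ^ n) b hin hnot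
    ((hmem b n hb).mpr le_rfl)
  have hd : d ∉ L := fun h => by
    have h1 : b ∈ L ^ (n + 1) := hde ▸ add_mem (pow_succ L n ▸ Ideal.mul_mem_mul hin h) he
    have := (hmem b (n + 1) hb).mp h1
    omega
  have hzmem : zetaM K M l - 1 ∈ L := by
    have := (hmem π 1 hπ0).mpr hπ.ge
    rwa [pow_one] at this
  have hug : u - (g : 𝓞 M) ∈ L := by
    rw [hu, show (g : 𝓞 M) = ∑ _i ∈ Finset.range g, (1 : 𝓞 M) by simp, ← Finset.sum_sub_distrib]
    refine Ideal.sum_mem _ fun i _ => L.mem_of_dvd ?_ hzmem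
    simpa using sub_dvd_pow_sub_pow (zetaM K M l) 1 i
  have hτπ : τ • π = π * u := by
    rw [hπdef, smul_sub, hτ, smul_one, hu, mul_geom_sum]
  have hA : ε * τ • d * u ^ n - d ∈ L := by
    by_contra hA
    have hτe : τ • e ∈ L ^ (n + 1) := by
      have hLfix : τ • L = L := by
        refine le_antisymm (fun x hx => ?_) fun x hx => ?_
        · rw [Ideal.mem_pointwise_smul_iff_inv_smul_mem] at hx
          simpa using sub_mem hx (sub_mem_of_top_inertia htop τ⁻¹ x)
        · rw [Ideal.mem_pointwise_smul_iff_inv_smul_mem]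
          simpa using add_mem (sub_mem_of_top_inertia htop τ⁻¹ x) hx
      have := Ideal.smul_mem_pointwise_smul τ e (L ^ (n + 1)) he
      rwa [smul_pow', hLfix] at this
    have key : π ^ n * (ε * τ • d * u ^ n - d) = e - ε * τ • e := by
      have h := hεb
      rw [← hde, smul_add, smul_mul', smul_pow', hτπ, mul_pow] at h
      linear_combination h
    have h1 : π ^ n * (ε * τ • d * u ^ n - d) ∈ L ^ (n + 1) :=
      key ▸ sub_mem he (Ideal.mul_mem_left _ _ hτe)
    rw [mul_comm] at h1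
    exact hnot ((Ideal.IsPrime.mul_mem_pow L h1).resolve_left hA)
  have h2 : (ε * (g : 𝓞 M) ^ n - 1) * d ∈ L := by
    have h3 : ε * τ • d * (u ^ n - (g : 𝓞 M) ^ n) ∈ L :=
      L.mul_mem_left _ (L.mem_of_dvd (sub_dvd_pow_sub_pow _ _ _) hug)
    have h4 : ε * (g : 𝓞 M) ^ n * (τ • d - d) ∈ L :=
      L.mul_mem_left _ (sub_mem_of_top_inertia htop τ d)
    have heq : (ε * (g : 𝓞 M) ^ n - 1) * d = (ε * τ • d * u ^ n - d)
        - ε * τ • d * (u ^ n - (g : 𝓞 M) ^ n) - ε * (g : 𝓞 M) ^ n * (τ • d - d) := by ring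
    rw [heq]
    exact sub_mem (sub_mem hA h3) h4
  exact (Ideal.IsPrime.mem_or_mem ‹_› h2).resolve_right hd

end Construction

/-- A prime of degree one over `l ≠ p` divides `l` exactly once. -/
lemma multiplicity_smulPrime_natCast {l : ℕ} (hl : l.Prime) (hlp : l ≠ p)
    {P : HeightOneSpectrum (𝓞 K)} (hP : Ideal.absNorm P.asIdeal = l) (a : (ZMod p)ˣ) :
    multiplicity (smulPrime (sigma K a) P).asIdeal (Ideal.span {(l : 𝓞 K)}) = 1 := by
  let Qa : (ZMod p)ˣ → HeightOneSpectrum (𝓞 K) := fun a => smulPrime (sigma K a) P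
  have hQinj : Function.Injective fun a => (Qa a).asIdeal := sigma_smul_injective hl hlp hP
  refine multiplicity_eq_of_dvd_of_not_dvd ?_ ?_
  · rw [pow_one]
    exact Ideal.dvd_span_singleton.mpr (natCast_mem_smul.mpr (natCast_mem_of_absNorm hP))
  · show ¬ (Qa a).asIdeal ^ (1 + 1) ∣ _
    rw [span_natCast_eq_prod hl hlp hP, ← Finset.mul_prod_erase _ _ (Finset.mem_univ a),
      pow_succ, pow_one]
    intro h
    have h' := (mul_dvd_mul_iff_left (Qa a).ne_bot).mp h
    obtain ⟨b, hb, hdb⟩ := (Qa a).prime.exists_mem_finset_dvd h'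
    refine Finset.ne_of_mem_erase hb (hQinj ?_)
    exact ((Qa b).isMaximal.eq_of_le (Qa a).isPrime.ne_top (Ideal.le_of_dvd hdb))

omit [IsCyclotomicExtension {p} ℚ K] in
/-- If the multiplicities of `x` outside the family `Q` vanish modulo `p`, then the principal
ideal `(x)` gives a relation between the values of `onIdeal φ` on the family. -/
lemma sum_multiplicity_mul_onIdeal_eq_zero {ι : Type*} [Fintype ι]
    (φ : ClassGroup (𝓞 K) →* Multiplicative (ZMod p)) (Q : ι → HeightOneSpectrum (𝓞 K))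
    (hQ : Function.Injective fun i => (Q i).asIdeal) {x : 𝓞 K} (hx : x ≠ 0)
    (hout : ∀ R : HeightOneSpectrum (𝓞 K), (∀ i, (Q i).asIdeal ≠ R.asIdeal) →
      (multiplicity R.asIdeal (Ideal.span {x}) : ZMod p) = 0) :
    ∑ i, (multiplicity (Q i).asIdeal (Ideal.span {x}) : ZMod p) * onIdeal φ (Q i).asIdeal = 0 := by
  set F := (UniqueFactorizationMonoid.normalizedFactors (Ideal.span {x})).toFinset with hF
  set S := Finset.univ.image fun i => (Q i).asIdeal with hS
  have h0 := onIdeal_eq_sum φ (I := Ideal.span {x}) (by simpa using hx)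
  rw [onIdeal_span φ hx, Finset.sum_subset (Finset.subset_union_left (s₂ := S)) (fun I _ hI => by
    rw [Multiset.count_eq_zero.mpr fun h => hI (Multiset.mem_toFinset.mpr h), zero_smul]),
    ← Finset.sum_sdiff (Finset.subset_union_right (s₁ := F)), Finset.sum_eq_zero, zero_add] at h0
  · rw [h0, hS, Finset.sum_image fun a _ b _ h => hQ h]
    refine Finset.sum_congr rfl fun i _ => ?_
    rw [nsmul_eq_mul]
    congr 2
    refine multiplicity_eq_of_emultiplicity_eq_some ?_
    rw [UniqueFactorizationMonoid.emultiplicity_eq_count_normalizedFactors (Q i).irreducible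
      (by simpa using hx), normalize_eq]
  · intro I hI
    obtain ⟨hIU, hIS⟩ := Finset.mem_sdiff.mp hI
    have hImem : I ∈ UniqueFactorizationMonoid.normalizedFactors (Ideal.span {x}) :=
      Multiset.mem_toFinset.mp ((Finset.mem_union.mp hIU).resolve_right hIS)
    have hIp := UniqueFactorizationMonoid.prime_of_normalized_factor I hImem
    have h := hout ⟨I, Ideal.isPrime_of_prime hIp, hIp.ne_zero⟩ fun i hi =>
      hIS (Finset.mem_image.mpr ⟨i, Finset.mem_univ _, hi⟩)
    have hc : multiplicity I (Ideal.span {x}) =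
        (UniqueFactorizationMonoid.normalizedFactors (Ideal.span {x})).count I := by
      refine multiplicity_eq_of_emultiplicity_eq_some ?_
      rw [UniqueFactorizationMonoid.emultiplicity_eq_count_normalizedFactors hIp.irreducible
        (by simpa using hx), normalize_eq]
    rw [nsmul_eq_mul, ← hc, h, zero_mul]

omit [IsCyclotomicExtension {p} ℚ K] [NumberField K] hp in
/-- If a generator of the Galois group fixes `b` up to a unit, so does every element. -/
lemma associated_smul_of_generator {M : Type*} [Field M] [Algebra K M]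
    [FiniteDimensional K M] {τ : M ≃ₐ[K] M} (hτ : ∀ σ : M ≃ₐ[K] M, σ ∈ Subgroup.zpowers τ)
    {b : 𝓞 M} (hb : Associated (τ • b) b) (σ : M ≃ₐ[K] M) : Associated (σ • b) b := by
  obtain ⟨k, rfl⟩ := (Submonoid.mem_powers_iff _ _).mp (mem_powers_iff_mem_zpowers.mpr (hτ σ))
  induction k with
  | zero => rw [pow_zero, one_smul]
  | succ k ih =>
    rw [pow_succ', mul_smul]
    exact (ih.map (MulSemiringAction.toRingHom _ (𝓞 M) τ)).trans hb

/-- `1 + ζ` agrees with `1 + ζ z` modulo `z - 1`. -/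
lemma algebraMap_xi0_mul_sub_one_mem {M : Type*} [Field M] [Algebra K M]
    {l g n : ℕ} [Fact l.Prime] [IsCyclotomicExtension {l} K M] {L : Ideal (𝓞 M)}
    (h : epsM p K M l * (g : 𝓞 M) ^ n - 1 ∈ L) (hz : zetaM K M l - 1 ∈ L) :
    algebraMap (𝓞 K) (𝓞 M) (xi0 p K * (g : 𝓞 K) ^ n - 1) ∈ L := by
  have heq : algebraMap (𝓞 K) (𝓞 M) (xi0 p K * (g : 𝓞 K) ^ n - 1) =
      (epsM p K M l * (g : 𝓞 M) ^ n - 1) -
        algebraMap (𝓞 K) (𝓞 M) (zetaInt p K) * (g : 𝓞 M) ^ n * (zetaM K M l - 1) := by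
    rw [epsM, xi0, map_sub, map_mul, map_add, map_one, map_pow, map_natCast]
    ring
  rw [heq]
  exact sub_mem h (Ideal.mul_mem_left _ _ hz)

omit hp in
/-- If `x g ^ (p k) ≡ 1` and `g ^ (l - 1) ≡ 1` modulo an ideal, then `x ≡ (g ^ ((l - 2) k)) ^ p`. -/
lemma sub_pow_mem_of_mul_pow {R : Type*} [CommRing R] {I : Ideal R} {x g : R} {l k : ℕ}
    (hl : 2 ≤ l) (hprod : x * g ^ (p * k) - 1 ∈ I) (hone : g ^ (l - 1) - 1 ∈ I) :
    x - (g ^ ((l - 2) * k)) ^ p ∈ I := by
  rw [← Ideal.Quotient.eq] at hprod hone ⊢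
  rw [map_mul, map_pow, map_one] at hprod
  rw [map_pow, map_one] at hone
  rw [map_pow, map_pow]
  set G := Ideal.Quotient.mk I g
  calc Ideal.Quotient.mk I x
      = Ideal.Quotient.mk I x * (G ^ (l - 1)) ^ (p * k) := by
        rw [hone, one_pow, mul_one]
    _ = (Ideal.Quotient.mk I x * G ^ (p * k)) * (G ^ ((l - 2) * k)) ^ p := by
        rw [mul_assoc, ← pow_mul, ← pow_mul, ← pow_add]
        congr 2
        rw [show l - 1 = l - 2 + 1 by omega]
        ring
    _ = _ := by rw [hprod, one_mul]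

/-- Thaine's theorem: if a `ω²`-equivariant character does not vanish on a prime `P` of degree
one, then `xi2` is a `p`-th power residue at `P`. -/
theorem thaine (hp2 : p ≠ 2) (φ : ClassGroup (𝓞 K) →* Multiplicative (ZMod p))
    (hφ : ∀ (a : (ZMod p)ˣ) (P : HeightOneSpectrum (𝓞 K)),
      onIdeal φ (sigma K a • P.asIdeal) = (a : ZMod p) ^ 2 * onIdeal φ P.asIdeal)
    (P : HeightOneSpectrum (𝓞 K)) {l : ℕ} (hl : l.Prime) (hlp : l ≠ p)
    (hP : Ideal.absNorm P.asIdeal = l) (hne : onIdeal φ P.asIdeal ≠ 0) :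
    ∃ r : 𝓞 K, xi2 p K - r ^ p ∈ P.asIdeal := by
  have : Fact l.Prime := ⟨hl⟩
  have : NeZero l := ⟨hl.ne_zero⟩
  have hdvd := prime_dvd_pred hl hlp hP
  have hl2 : l ≠ 2 := by
    rintro rfl
    have := Nat.le_of_dvd one_pos hdvd
    have := hp.out.two_le
    omega
  have hodd : Odd l := hl.odd_of_ne_two hl2
  have h1p : l % p = 1 := by
    obtain ⟨c, hc⟩ := hdvd
    rw [show l = p * c + 1 by have := hl.one_lt; omega, Nat.mul_add_mod,
      Nat.mod_eq_of_lt hp.out.one_lt]
  let M := CyclotomicField l K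
  have : IsGalois K M := IsCyclotomicExtension.isGalois {l} K M
  let z := zetaM K M l
  let Qa : (ZMod p)ˣ → HeightOneSpectrum (𝓞 K) := fun a => smulPrime (sigma K a) P
  have hQinj : Function.Injective fun a => (Qa a).asIdeal := sigma_smul_injective hl hlp hP
  have hlQ : ∀ a, (l : 𝓞 K) ∈ (Qa a).asIdeal := fun a =>
    natCast_mem_smul.mpr (natCast_mem_of_absNorm hP)
  have hmult : ∀ a, multiplicity (Qa a).asIdeal (Ideal.span {(l : 𝓞 K)}) = 1 :=
    multiplicity_smulPrime_natCast hl hlp hP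
  have hLex : ∀ Q : HeightOneSpectrum (𝓞 K), ∃ L : Ideal (𝓞 M),
      L.IsPrime ∧ L.LiesOver Q.asIdeal ∧ L ≠ ⊥ := fun Q => by
    have : Q.asIdeal.IsMaximal := Q.isMaximal
    obtain ⟨L, hLm, hLo⟩ := Ideal.exists_maximal_ideal_liesOver_of_isIntegral Q.asIdeal (S := 𝓞 M)
    exact ⟨L, hLm.isPrime, hLo, Ideal.ne_bot_of_liesOver_of_ne_bot Q.ne_bot L⟩
  choose La hLa_prime hLa_over hLa_ne using hLex
  have hlL : ∀ a, (l : 𝓞 M) ∈ La (Qa a) := fun a => by
    have := hLa_over (Qa a)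
    rw [← map_natCast (algebraMap (𝓞 K) (𝓞 M)), ← Ideal.mem_of_liesOver (La (Qa a)) (Qa a).asIdeal]
    exact hlQ a
  have htr : ∀ a, _ := fun a =>
    have := hLa_prime (Qa a)
    have := hLa_over (Qa a)
    totally_ramified (Qa a) (La (Qa a)) (hLa_ne _) (hmult a) (hlL a)
  obtain ⟨-, -, -, hbij, hcard⟩ := htr 1
  obtain ⟨g, hg⟩ : ∃ g : (ZMod l)ˣ, ∀ x, x ∈ Subgroup.zpowers g := IsCyclic.exists_generator
  obtain ⟨τ, hτg⟩ := hbij.2 g
  have hτ : ∀ σ : M ≃ₐ[K] M, σ ∈ Subgroup.zpowers τ := fun σ => by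
    obtain ⟨k, hk⟩ := Subgroup.mem_zpowers_iff.mp
      (hg ((IsCyclotomicExtension.zeta_spec l K M).autToPow K σ))
    refine Subgroup.mem_zpowers_iff.mpr ⟨k, hbij.1 ?_⟩
    rw [map_zpow, hτg, hk]
  have : IsCyclic (M ≃ₐ[K] M) := ⟨⟨τ, hτ⟩⟩
  have hτz : τ • z = z ^ (g : ZMod l).val := by rw [smul_zetaM, hτg]
  have hnorm := norm_epsM (p := p) hodd h1p hp2 hbij
  obtain ⟨b, hb0, hεb'⟩ := groupCohomology.exists_mul_galRestrict_of_norm_eq_one
    (K := K) (L := M) (A := 𝓞 K) (B := 𝓞 M) hτ (η := epsM p K M l) hnorm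
  have hεb : epsM p K M l * τ • b = b := by
    refine Eq.trans ?_ hεb'
    congr 1
    exact RingOfIntegers.coe_injective (algebraMap_galRestrict_apply (𝓞 K) τ b).symm
  have hεu : IsUnit (epsM p K M l) := by
    rw [← RingOfIntegers.isUnit_norm_of_isGalois K]
    convert isUnit_one using 1
    exact RingOfIntegers.coe_injective (hnorm.trans (map_one _).symm)
  have hassoc : ∀ σ : M ≃ₐ[K] M, Associated (σ • b) b :=
    associated_smul_of_generator hτ (by
      nth_rewrite 2 [← hεb]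
      exact (associated_unit_mul_left _ _ hεu).symm)
  set κ := RingOfIntegers.norm K b with hκ
  have hspan := span_algebraMap_norm hassoc
  have hκ0 : κ ≠ 0 := fun h => by
    rw [← hκ, h, map_zero, Ideal.span_singleton_eq_bot.mpr rfl, eq_comm] at hspan
    have := pow_eq_zero_iff'.mp (Ideal.zero_eq_bot (R := 𝓞 M) ▸ hspan)
    exact hb0 (Ideal.span_singleton_eq_bot.mp this.1)
  have hrel : ∀ Q : HeightOneSpectrum (𝓞 K),
      Q.asIdeal.ramificationIdx' (La Q) * multiplicity Q.asIdeal (Ideal.span {κ}) =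
        (l - 1) * multiplicity (La Q) (Ideal.span {b}) := fun Q => by
    have := hLa_prime Q
    have := hLa_over Q
    have hLp : Prime (La Q) := Ideal.prime_of_isPrime (hLa_ne Q) ‹_›
    rw [← multiplicity_algebraMap Q (La Q) (hLa_ne Q) hκ0, hκ, hspan, hcard,
      FiniteMultiplicity.multiplicity_pow hLp
          (FiniteMultiplicity.of_prime_left hLp (by simpa using hb0))]
  set n : (ZMod p)ˣ → ℕ := fun a => multiplicity (Qa a).asIdeal (Ideal.span {κ}) with hn
  set g' := (g : ZMod l).val with hg'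
  have hres : ∀ a : (ZMod p)ˣ,
      sigma K a⁻¹ • xi0 p K * (g' : 𝓞 K) ^ n a - 1 ∈ P.asIdeal := by
    intro a
    have := hLa_prime (Qa a)
    have := hLa_over (Qa a)
    obtain ⟨he, htop, hπ, -, -⟩ := htr a
    have hna : n a = multiplicity (La (Qa a)) (Ideal.span {b}) := by
      have h := hrel (Qa a)
      rw [he] at h
      exact Nat.eq_of_mul_eq_mul_left (by have := hl.one_lt; omega) h
    have h1 := residue_relation (hLa_ne _) htop hπ hτz hb0 hεb
    rw [← hna] at h1
    have hz1 : z - 1 ∈ La (Qa a) := Ideal.dvd_span_singleton.mp (by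
      by_contra hnd
      exact one_ne_zero (hπ.symm.trans (multiplicity_eq_zero.mpr hnd)))
    have h2 : algebraMap (𝓞 K) (𝓞 M) (xi0 p K * (g' : 𝓞 K) ^ n a - 1) ∈ La (Qa a) :=
      algebraMap_xi0_mul_sub_one_mem h1 hz1
    rw [← Ideal.mem_of_liesOver (La (Qa a)) (Qa a).asIdeal] at h2
    have h3 : (sigma K a)⁻¹ • (xi0 p K * (g' : 𝓞 K) ^ n a - 1) ∈ P.asIdeal :=
      Ideal.mem_pointwise_smul_iff_inv_smul_mem.mp h2
    rwa [smul_sub, smul_mul', smul_pow', natCast_smul, smul_one, ← sigma_inv] at h3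
  -- the class of the ideal `(κ)` is trivial
  have hsum : ∑ a : (ZMod p)ˣ, (n a : ZMod p) * onIdeal φ (Qa a).asIdeal = 0 := by
    refine sum_multiplicity_mul_onIdeal_eq_zero φ Qa hQinj hκ0 fun Q hQ => ?_
    have hlQ' : (l : 𝓞 K) ∉ Q.asIdeal := fun h => by
      have hd : Q.asIdeal ∣ Ideal.span {(l : 𝓞 K)} := Ideal.dvd_span_singleton.mpr h
      rw [span_natCast_eq_prod hl hlp hP] at hd
      obtain ⟨a, -, had⟩ := Q.prime.exists_mem_finset_dvd hd
      exact hQ a ((Qa a).isMaximal.eq_of_le Q.isPrime.ne_top (Ideal.le_of_dvd had))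
    have := hLa_prime Q
    have := hLa_over Q
    have h := hrel Q
    rw [ramificationIdx'_eq_one_of_notMem (K := K) (l := l) Q (La Q) (fun h => hlQ' (by
      rw [← map_natCast (algebraMap (𝓞 K) (𝓞 M)),
        ← Ideal.mem_of_liesOver (La Q) Q.asIdeal] at h
      exact h)), one_mul] at h
    rw [h, Nat.cast_mul, (ZMod.natCast_eq_zero_iff _ p).mpr hdvd, zero_mul]
  have hsum2 : ∑ a : (ZMod p)ˣ, (n a : ZMod p) * (a : ZMod p) ^ 2 = 0 := by
    simp only [Qa, smulPrime, hφ, ← mul_assoc, ← Finset.sum_mul] at hsum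
    exact (mul_eq_zero.mp hsum).resolve_right hne
  set T := ∑ a : (ZMod p)ˣ, n a * expo a⁻¹ with hT
  have hpT : p ∣ T := by
    rw [← ZMod.natCast_eq_zero_iff, hT, ← hsum2]
    push_cast [expo, inv_inv, ZMod.natCast_val, ZMod.cast_id]
    rfl
  obtain ⟨k, hk⟩ := hpT
  refine ⟨(g' : 𝓞 K) ^ ((l - 2) * k), ?_⟩
  have hprod : xi2 p K * (g' : 𝓞 K) ^ T - 1 ∈ P.asIdeal := by
    rw [← Ideal.Quotient.eq, map_mul, xi2, map_prod, hT,
      ← Finset.prod_pow_eq_pow_sum, map_prod, map_one,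
      ← Equiv.prod_comp (Equiv.inv (ZMod p)ˣ) fun a => Ideal.Quotient.mk P.asIdeal
        ((sigma K a • xi0 p K) ^ expo a), ← Finset.prod_mul_distrib]
    refine Finset.prod_eq_one fun a _ => ?_
    rw [← map_mul, pow_mul, Equiv.inv_apply, ← mul_pow, map_pow,
      show Ideal.Quotient.mk P.asIdeal (sigma K a⁻¹ • xi0 p K * (g' : 𝓞 K) ^ n a) = 1 by
        rw [← map_one (Ideal.Quotient.mk P.asIdeal), Ideal.Quotient.eq]; exact hres a,
      one_pow]
  have hone : (g' : 𝓞 K) ^ (l - 1) - 1 ∈ P.asIdeal := natCast_pow_sub_one_mem hl hP fun h =>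
    g.ne_zero (by
      rw [← ZMod.natCast_zmod_val (g : ZMod l)]
      exact (ZMod.natCast_eq_zero_iff _ _).mpr h)
  exact sub_pow_mem_of_mul_pow hl.two_le (hk ▸ hprod) hone

end Fermat.Agent.ExtVan
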