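import Mathlib.FieldTheory.KummerExtension
import Mathlib.RingTheory.Ideal.Norm.RelNorm
import Fermat.Agent.ExtVan.Euler
import Fermat.Agent.ExtVan.Thaine

/-!
The `ω²`-component of the class group of `ℚ(ζ_p)` modulo `p` vanishes when the projection of
`1 + ζ` is not a `p`-th power. It is obtained from Thaine's argument and the density of split
primes.
-/

noncomputable section

namespace Fermat.Agent.ExtVan

open NumberField IsDedekindDomain Polynomial
open scoped Pointwise nonZeroDivisors Classical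

variable {p : ℕ} [hp : Fact p.Prime] {K : Type} [Field K] [NumberField K]
  [IsCyclotomicExtension {p} ℚ K]

lemma isUnit_xi0 (hp2 : p ≠ 2) : IsUnit (xi0 p K) := by
  have h : xi0 p K = ∑ i ∈ Finset.range 2, zetaInt p K ^ i := by
    simp [xi0, Finset.sum_range_succ]
  rw [h]
  exact (zetaInt_spec (p := p) (K := K)).geom_sum_isUnit hp.out.two_le
    ((Nat.coprime_primes Nat.prime_two hp.out).mpr (Ne.symm hp2))

lemma isUnit_xi2 (hp2 : p ≠ 2) : IsUnit (xi2 p K) :=
  IsUnit.prod_univ_iff.mpr fun _ => ((isUnit_xi0 hp2).map (MulSemiringAction.toRingHom _ _ _)).pow _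

/-- A Kummer extension splits completely at a degree one prime where the radicand is a `p`-th
power residue. -/
lemma exists_primes_of_residue {L : Type} [Field L] [NumberField L] [Algebra K L]
    (hdeg : Module.finrank K L = p) {β : 𝓞 L} {u : 𝓞 K} (hu : IsUnit u)
    (hβ : β ^ p = algebraMap (𝓞 K) (𝓞 L) u)
    (hσ : ∀ i : ℕ, ∃ σ : L ≃ₐ[K] L, σ • β = algebraMap (𝓞 K) (𝓞 L) (zetaInt p K) ^ i * β)
    (P : HeightOneSpectrum (𝓞 K)) {l : ℕ} (hl : l.Prime) (hlp : l ≠ p)
    (hP : Ideal.absNorm P.asIdeal = l) {r : 𝓞 K} (hr : u - r ^ p ∈ P.asIdeal) :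
    ∃ T : Finset (HeightOneSpectrum (𝓞 L)), p ≤ T.card ∧ ∀ Q ∈ T,
      Ideal.absNorm Q.asIdeal = Ideal.absNorm P.asIdeal ∧
        Q.asIdeal.comap (algebraMap (𝓞 K) (𝓞 L)) = P.asIdeal := by
  have : P.asIdeal.IsMaximal := P.isMaximal
  obtain ⟨Q, hQm, hQo⟩ := Ideal.exists_maximal_ideal_liesOver_of_isIntegral P.asIdeal (S := 𝓞 L)
  have hQ0 : Q ≠ ⊥ := Ideal.ne_bot_of_liesOver_of_ne_bot P.ne_bot Q
  set A := algebraMap (𝓞 K) (𝓞 L) with hA
  set z := A (zetaInt p K) with hz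
  have hzp : IsPrimitiveRoot z p :=
    zetaInt_spec.map_of_injective (FaithfulSMul.algebraMap_injective (𝓞 K) (𝓞 L))
  have hpQ : (p : 𝓞 L) ∉ Q := fun h => p_notMem_of_absNorm hl hlp hP (by
    rw [← map_natCast A, ← Ideal.mem_of_liesOver Q P.asIdeal] at h; exact h)
  have hpow : β ^ p - A r ^ p ∈ Q := by
    rw [hβ, ← map_pow, ← map_sub, ← Ideal.mem_of_liesOver Q P.asIdeal]; exact hr
  obtain ⟨j, hj⟩ : ∃ j : ℕ, β - z ^ j * A r ∈ Q := by
    rw [hzp.pow_sub_pow_eq_prod_sub_mul _ _ hp.out.pos, hQm.isPrime.prod_mem_iff] at hpow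
    obtain ⟨μ, hμ, hμQ⟩ := hpow
    obtain ⟨j, -, rfl⟩ := hzp.eq_pow_of_pow_eq_one ((mem_nthRootsFinset hp.out.pos _).mp hμ)
    exact ⟨j, hμQ⟩
  choose σ hσ using fun i : Fin p => hσ i
  have hinj : Function.Injective fun i => σ i • Q := by
    intro i k h
    have h1 : ∀ i, σ i • (β - z ^ j * A r) = z ^ (i : ℕ) * β - z ^ j * A r := fun i => by
      rw [smul_sub, hσ, hz, ← map_pow A _ j, ← map_mul A]
      congr 1
      exact RingOfIntegers.coe_injective ((σ i).commutes _)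
    have hi := Ideal.smul_mem_pointwise_smul (σ i) _ Q hj
    have hk := Ideal.smul_mem_pointwise_smul (σ k) _ Q hj
    simp only at h
    rw [h] at hi
    rw [h1] at hi hk
    have hprime : (σ k • Q).IsPrime := Ideal.IsPrime.smul _
    have hd : (z ^ (i : ℕ) - z ^ (k : ℕ)) * β ∈ σ k • Q := by
      have := sub_mem hi hk
      rwa [sub_sub_sub_cancel_right, ← sub_mul] at this
    have hu' : IsUnit β := (isUnit_pow_iff hp.out.ne_zero).mp (hβ ▸ hu.map A)
    have h2 := (hprime.mem_or_mem hd).resolve_right fun h' =>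
      hprime.ne_top (Ideal.eq_top_of_isUnit_mem _ h' hu')
    have h3 := root_eq_of_sub_mem hp.out (fun h' => hpQ (by
      rw [Ideal.mem_pointwise_smul_iff_inv_smul_mem] at h'
      exact (map_natCast (MulSemiringAction.toRingHom _ (𝓞 L) (σ k)⁻¹) p) ▸ h')) hzp h2
    exact Fin.ext (hzp.pow_inj i.2 k.2 h3)
  let QQ : Fin p → HeightOneSpectrum (𝓞 L) := fun i =>
    ⟨σ i • Q, Ideal.IsPrime.smul _, fun h => hQ0 (by
      have := congrArg ((σ i)⁻¹ • ·) h
      simpa [Ideal.smul_bot] using this)⟩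
  have hQQinj : Function.Injective QQ := fun i k h => hinj (congrArg HeightOneSpectrum.asIdeal h)
  have hover : ∀ i, (QQ i).asIdeal.comap A = P.asIdeal := fun i => by
    ext x
    rw [Ideal.mem_comap, Ideal.mem_pointwise_smul_iff_inv_smul_mem,
        Ideal.mem_of_liesOver Q P.asIdeal]
    have : (σ i)⁻¹ • A x = A x := RingOfIntegers.coe_injective (((σ i)⁻¹).commutes _)
    rw [this]
  have hdvd : ∏ i, (QQ i).asIdeal ∣ P.asIdeal.map A := by
    have h := Finset.prod_primes_dvd (P.asIdeal.map A)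
      (s := Finset.univ.map ⟨fun i => (QQ i).asIdeal, hinj⟩)
      (fun I hI => by obtain ⟨i, -, rfl⟩ := Finset.mem_map.mp hI; exact (QQ i).prime)
      (fun I hI => by
        obtain ⟨i, -, rfl⟩ := Finset.mem_map.mp hI
        exact Ideal.dvd_iff_le.mpr (Ideal.map_le_iff_le_comap.mpr (hover i).ge))
    rwa [Finset.prod_map] at h
  have hn := map_dvd Ideal.absNorm hdvd
  rw [map_prod, hA, Ideal.absNorm_algebraMap, hP,
    ← IsFractionRing.finrank_eq (𝓞 K) K (𝓞 L) L, hdeg] at hn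
  have hl1 : ∀ i, l ∣ Ideal.absNorm (QQ i).asIdeal := fun i => by
    obtain ⟨f, -, hf⟩ := (Nat.dvd_prime_pow hl).mp
      ((Finset.dvd_prod_of_mem _ (Finset.mem_univ i)).trans hn)
    have hne := two_le_absNorm (QQ i)
    rcases Nat.eq_zero_or_pos f with rfl | hfpos
    · rw [hf, pow_zero] at hne; omega
    · rw [hf]; exact dvd_pow_self l hfpos.ne'
  refine ⟨Finset.univ.map ⟨QQ, hQQinj⟩, by simp, fun Q' hQ' => ?_⟩
  obtain ⟨i, -, rfl⟩ := Finset.mem_map.mp hQ'
  refine ⟨?_, hover i⟩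
  have h2 : Ideal.absNorm (QQ i).asIdeal * l ^ (p - 1) ∣ l ^ p := by
    refine dvd_trans ?_ hn
    rw [← Finset.mul_prod_erase _ _ (Finset.mem_univ i)]
    refine mul_dvd_mul_left _ ?_
    calc l ^ (p - 1) = ∏ _k ∈ Finset.univ.erase i, l := by simp
      _ ∣ _ := Finset.prod_dvd_prod_of_dvd _ _ fun k _ => hl1 k
  rw [show l ^ p = l * l ^ (p - 1) by rw [← pow_succ', Nat.sub_add_cancel hp.out.pos]] at h2
  rw [hP]
  exact Nat.dvd_antisymm (Nat.dvd_of_mul_dvd_mul_right (pow_pos hl.pos _) h2) (hl1 i)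

/-- No nonzero `ω²`-equivariant character of the class group modulo `p`. -/
theorem eigen_char_trivial (hp3 : 3 ≤ p) (hxi : ∀ y : K, y ^ p ≠ (xi2 p K : K))
    (φ : ClassGroup (𝓞 K) →* Multiplicative (ZMod p))
    (hφ : ∀ (a : (ZMod p)ˣ) (P : HeightOneSpectrum (𝓞 K)),
      onIdeal φ (sigma K a • P.asIdeal) = (a : ZMod p) ^ 2 * onIdeal φ P.asIdeal) :
    φ = 1 := by
  by_contra hne
  have hp2 : p ≠ 2 := by omega
  have H : Irreducible (X ^ p - C (xi2 p K : K)) := X_pow_sub_C_irreducible_of_prime hp.out hxi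
  have := Fact.mk H
  let L := AdjoinRoot (X ^ p - C (xi2 p K : K))
  have hne0 : (X ^ p - C (xi2 p K : K)) ≠ 0 := H.ne_zero
  have : FiniteDimensional K L := (AdjoinRoot.powerBasis hne0).finite
  have : NumberField L := NumberField.of_module_finite K L
  have hdeg : Module.finrank K L = p := by
    rw [(AdjoinRoot.powerBasis hne0).finrank, AdjoinRoot.powerBasis_dim, natDegree_X_pow_sub_C]
  set b : L := AdjoinRoot.root _ with hb
  have hbp : b ^ p = algebraMap K L (xi2 p K : K) := root_X_pow_sub_C_pow p _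
  have hbint : IsIntegral ℤ b := by
    refine IsIntegral.of_pow hp.out.pos ?_
    rw [hbp]
    exact (xi2 p K).2.map (IsScalarTower.toAlgHom ℤ K L)
  let β : 𝓞 L := ⟨b, hbint⟩
  have hβ : β ^ p = algebraMap (𝓞 K) (𝓞 L) (xi2 p K) := RingOfIntegers.coe_injective hbp
  have hσ : ∀ i : ℕ, ∃ σ : L ≃ₐ[K] L, σ • β = algebraMap (𝓞 K) (𝓞 L) (zetaInt p K) ^ i * β := by
    intro i
    have hroot : ((zetaInt p K : K) ^ i) ^ p = 1 := by
      rw [← pow_mul, mul_comm, pow_mul, ← map_pow, zetaInt_spec.pow_eq_one, map_one, one_pow]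
    refine ⟨autAdjoinRootXPowSubC p _ (rootsOfUnity.mkOfPowEq _ hroot), ?_⟩
    apply RingOfIntegers.coe_injective
    refine (autAdjoinRootXPowSubC_root _ _).trans ?_
    rw [Algebra.smul_def, rootsOfUnity.val_mkOfPowEq_coe, map_pow, map_mul, map_pow]
    rfl
  refine density_contradiction (L := L) hp3 φ hne
    ((Ideal.finite_factors (I := Ideal.span {(p : 𝓞 K)}) (by
      simpa using hp.out.ne_zero)).toFinset) fun P hPE hPl hPφ => ?_
  set l := Ideal.absNorm P.asIdeal with hl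
  have hlp : l ≠ p := fun h => hPE ((Set.Finite.mem_toFinset _).mpr
    (Ideal.dvd_span_singleton.mpr (h ▸ Ideal.absNorm_mem P.asIdeal)))
  have hne' : onIdeal φ P.asIdeal ≠ 0 := fun h => hPφ (by
    have := (onIdeal_coe φ (primeNZ P)).symm.trans h
    exact Multiplicative.toAdd.injective this)
  obtain ⟨r, hr⟩ := thaine hp2 φ hφ P hPl hlp rfl hne'
  exact exists_primes_of_residue hdeg (isUnit_xi2 hp2) hβ hσ P hPl hlp rfl hr

end Fermat.Agent.ExtVan
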