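import Mathlib.LinearAlgebra.Trace
import Mathlib.NumberTheory.NumberField.Cyclotomic.Embeddings
import Mathlib.NumberTheory.NumberField.InfinitePlace.Ramification
import Fermat.Agent.ExtVan.Local
import Fermat.Agent.ExtVan.Split

/-!
The `ω²`-component of the units modulo `p`-th powers is generated by `xi2`: the projector onto it
has trace `1`. Hence only this unit can be the radical of an admissible extension.
-/

-- needed to find `Module ℤ` on the units modulo torsion
set_option maxSynthPendingDepth 3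

noncomputable section

namespace Fermat.Agent.ExtVan

open NumberField NumberField.InfinitePlace Module
open NumberField.Units NumberField.Units.dirichletUnitTheorem
open scoped Pointwise Classical

variable {p : ℕ} [hp : Fact p.Prime] {K : Type} [Field K] [NumberField K]
  [IsCyclotomicExtension {p} ℚ K]

variable (K) in
/-- `σ_a` on units. -/
def uSigma (a : (ZMod p)ˣ) : (𝓞 K)ˣ →* (𝓞 K)ˣ :=
  Units.map ((MulSemiringAction.toRingHom (K ≃ₐ[ℚ] K) (𝓞 K) (sigma K a) : 𝓞 K →+* 𝓞 K) :
    𝓞 K →* 𝓞 K)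

lemma coe_uSigma (a : (ZMod p)ˣ) (u : (𝓞 K)ˣ) : (uSigma K a u : 𝓞 K) = sigma K a • (u : 𝓞 K) := rfl

lemma uSigma_mul (a b : (ZMod p)ˣ) (u : (𝓞 K)ˣ) :
    uSigma K (a * b) u = uSigma K a (uSigma K b u) := by
  ext1
  rw [coe_uSigma, coe_uSigma, coe_uSigma, sigma_mul, mul_smul]

lemma uSigma_mem_torsion (a : (ZMod p)ˣ) {u : (𝓞 K)ˣ} (hu : u ∈ torsion K) :
    uSigma K a u ∈ torsion K :=
  (CommGroup.mem_torsion _).mpr ((uSigma K a).isOfFinOrder ((CommGroup.mem_torsion _).mp hu))

/-- Units in the `ω²`-component modulo `p`-th powers. -/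
def IsEigen (u : (𝓞 K)ˣ) : Prop :=
  ∀ a : (ZMod p)ˣ, ∃ w : (𝓞 K)ˣ, uSigma K a u = u ^ ((a : ZMod p).val ^ 2) * w ^ p

lemma isEigen_mul {u v : (𝓞 K)ˣ} (hu : IsEigen (p := p) u) (hv : IsEigen (p := p) v) :
    IsEigen (p := p) (u * v) := fun a => by
  obtain ⟨w, hw⟩ := hu a
  obtain ⟨w', hw'⟩ := hv a
  exact ⟨w * w', by rw [map_mul, hw, hw', mul_pow, mul_pow, mul_mul_mul_comm]⟩

lemma isEigen_inv {u : (𝓞 K)ˣ} (hu : IsEigen (p := p) u) : IsEigen (p := p) u⁻¹ := fun a => by
  obtain ⟨w, hw⟩ := hu a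
  exact ⟨w⁻¹, by rw [map_inv, hw, inv_pow, inv_pow, mul_inv]⟩

lemma isEigen_pow {u : (𝓞 K)ˣ} (hu : IsEigen (p := p) u) (k : ℕ) :
    IsEigen (p := p) (u ^ k) := fun a => by
  obtain ⟨w, hw⟩ := hu a
  exact ⟨w ^ k, by rw [map_pow, hw, mul_pow, ← pow_mul, ← pow_mul, mul_comm _ k, pow_mul,
    mul_comm p k, pow_mul]⟩

lemma isEigen_prime_pow (v : (𝓞 K)ˣ) : IsEigen (p := p) (v ^ p) := fun a =>
  ⟨(v ^ ((a : ZMod p).val ^ 2))⁻¹ * uSigma K a v, by
    rw [map_pow, mul_pow, inv_pow, ← pow_mul, ← pow_mul, mul_comm p, mul_inv_cancel_left]⟩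

variable (p K) in
/-- `xi2` as a unit. -/
def xi2U (hp2 : p ≠ 2) : (𝓞 K)ˣ := (isUnit_xi2 (p := p) (K := K) hp2).unit

lemma exists_pow_eq_pow_mul {G : Type*} [CommGroup G] (x : G) {n m : ℕ}
    (h : (n : ZMod p) = m) : ∃ w : G, x ^ n = x ^ m * w ^ p := by
  obtain ⟨d, hd⟩ := (ZMod.intCast_eq_intCast_iff_dvd_sub (m : ℤ) (n : ℤ) p).mp
    (by exact_mod_cast h.symm)
  refine ⟨x ^ d, ?_⟩
  rw [← zpow_natCast, ← zpow_natCast x m, ← zpow_natCast (x ^ d) p, ← zpow_mul, ← zpow_add]
  congr 1
  linarith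

lemma isEigen_xi2 (hp2 : p ≠ 2) : IsEigen (p := p) (xi2U p K hp2) := fun b => by
  set x0 : (𝓞 K)ˣ := (isUnit_xi0 (p := p) (K := K) hp2).unit with hx0
  have hx : xi2U p K hp2 = ∏ a : (ZMod p)ˣ, (uSigma K a x0) ^ expo a := by
    ext1
    simp [xi2U, xi2, coe_uSigma, hx0]
  have hb : uSigma K b (xi2U p K hp2) = ∏ a : (ZMod p)ˣ, (uSigma K a x0) ^ expo (b⁻¹ * a) := by
    rw [hx, map_prod, ← Equiv.prod_comp (Equiv.mulLeft b)
      (fun a => (uSigma K a x0) ^ expo (b⁻¹ * a))]
    refine Finset.prod_congr rfl fun a _ => ?_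
    rw [map_pow, ← uSigma_mul, Equiv.coe_mulLeft, inv_mul_cancel_left]
  choose w hw using fun a : (ZMod p)ˣ => exists_pow_eq_pow_mul (p := p) (uSigma K a x0)
    (n := expo (b⁻¹ * a)) (m := expo a * (b : ZMod p).val ^ 2) (by
      simp only [expo, Nat.cast_mul, Nat.cast_pow, ZMod.natCast_zmod_val, mul_inv_rev, inv_inv,
        Units.val_pow_eq_pow_val, Units.val_mul]
      ring)
  refine ⟨∏ a, w a, ?_⟩
  rw [hb, hx, ← Finset.prod_pow, ← Finset.prod_pow, ← Finset.prod_mul_distrib]
  exact Finset.prod_congr rfl fun a _ => by rw [hw a, pow_mul]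

/-- A root of unity in the `ω²`-component is a `p`th power. -/
lemma torsion_eigen_is_pow (hp3 : 3 ≤ p) {t : (𝓞 K)ˣ} (ht : t ∈ torsion K)
    (he : IsEigen (p := p) t) : ∃ w : (𝓞 K)ˣ, t = w ^ p := by
  set ζ : K := ((zetaInt p K : 𝓞 K) : K) with hζdef
  have hζ : IsPrimitiveRoot ζ p := zetaInt_spec.map_of_injective RingOfIntegers.coe_injective
  have hodd : Odd p := hp.out.odd_of_ne_two (by omega)
  have hfo : ∀ u : (𝓞 K)ˣ, u ∈ torsion K → IsOfFinOrder (algebraMap (𝓞 K) K (u : 𝓞 K)) :=
      fun u hu =>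
    ((algebraMap (𝓞 K) K : 𝓞 K →* K).comp (Units.coeHom (𝓞 K))).isOfFinOrder
      ((CommGroup.mem_torsion _).mp hu)
  obtain ⟨r, hr, ht'⟩ := hζ.exists_pow_or_neg_mul_pow_of_isOfFinOrder hodd (hfo t ht)
  have ht2 : (algebraMap (𝓞 K) K (t : 𝓞 K)) ^ 2 = ζ ^ (2 * r) := by
    rcases ht' with h | h <;> rw [h] <;> ring
  have hσζ : ∀ a : (ZMod p)ˣ, sigma K a ζ = ζ ^ (a : ZMod p).val := fun a => by
    have h := congrArg (fun x : 𝓞 K => (x : K))
      (sigma_smul_root a (zetaInt_spec (p := p) (K := K)).pow_eq_one)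
    simp only [map_pow] at h
    exact h
  set a : (ZMod p)ˣ := Units.mk0 (2 : ZMod p) (two_ne_zero_of_three_le hp3) with ha
  obtain ⟨w, hw⟩ := he a
  have hval : (a : ZMod p).val = 2 := by
    rw [ha, Units.val_mk0, show (2 : ZMod p) = ((2 : ℕ) : ZMod p) by norm_num,
      ZMod.val_natCast_of_lt (by omega)]
  have hwK := congrArg (fun u : (𝓞 K)ˣ => (algebraMap (𝓞 K) K (u : 𝓞 K))) hw
  simp only [hval, Units.val_mul, Units.val_pow_eq_pow_val, map_mul, map_pow] at hwK
  change sigma K a (algebraMap (𝓞 K) K (t : 𝓞 K)) = _ at hwK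
  have hwfo : w ∈ torsion K := by
    have h1 : w ^ p ∈ torsion K := by
      have : w ^ p = (t ^ (2 ^ 2))⁻¹ * uSigma K a t := by
        rw [hw, hval, inv_mul_cancel_left]
      rw [this]
      exact mul_mem (inv_mem (pow_mem ht _)) (uSigma_mem_torsion a ht)
    exact (CommGroup.mem_torsion _).mpr
      (((CommGroup.mem_torsion _).mp h1).of_pow hp.out.ne_zero)
  obtain ⟨s, hs, hw'⟩ := hζ.exists_pow_or_neg_mul_pow_of_isOfFinOrder hodd (hfo w hwfo)
  have hw2 : ((algebraMap (𝓞 K) K (w : 𝓞 K)) ^ p) ^ 2 = 1 := by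
    have h1 : (ζ ^ s) ^ p = 1 := by
      rw [← pow_mul, mul_comm, pow_mul, hζ.pow_eq_one, one_pow]
    rcases hw' with h | h
    · rw [h, h1, one_pow]
    · rw [h, hodd.neg_pow, h1, neg_one_sq]
  have key : ζ ^ (4 * r) = ζ ^ (8 * r) := by
    have h := congrArg (· ^ 2) hwK
    beta_reduce at h
    rw [← map_pow, ht2, map_pow, hσζ, hval, mul_pow, hw2, mul_one, ← pow_mul, ← pow_mul,
      mul_comm (2 ^ 2) 2, pow_mul (algebraMap (𝓞 K) K (t : 𝓞 K)), ht2, ← pow_mul] at h
    convert h using 2 <;> ring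
  have hr0 : r = 0 := by
    have hp4 : p ∣ 4 * r := by
      rw [← hζ.pow_eq_one_iff_dvd]
      refine mul_left_cancel₀ (pow_ne_zero (4 * r) (hζ.ne_zero hp.out.ne_zero)) ?_
      rw [← pow_add, mul_one, key]
      congr 1; ring
    have hpr := ((Nat.coprime_primes hp.out Nat.prime_two).mpr (by omega)).pow_right 2
    exact Nat.eq_zero_of_dvd_of_lt (hpr.dvd_of_dvd_mul_left hp4) hr
  rcases ht' with h | h
  · refine ⟨1, ?_⟩
    rw [one_pow]
    exact Units.ext
        (RingOfIntegers.coe_injective (by rw [h, hr0, pow_zero, Units.val_one, map_one]))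
  · refine ⟨-1, ?_⟩
    rw [hodd.neg_one_pow]
    refine Units.ext (RingOfIntegers.coe_injective ?_)
    rw [h, hr0, pow_zero, Units.val_neg, Units.val_one, map_neg, map_one]

/-! ### The units modulo torsion and `p` -/

variable (K) in
/-- The units modulo torsion, written additively. -/
abbrev UnitsModTorsion : Type := Additive ((𝓞 K)ˣ ⧸ torsion K)

/-- The class of a unit modulo torsion. -/
def unitClass (u : (𝓞 K)ˣ) : UnitsModTorsion K := Additive.ofMul (QuotientGroup.mk u)

omit [NumberField K] in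
lemma unitClass_mul (u v : (𝓞 K)ˣ) : unitClass (u * v) = unitClass u + unitClass v := rfl

omit [NumberField K] in
lemma unitClass_surjective : Function.Surjective (unitClass (K := K)) := fun x => by
  obtain ⟨u, hu⟩ := QuotientGroup.mk_surjective (Additive.toMul x)
  exact ⟨u, congrArg Additive.ofMul hu⟩

omit [NumberField K] in
lemma unitClass_pow (u : (𝓞 K)ˣ) (n : ℕ) : unitClass (u ^ n) = n • unitClass u := rfl

variable (K) in
/-- `σ_a` on units modulo torsion. -/
def sigmaModTorsion (a : (ZMod p)ˣ) : UnitsModTorsion K →ₗ[ℤ] UnitsModTorsion K :=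
  (MonoidHom.toAdditive (QuotientGroup.map (torsion K) (torsion K) (uSigma K a)
    fun _ h => uSigma_mem_torsion a h)).toIntLinearMap

lemma sigmaModTorsion_unitClass (a : (ZMod p)ˣ) (u : (𝓞 K)ˣ) :
    sigmaModTorsion K a (unitClass u) = unitClass (uSigma K a u) := rfl

variable (K) in
/-- The matrix of `σ_a` on the units modulo torsion. -/
def sigmaMatrix (a : (ZMod p)ˣ) : Matrix (Fin (Units.rank K)) (Fin (Units.rank K)) ℤ :=
  LinearMap.toMatrix (basisModTorsion K) (basisModTorsion K) (sigmaModTorsion K a)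

lemma sigmaMatrix_mul (a b : (ZMod p)ˣ) :
    sigmaMatrix K (a * b) = sigmaMatrix K a * sigmaMatrix K b := by
  rw [sigmaMatrix, sigmaMatrix, sigmaMatrix, ← LinearMap.toMatrix_comp]
  congr 1
  refine LinearMap.ext fun x => ?_
  obtain ⟨u, rfl⟩ := unitClass_surjective x
  rw [LinearMap.comp_apply, sigmaModTorsion_unitClass, sigmaModTorsion_unitClass,
    sigmaModTorsion_unitClass, uSigma_mul]

variable (p) in
/-- The coordinates of a unit in a basis of the units modulo torsion, reduced modulo `p`. -/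
def unitCoords (u : (𝓞 K)ˣ) : Fin (Units.rank K) → ZMod p := fun i =>
  ((basisModTorsion K).repr (unitClass u) i : ZMod p)

omit [IsCyclotomicExtension {p} ℚ K] in
lemma unitCoords_mul (u v : (𝓞 K)ˣ) : unitCoords p (u * v) = unitCoords p u + unitCoords p v := by
  funext i
  simp [unitCoords, unitClass_mul]

omit [IsCyclotomicExtension {p} ℚ K] in
lemma unitCoords_pow (u : (𝓞 K)ˣ) (n : ℕ) :
    unitCoords p (u ^ n) = (n : ZMod p) • unitCoords p u := by
  funext i
  simp [unitCoords, unitClass_pow]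

lemma unitCoords_uSigma (a : (ZMod p)ˣ) (u : (𝓞 K)ˣ) :
    unitCoords p (uSigma K a u) =
      ((sigmaMatrix K a).map (Int.castRingHom (ZMod p))).mulVec (unitCoords p u) := by
  funext i
  show ((basisModTorsion K).repr (unitClass (uSigma K a u)) i : ZMod p) = _
  rw [← sigmaModTorsion_unitClass,
    ← LinearMap.toMatrix_mulVec_repr (basisModTorsion K) (basisModTorsion K)]
  exact RingHom.map_mulVec (Int.castRingHom (ZMod p)) _ _ i

omit [IsCyclotomicExtension {p} ℚ K] in
/-- A unit with vanishing coordinates is a root of unity times a `p`-th power. -/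
lemma exists_eq_torsion_mul_pow {u : (𝓞 K)ˣ} (h : unitCoords p u = 0) :
    ∃ t ∈ torsion K, ∃ w : (𝓞 K)ˣ, u = t * w ^ p := by
  choose k hk using fun i => (ZMod.intCast_zmod_eq_zero_iff_dvd _ p).mp (congrFun h i)
  obtain ⟨w, hw⟩ := unitClass_surjective ((basisModTorsion K).equivFun.symm k)
  refine ⟨u * (w ^ p)⁻¹, ?_, w, by rw [inv_mul_cancel_right]⟩
  have : unitClass u = unitClass (w ^ p) := by
    rw [unitClass_pow, hw]
    apply (basisModTorsion K).equivFun.injective
    rw [map_nsmul, LinearEquiv.apply_symm_apply]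
    funext i
    rw [Basis.equivFun_apply, hk i, Pi.smul_apply, nsmul_eq_mul]
  have h2 := QuotientGroup.eq.mp (Additive.ofMul.injective this)
  rw [mul_comm]
  simpa using inv_mem h2

/-! ### The trace -/

variable (K) in
/-- Number of infinite places fixed by `σ_a`. -/
def fixCount (a : (ZMod p)ˣ) : ℕ :=
  (Finset.univ.filter fun w : InfinitePlace K => (sigma K a)⁻¹ • w = w).card

/-- The extension of an element of the log space to all places. -/
def extLog (w : InfinitePlace K) : logSpace K →ₗ[ℝ] ℝ :=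
  if h : w = w₀ then -∑ v, LinearMap.proj v else LinearMap.proj ⟨w, h⟩

variable (K) in
/-- `σ_a` on the log space. -/
def logAct (a : (ZMod p)ˣ) : logSpace K →ₗ[ℝ] logSpace K :=
  LinearMap.pi fun w => extLog ((sigma K a)⁻¹ • w.val)

lemma logAct_logEmbedding (hp5 : 5 ≤ p) (a : (ZMod p)ˣ) (u : (𝓞 K)ˣ) :
    logAct K a (logEmbedding K (Additive.ofMul u)) =
      logEmbedding K (Additive.ofMul (uSigma K a u)) := by
  have := IsCyclotomicExtension.Rat.isTotallyComplex K (n := p) (by omega)
  have hmult : ∀ w : InfinitePlace K, mult w = 2 := fun w => by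
    rw [InfinitePlace.mult, if_neg (not_isReal_iff_isComplex.mpr (IsTotallyComplex.isComplex w))]
  have hext : ∀ w : InfinitePlace K, extLog w (logEmbedding K (Additive.ofMul u)) =
      (mult w : ℝ) * Real.log (w (u : K)) := by
    intro w
    rw [extLog]
    split_ifs with h
    · subst h
      rw [LinearMap.neg_apply, LinearMap.sum_apply]
      simp only [LinearMap.proj_apply, sum_logEmbedding_component]
      ring
    · rfl
  funext w
  rw [logAct, LinearMap.pi_apply, hext, logEmbedding_component, hmult, hmult]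
  congr 2

lemma coord_logEmbedding (u : (𝓞 K)ˣ) (j : Fin (Units.rank K)) :
    ((basisUnitLattice K).ofZLatticeBasis ℝ _).repr (logEmbedding K (Additive.ofMul u)) j =
      ((basisModTorsion K).repr (unitClass u) j : ℝ) := by
  have h : (logEmbeddingEquiv K (unitClass u) : logSpace K) = logEmbedding K (Additive.ofMul u) :=
    logEmbeddingEquiv_apply K u
  rw [← h, Basis.ofZLatticeBasis_repr_apply, basisUnitLattice, Basis.map_repr,
    LinearEquiv.trans_apply, LinearEquiv.symm_apply_apply]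

/-- The trace of an automorphism on the units modulo torsion. -/
lemma trace_sigmaMatrix (hp5 : 5 ≤ p) (a : (ZMod p)ˣ) :
    (sigmaMatrix K a).trace = (fixCount K a : ℤ) - 1 := by
  set B := (basisUnitLattice K).ofZLatticeBasis ℝ _ with hB
  have h1 : LinearMap.trace ℝ _ (logAct K a) = (((sigmaMatrix K a).trace : ℤ) : ℝ) := by
    rw [LinearMap.trace_eq_matrix_trace ℝ B, Matrix.trace, Matrix.trace, Int.cast_sum]
    refine Finset.sum_congr rfl fun i _ => ?_
    rw [Matrix.diag_apply, Matrix.diag_apply, LinearMap.toMatrix_apply, sigmaMatrix,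
      LinearMap.toMatrix_apply, hB, Basis.ofZLatticeBasis_apply]
    conv_lhs => rw [← logEmbedding_fundSystem, logAct_logEmbedding hp5, coord_logEmbedding,
      ← sigmaModTorsion_unitClass]
    rw [unitClass, fundSystem_mk]
  have h2 : LinearMap.trace ℝ _ (logAct K a) = (fixCount K a : ℝ) - 1 := by
    rw [LinearMap.trace_eq_matrix_trace ℝ (Pi.basisFun ℝ {w : InfinitePlace K // w ≠ w₀}),
      Matrix.trace]
    simp only [Matrix.diag_apply, LinearMap.toMatrix_apply, Pi.basisFun_repr, Pi.basisFun_apply]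
    set τ := (sigma K a)⁻¹
    have hd : ∀ w : {w : InfinitePlace K // w ≠ w₀},
        logAct K a (Pi.single w 1) w =
          (if τ • w.val = w.val then 1 else 0) - (if τ • w.val = w₀ then 1 else 0) := by
      intro w
      rw [logAct, LinearMap.pi_apply]
      change extLog (τ • w.val) (Pi.single w 1) = _
      rw [extLog]
      by_cases h : τ • w.val = w₀
      · rw [dif_pos h, if_neg (fun e => w.2 (e.symm.trans h)), if_pos h, LinearMap.neg_apply,
          LinearMap.sum_apply]
        simp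
      · rw [dif_neg h, LinearMap.proj_apply, if_neg h, sub_zero, Pi.single_apply]
        simp [Subtype.ext_iff]
    simp only [hd, Finset.sum_sub_distrib]
    have e1 := Fintype.sum_eq_add_sum_subtype_ne
      (fun w : InfinitePlace K => (if τ • w = w then 1 else 0 : ℝ)) w₀
    have e2 := Fintype.sum_eq_add_sum_subtype_ne
      (fun w : InfinitePlace K => (if τ • w = w₀ then 1 else 0 : ℝ)) w₀
    have e3 : ∑ w : InfinitePlace K, (if τ • w = w₀ then 1 else 0 : ℝ) = 1 := by
      rw [Fintype.sum_eq_single (τ⁻¹ • w₀) fun w hw => if_neg fun h => hw (by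
        rw [← h, inv_smul_smul]), if_pos (smul_inv_smul _ _)]
    have e4 : ∑ w : InfinitePlace K, (if τ • w = w then 1 else 0 : ℝ) = fixCount K a := by
      rw [Finset.sum_boole]
      rfl
    linarith
  have h3 := h1.symm.trans h2
  exact_mod_cast h3

/-- `σ_a` fixes all infinite places for `a = ±1` and none otherwise. -/
lemma fixCount_eq (hp5 : 5 ≤ p) (a : (ZMod p)ˣ) :
    fixCount K a = if a = 1 ∨ a = -1 then (p - 1) / 2 else 0 := by
  have hcard : Fintype.card (InfinitePlace K) = (p - 1) / 2 := by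
    rw [card_eq_nrRealPlaces_add_nrComplexPlaces,
      IsCyclotomicExtension.Rat.nrComplexPlaces_eq_totient_div_two (n := p),
      IsCyclotomicExtension.Rat.nrRealPlaces_eq_zero (n := p) K (by omega), zero_add,
      Nat.totient_prime hp.out]
  set ζ : K := ((zetaInt p K : 𝓞 K) : K) with hζdef
  have hζ : IsPrimitiveRoot ζ p := zetaInt_spec.map_of_injective RingOfIntegers.coe_injective
  have hσζ : ((sigma K a)⁻¹)⁻¹ ζ = ζ ^ (a : ZMod p).val := by
    have h := congrArg (fun x : 𝓞 K => (x : K))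
      (sigma_smul_root a (zetaInt_spec (p := p) (K := K)).pow_eq_one)
    simp only [map_pow] at h
    rw [inv_inv]
    exact h
  have hval : ∀ φ : K →+* ℂ, φ.comp (((sigma K a)⁻¹).symm : K ≃ₐ[ℚ] K) ζ = φ ζ ^ (a : ZMod p).val :=
    fun φ => by
      rw [← map_pow, ← hσζ]
      rfl
  have hext : ∀ f g : K →+* ℂ, f ζ = g ζ → f = g := fun f g h => by
    have : f.toRatAlgHom = g.toRatAlgHom := (hζ.powerBasis ℚ).algHom_ext
      (by rw [IsPrimitiveRoot.powerBasis_gen]; exact h)
    exact RingHom.ext fun x => DFunLike.congr_fun this x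
  have key : ∀ w : InfinitePlace K, (sigma K a)⁻¹ • w = w ↔ (a = 1 ∨ a = -1) := by
    intro w
    rw [← mk_embedding w, smul_mk, mk_eq_iff]
    set φ := w.embedding
    have hφ : IsPrimitiveRoot (φ ζ) p := hζ.map_of_injective φ.injective
    have hconj : starRingEnd ℂ (φ ζ ^ (a : ZMod p).val) = (φ ζ ^ (a : ZMod p).val)⁻¹ :=
      (Complex.inv_eq_conj (by rw [norm_pow, hφ.norm'_eq_one hp.out.ne_zero, one_pow])).symm
    constructor
    · rintro (h | h)
      · left
        have h' := RingHom.congr_fun h ζ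
        rw [hval] at h'
        have := hφ.pow_inj (ZMod.val_lt _) hp.out.one_lt (h'.trans (pow_one _).symm)
        exact Units.ext ((ZMod.val_eq_one hp.out.one_lt _).mp this)
      · right
        have h' := RingHom.congr_fun h ζ
        rw [ComplexEmbedding.conjugate_coe_eq, hval, hconj] at h'
        have h1 : φ ζ ^ ((a : ZMod p).val + 1) = 1 := by
          rw [pow_succ]
          nth_rewrite 2 [← h']
          exact mul_inv_cancel₀ (pow_ne_zero _ (hφ.ne_zero hp.out.ne_zero))
        have h2 := (hφ.pow_eq_one_iff_dvd _).mp h1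
        rw [← ZMod.natCast_eq_zero_iff, Nat.cast_succ, ZMod.natCast_zmod_val] at h2
        exact Units.ext (by rw [Units.val_neg, Units.val_one]; exact eq_neg_of_add_eq_zero_left h2)
    · rintro (rfl | rfl)
      · exact Or.inl (hext _ _ (by rw [hval, Units.val_one, ZMod.val_one, pow_one]))
      · refine Or.inr (hext _ _ ?_)
        rw [ComplexEmbedding.conjugate_coe_eq, hval, hconj]
        refine inv_eq_of_mul_eq_one_left ?_
        rw [← pow_succ', hφ.pow_eq_one_iff_dvd, ← ZMod.natCast_eq_zero_iff, Nat.cast_succ,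
          ZMod.natCast_zmod_val]
        simp
  rw [fixCount]
  simp only [key]
  split_ifs with h
  · rw [Finset.filter_true_of_mem fun _ _ => h, Finset.card_univ, hcard]
  · rw [Finset.filter_false_of_mem fun _ _ => h, Finset.card_empty]

variable (p K) in
/-- The `ω²`-eigenspace in the coordinates of the units modulo torsion and `p`. -/
def eigenCoords : Submodule (ZMod p) (Fin (Units.rank K) → ZMod p) :=
  ⨅ a : (ZMod p)ˣ, LinearMap.ker (Matrix.toLin' ((sigmaMatrix K a).map (Int.castRingHom (ZMod p))) -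
    ((a : ZMod p) ^ 2) • LinearMap.id)

lemma mem_eigenCoords (v : Fin (Units.rank K) → ZMod p) :
    v ∈ eigenCoords p K ↔ ∀ a : (ZMod p)ˣ,
      Matrix.toLin' ((sigmaMatrix K a).map (Int.castRingHom (ZMod p))) v =
        ((a : ZMod p) ^ 2) • v := by
  simp [eigenCoords, Submodule.mem_iInf, sub_eq_zero]

/-- The `ω²`-eigenspace is a line: the projector onto it has trace `1`. -/
lemma finrank_eigenCoords (hp5 : 5 ≤ p) : finrank (ZMod p) (eigenCoords p K) = 1 := by
  have hp2 : p ≠ 2 := by omega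
  set T : (ZMod p)ˣ → (Fin (Units.rank K) → ZMod p) →ₗ[ZMod p] (Fin (Units.rank K) → ZMod p) :=
    fun a => Matrix.toLin' ((sigmaMatrix K a).map (Int.castRingHom (ZMod p))) with hT
  have hTmul : ∀ a b, T (a * b) = (T a).comp (T b) := fun a b => by
    simp only [hT, sigmaMatrix_mul, Matrix.map_mul, Matrix.toLin'_mul]
  have hEig : ∀ v, v ∈ eigenCoords p K ↔ ∀ a : (ZMod p)ˣ, T a v = ((a : ZMod p) ^ 2) • v :=
    mem_eigenCoords
  set P := -∑ a : (ZMod p)ˣ, (((a : ZMod p) ^ 2)⁻¹) • T a with hP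
  have hproj : LinearMap.IsProj (eigenCoords p K) P := by
    refine ⟨fun v => (hEig _).mpr fun b => ?_, fun v hv => ?_⟩
    · simp only [hP, LinearMap.neg_apply, LinearMap.sum_apply, LinearMap.smul_apply, map_neg,
        map_sum, map_smul, ← LinearMap.comp_apply, ← hTmul, Finset.smul_sum, smul_neg, smul_smul]
      congr 1
      conv_rhs => rw [← Equiv.sum_comp (Equiv.mulLeft b)]
      refine Finset.sum_congr rfl fun a _ => ?_
      rw [Equiv.coe_mulLeft]
      congr 1
      rw [Units.val_mul, mul_pow, mul_inv, mul_inv_cancel_left₀ (pow_ne_zero _ b.ne_zero)]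
    · simp only [hP, LinearMap.neg_apply, LinearMap.sum_apply, LinearMap.smul_apply,
        (hEig v).mp hv, smul_smul]
      rw [Finset.sum_congr rfl (g := fun _ => v) fun a _ => by
        rw [inv_mul_cancel₀ (pow_ne_zero _ a.ne_zero), one_smul], Finset.sum_const,
            Finset.card_univ,
        ZMod.card_units, ← Nat.cast_smul_eq_nsmul (ZMod p), Nat.cast_sub hp.out.pos,
        ZMod.natCast_self, zero_sub, Nat.cast_one, neg_smul, one_smul, neg_neg]
  have htr : (finrank (ZMod p) (eigenCoords p K) : ZMod p) = 1 := by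
    rw [← hproj.trace, hP, map_neg, map_sum]
    simp only [map_smul, hT, Matrix.trace_toLin'_eq, smul_eq_mul]
    have hm : ∀ a : (ZMod p)ˣ, ((sigmaMatrix K a).map (Int.castRingHom (ZMod p))).trace =
        (fixCount K a : ZMod p) - 1 := fun a => by
      rw [show ((sigmaMatrix K a).map (Int.castRingHom (ZMod p))).trace =
        (((sigmaMatrix K a).trace : ℤ) : ZMod p) by simp [Matrix.trace], trace_sigmaMatrix hp5]
      simp
    simp only [hm, mul_sub, mul_one, Finset.sum_sub_distrib, fixCount_eq hp5]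
    have hs0 : ∑ a : (ZMod p)ˣ, ((a : ZMod p) ^ 2)⁻¹ = 0 := by
      rw [Fintype.sum_equiv (Equiv.inv (ZMod p)ˣ) _ (fun a : (ZMod p)ˣ => ((a : ZMod p)) ^ 2)
        (fun a => by rw [Equiv.inv_apply, Units.val_inv_eq_inv_val, inv_pow]),
        FiniteField.sum_pow_units, if_neg]
      rw [ZMod.card]
      intro h
      have := Nat.le_of_dvd two_pos h
      omega
    have hne : (1 : (ZMod p)ˣ) ≠ -1 := fun h => two_ne_zero_of_three_le (p := p) (by omega) (by
      have := congrArg Units.val h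
      rw [Units.val_neg, Units.val_one] at this
      linear_combination this)
    rw [hs0, sub_zero, Fintype.sum_eq_add 1 (-1) hne (fun a ha => by simp [ha.1, ha.2])]
    simp only [true_or, or_true, if_true, Units.val_one, Units.val_neg, neg_one_sq, one_pow,
      inv_one, one_mul, ← Nat.cast_add]
    rw [show (p - 1) / 2 + (p - 1) / 2 = p - 1 by
      obtain ⟨k, hk⟩ := hp.out.odd_of_ne_two hp2; omega, Nat.cast_sub hp.out.pos,
      ZMod.natCast_self, Nat.cast_one, zero_sub, neg_neg]
  have hrank : finrank (ZMod p) (eigenCoords p K) < p := by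
    refine (Submodule.finrank_le (eigenCoords p K)).trans_lt ?_
    rw [finrank_pi, Fintype.card_fin, Units.rank, card_eq_nrRealPlaces_add_nrComplexPlaces,
      IsCyclotomicExtension.Rat.nrComplexPlaces_eq_totient_div_two (n := p),
      IsCyclotomicExtension.Rat.nrRealPlaces_eq_zero (n := p) K (by omega),
          Nat.totient_prime hp.out]
    omega
  have hone : finrank (ZMod p) (eigenCoords p K) = 1 := by
    have h1 := congrArg ZMod.val htr
    rwa [ZMod.val_natCast_of_lt hrank, ZMod.val_one] at h1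
  exact hone

/-- `xi2` generates the `ω²`-component of units modulo `p`-th powers. -/
theorem eigen_unit_eq_xi2_pow (hp5 : 5 ≤ p) {u : (𝓞 K)ˣ} (hu : IsEigen (p := p) u) :
    ∃ (k : ℕ) (w : (𝓞 K)ˣ), u = xi2U p K (by omega) ^ k * w ^ p := by
  have hp2 : p ≠ 2 := by omega
  have hmem : ∀ v : (𝓞 K)ˣ, IsEigen (p := p) v → unitCoords p v ∈ eigenCoords p K := fun v hv => by
    refine (mem_eigenCoords _).mpr fun a => ?_
    obtain ⟨w, hw⟩ := hv a
    simp only [Matrix.toLin'_apply]
    rw [← unitCoords_uSigma, hw, unitCoords_mul, unitCoords_pow, unitCoords_pow, ZMod.natCast_self,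
      zero_smul, add_zero, Nat.cast_pow, ZMod.natCast_zmod_val]
  have hne : unitCoords p (xi2U p K hp2) ≠ 0 := by
    intro h0
    obtain ⟨t, ht, w, hw⟩ := exists_eq_torsion_mul_pow h0
    have hte : IsEigen (p := p) t := by
      have : t = xi2U p K hp2 * (w ^ p)⁻¹ := by rw [hw, mul_inv_cancel_right]
      rw [this]
      exact isEigen_mul (isEigen_xi2 hp2) (isEigen_inv (isEigen_prime_pow w))
    obtain ⟨v, rfl⟩ := torsion_eigen_is_pow (by omega) ht hte
    refine xi2_ne_pow (p := p) (K := K) hp5 (((v * w : (𝓞 K)ˣ) : 𝓞 K) : K) ?_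
    rw [← map_pow, ← Units.val_pow_eq_pow_val, mul_pow, ← hw]
    rfl
  obtain ⟨c, hc⟩ := (finrank_eq_one_iff_of_nonzero'
    (⟨unitCoords p (xi2U p K hp2), hmem _ (isEigen_xi2 hp2)⟩ : eigenCoords p K)
      (by simpa using hne)).mp (finrank_eigenCoords hp5)
    ⟨unitCoords p u, hmem u hu⟩
  set x := xi2U p K hp2
  have hc' : c • unitCoords p x = unitCoords p u := congrArg Subtype.val hc
  obtain ⟨t, ht, w, hw⟩ := exists_eq_torsion_mul_pow (p := p) (u := u * (x ^ c.val)⁻¹) (by
    have h1 := unitCoords_mul (p := p) (u * (x ^ c.val)⁻¹) (x ^ c.val)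
    rw [inv_mul_cancel_right, unitCoords_pow, ZMod.natCast_zmod_val, hc'] at h1
    exact add_right_cancel (h1.symm.trans (zero_add _).symm))
  have hte : IsEigen (p := p) t := by
    have : t = u * (x ^ c.val)⁻¹ * (w ^ p)⁻¹ := by rw [hw, mul_inv_cancel_right]
    rw [this]
    exact isEigen_mul (isEigen_mul hu (isEigen_inv (isEigen_pow (isEigen_xi2 hp2) _)))
      (isEigen_inv (isEigen_prime_pow w))
  obtain ⟨v, rfl⟩ := torsion_eigen_is_pow (by omega) ht hte
  refine ⟨c.val, v * w, ?_⟩
  rw [mul_pow, ← hw]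
  rw [mul_comm u, mul_inv_cancel_left]

end Fermat.Agent.ExtVan
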