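import Fermat.Prelude.Def_ClassGroup_GaloisAction
import Fermat.Agent.ExtVan.Units

/-!
A radical in the `ω²`-component with all valuations divisible by `p` is a power of `xi2` up to
`p`-th powers. It combines the unit and class group computations for the vanishing of extensions.
-/

noncomputable section

namespace Fermat.Agent.ExtVan

open NumberField IsDedekindDomain
open scoped Pointwise nonZeroDivisors Classical

/-- `I ↦ I ^ n` is injective on nonzero ideals of a Dedekind domain. -/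
lemma ideal_pow_left_injective {R : Type*} [CommRing R] [IsDedekindDomain R] {n : ℕ} (hn : n ≠ 0)
    {I J : Ideal R} (hI : I ≠ 0) (hJ : J ≠ 0) (h : I ^ n = J ^ n) : I = J := by
  have h1 : n • UniqueFactorizationMonoid.normalizedFactors I =
      n • UniqueFactorizationMonoid.normalizedFactors J := by
    rw [← UniqueFactorizationMonoid.normalizedFactors_pow,
      ← UniqueFactorizationMonoid.normalizedFactors_pow, h]
  have h2 := nsmul_right_injective hn h1
  rw [← associated_iff_eq.mp (UniqueFactorizationMonoid.prod_normalizedFactors hI),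
    ← associated_iff_eq.mp (UniqueFactorizationMonoid.prod_normalizedFactors hJ), h2]

/-- An ideal all whose multiplicities are divisible by `n` is an `n`-th power. -/
lemma exists_ideal_pow {R : Type*} [CommRing R] [IsDedekindDomain R] {n : ℕ} {J : Ideal R}
    (hJ : J ≠ 0)
    (h : ∀ P : HeightOneSpectrum R,
      n ∣ (UniqueFactorizationMonoid.normalizedFactors J).count P.asIdeal) :
    ∃ I : Ideal R, J = I ^ n := by
  refine ⟨∏ Q ∈ (UniqueFactorizationMonoid.normalizedFactors J).toFinset,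
    Q ^ ((UniqueFactorizationMonoid.normalizedFactors J).count Q / n), ?_⟩
  conv_lhs => rw [← associated_iff_eq.mp (UniqueFactorizationMonoid.prod_normalizedFactors hJ),
    Finset.prod_multiset_count]
  rw [← Finset.prod_pow]
  refine Finset.prod_congr rfl fun Q hQ => ?_
  have hQ' := UniqueFactorizationMonoid.prime_of_normalized_factor Q (Multiset.mem_toFinset.mp hQ)
  rw [← pow_mul, Nat.div_mul_cancel (h ⟨Q, Ideal.isPrime_of_prime hQ', hQ'.ne_zero⟩)]

variable {p : ℕ} [hp : Fact p.Prime] {K : Type} [Field K] [NumberField K]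
  [IsCyclotomicExtension {p} ℚ K]

variable (K) in
/-- `σ_a` on the class group. -/
def clAct (a : (ZMod p)ˣ) : ClassGroup (𝓞 K) →* ClassGroup (𝓞 K) :=
  (ClassGroup.mulEquiv (MulSemiringAction.toRingEquiv (K ≃ₐ[ℚ] K) (𝓞 K) (sigma K a))).toMonoidHom

lemma clAct_mk0 (a : (ZMod p)ˣ) (I : (Ideal (𝓞 K))⁰)
    (h : sigma K a • (I : Ideal (𝓞 K)) ∈ (Ideal (𝓞 K))⁰) :
    clAct K a (ClassGroup.mk0 I) = ClassGroup.mk0 ⟨sigma K a • (I : Ideal (𝓞 K)), h⟩ := by
  rw [clAct, MulEquiv.coe_toMonoidHom, ClassGroup.mulEquiv_mk0]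
  refine congrArg ClassGroup.mk0 (Subtype.ext ?_)
  rw [Ideal.coe_mapNonZero]
  show Ideal.map _ _ = sigma K a • (I : Ideal (𝓞 K))
  refine Eq.trans ?_ (Ideal.pointwise_smul_def (a := sigma K a) (I : Ideal (𝓞 K))).symm
  exact congrArg (fun f => Ideal.map f (I : Ideal (𝓞 K))) (RingHom.ext fun _ => rfl)

attribute [local irreducible] clAct

lemma smul_mem_nonZeroDivisors (σ : K ≃ₐ[ℚ] K) {I : Ideal (𝓞 K)} (hI : I ∈ (Ideal (𝓞 K))⁰) :
    σ • I ∈ (Ideal (𝓞 K))⁰ := by
  refine mem_nonZeroDivisors_of_ne_zero fun h => nonZeroDivisors.ne_zero hI ?_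
  have := congrArg (σ⁻¹ • ·) h
  simpa [Ideal.zero_eq_bot, Ideal.smul_bot] using this

lemma clAct_mul (a b : (ZMod p)ˣ) (C : ClassGroup (𝓞 K)) :
    clAct K (a * b) C = clAct K a (clAct K b C) := by
  obtain ⟨I, rfl⟩ := ClassGroup.mk0_surjective C
  rw [clAct_mk0 b I (smul_mem_nonZeroDivisors _ I.2),
    clAct_mk0 a ⟨sigma K b • (I : Ideal (𝓞 K)), smul_mem_nonZeroDivisors _ I.2⟩
      (smul_mem_nonZeroDivisors _ (smul_mem_nonZeroDivisors _ I.2)),
    clAct_mk0 (a * b) I (smul_mem_nonZeroDivisors _ I.2)]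
  exact congrArg ClassGroup.mk0 (Subtype.ext (by simp only [sigma_mul, mul_smul]))

/-- The sum over `(ℤ/p)ˣ` of `a⁻² a²` is `-1`. -/
lemma sum_inv_sq_mul_sq : ∑ a : (ZMod p)ˣ, ((a : ZMod p) ^ 2)⁻¹ * (a : ZMod p) ^ 2 = -1 := by
  rw [Finset.sum_congr rfl (g := fun _ => (1 : ZMod p)) fun a _ =>
      inv_mul_cancel₀ (pow_ne_zero _ a.ne_zero), Finset.sum_const, Finset.card_univ,
    ZMod.card_units, nsmul_eq_mul, mul_one, Nat.cast_sub hp.out.pos, ZMod.natCast_self,
    Nat.cast_one, zero_sub]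

/-- An ideal class of order dividing `p` on which every `σ_a` acts by `a²` is trivial, provided
there is no nonzero equivariant character of the class group modulo `p`. -/
lemma eigen_class_trivial
    (hvan : ∀ φ : ClassGroup (𝓞 K) →* Multiplicative (ZMod p),
      (∀ (a : (ZMod p)ˣ) (P : HeightOneSpectrum (𝓞 K)),
        onIdeal φ (sigma K a • P.asIdeal) = (a : ZMod p) ^ 2 * onIdeal φ P.asIdeal) → φ = 1)
    {x : ClassGroup (𝓞 K)} (hxp : x ^ p = 1)
    (hx : ∀ a : (ZMod p)ˣ, clAct K a x = x ^ ((a : ZMod p).val ^ 2)) : x = 1 := by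
  by_contra hx1
  have hbad : ∃ k, ¬ ∃ y : ClassGroup (𝓞 K), y ^ (p ^ k) = x := by
    refine ⟨Fintype.card (ClassGroup (𝓞 K)), fun ⟨y, hy⟩ => ?_⟩
    set N := Fintype.card (ClassGroup (𝓞 K)) with hN
    have h1 : orderOf y = p ^ (N + 1) := orderOf_eq_prime_pow (by rw [hy]; exact hx1)
      (by rw [pow_succ, pow_mul, hy, hxp])
    have h2 := orderOf_le_card_univ (x := y)
    have h3 := Nat.lt_pow_self (n := N + 1) hp.out.one_lt
    omega
  obtain ⟨k, hk⟩ : ∃ k, Nat.find hbad = k + 1 := by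
    refine Nat.exists_eq_succ_of_ne_zero fun h0 => ?_
    exact Nat.find_spec hbad (by rw [h0]; exact ⟨x, by simp⟩)
  obtain ⟨y, hy⟩ := not_not.mp (Nat.find_min hbad (show k < Nat.find hbad by omega))
  have hmax : ¬ ∃ z : ClassGroup (𝓞 K), z ^ (p ^ (k + 1)) = x := hk ▸ Nat.find_spec hbad
  set E : (ZMod p)ˣ → ℕ := fun a => (-((a : ZMod p) ^ 2)⁻¹).val with hE
  set y' := ∏ a : (ZMod p)ˣ, clAct K a y ^ E a with hy'
  have hy'x : y' ^ (p ^ k) = x := by
    rw [hy', ← Finset.prod_pow]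
    rw [Finset.prod_congr rfl (g := fun (a : (ZMod p)ˣ) => x ^ ((a : ZMod p).val ^ 2 * E a))
      fun a _ => by
      rw [← pow_mul, mul_comm, pow_mul, ← map_pow, hy, hx, ← pow_mul]]
    rw [Finset.prod_pow_eq_pow_sum]
    have hord : orderOf x = p := orderOf_eq_prime hxp hx1
    have hsum : (∑ a : (ZMod p)ˣ, (a : ZMod p).val ^ 2 * E a) % p = 1 := by
      have : ((∑ a : (ZMod p)ˣ, (a : ZMod p).val ^ 2 * E a : ℕ) : ZMod p) = (1 : ℕ) := by
        push_cast [hE, ZMod.natCast_zmod_val]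
        rw [Finset.sum_congr rfl (g := fun a : (ZMod p)ˣ =>
            -(((a : ZMod p) ^ 2)⁻¹ * (a : ZMod p) ^ 2))
          fun a _ => by ring, Finset.sum_neg_distrib, sum_inv_sq_mul_sq, neg_neg]
      have h2 := (ZMod.natCast_eq_natCast_iff' _ _ _).mp this
      rwa [Nat.mod_eq_of_lt hp.out.one_lt] at h2
    rw [← pow_mod_orderOf, hord, hsum, pow_one]
  have hnot : ¬ ∃ z : ClassGroup (𝓞 K), z ^ p = y' := fun ⟨z, hz⟩ =>
    hmax ⟨z, by rw [pow_succ', pow_mul, hz, hy'x]⟩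
  have heig : ∀ b : (ZMod p)ˣ, ∃ w, clAct K b y' = y' ^ ((b : ZMod p).val ^ 2) * w ^ p := by
    intro b
    have hb : clAct K b y' = ∏ a : (ZMod p)ˣ, clAct K a y ^ E (b⁻¹ * a) := by
      rw [hy', map_prod, ← Equiv.prod_comp (Equiv.mulLeft b)
        (fun a => clAct K a y ^ E (b⁻¹ * a))]
      refine Finset.prod_congr rfl fun a _ => ?_
      rw [map_pow, ← clAct_mul, Equiv.coe_mulLeft, inv_mul_cancel_left]
    choose w hw using fun a : (ZMod p)ˣ => exists_pow_eq_pow_mul (p := p) (clAct K a y)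
      (n := E (b⁻¹ * a)) (m := E a * (b : ZMod p).val ^ 2) (by
        simp only [hE, Nat.cast_mul, Nat.cast_pow, ZMod.natCast_zmod_val, Units.val_mul, mul_pow,
          Units.val_inv_eq_inv_val, mul_inv, inv_pow, inv_inv]
        ring)
    refine ⟨∏ a, w a, ?_⟩
    rw [hb, hy', ← Finset.prod_pow, ← Finset.prod_pow, ← Finset.prod_mul_distrib]
    exact Finset.prod_congr rfl fun a _ => by rw [hw a, pow_mul]
  -- a character not vanishing on `y'`
  set vy := JacobiSumStickelberger.clProj p (𝓞 K) (Additive.ofMul y') with hvy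
  have hvy0 : vy ≠ 0 := fun h => by
    obtain ⟨z, hz⟩ := (JacobiSumStickelberger.ModP.proj_eq_zero_iff p _).mp h
    exact hnot ⟨Additive.toMul z, congrArg Additive.toMul hz⟩
  obtain ⟨f, hf⟩ := Module.Projective.exists_dual_ne_zero (ZMod p) hvy0
  set φ₀ : ClassGroup (𝓞 K) →* Multiplicative (ZMod p) := AddMonoidHom.toMultiplicativeRight
    (f.toAddMonoidHom.comp (JacobiSumStickelberger.clProj p (𝓞 K))) with hφ₀
  have hφ₀y : (φ₀ y').toAdd ≠ 0 := hf
  set φ : ClassGroup (𝓞 K) →* Multiplicative (ZMod p) :=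
    ∏ a : (ZMod p)ˣ, (φ₀.comp (clAct K a)) ^ ((a : ZMod p) ^ 2)⁻¹.val with hφ
  have hφval : ∀ C, (φ C).toAdd =
      ∑ a : (ZMod p)ˣ, ((a : ZMod p) ^ 2)⁻¹ * (φ₀ (clAct K a C)).toAdd := fun C => by
    rw [hφ, MonoidHom.finsetProd_apply, toAdd_prod]
    refine Finset.sum_congr rfl fun a _ => ?_
    rw [MonoidHom.pow_apply, toAdd_pow, nsmul_eq_mul, ZMod.natCast_zmod_val, MonoidHom.comp_apply]
  have h1 : φ = 1 := hvan φ fun b P => by
    rw [show P.asIdeal = ((⟨P.asIdeal, mem_nonZeroDivisors_of_ne_zero P.ne_bot⟩ :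
        (Ideal (𝓞 K))⁰) : Ideal (𝓞 K)) from rfl]
    set J : (Ideal (𝓞 K))⁰ := ⟨P.asIdeal, mem_nonZeroDivisors_of_ne_zero P.ne_bot⟩
    rw [show sigma K b • (J : Ideal (𝓞 K)) = ((⟨_, smul_mem_nonZeroDivisors (sigma K b) J.2⟩ :
        (Ideal (𝓞 K))⁰) : Ideal (𝓞 K)) from rfl, onIdeal_coe, onIdeal_coe,
      ← clAct_mk0 b J, hφval, hφval, Finset.mul_sum]
    conv_rhs => rw [← Equiv.sum_comp (Equiv.mulRight b)]
    refine Finset.sum_congr rfl fun a _ => ?_
    rw [Equiv.coe_mulRight, clAct_mul, Units.val_mul, mul_pow, mul_inv, ← mul_assoc]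
    congr 1
    field_simp [pow_ne_zero 2 b.ne_zero]
  have h2 : (φ y').toAdd = -(φ₀ y').toAdd := by
    rw [hφval]
    have hc : ∀ a : (ZMod p)ˣ,
        (φ₀ (clAct K a y')).toAdd = (a : ZMod p) ^ 2 * (φ₀ y').toAdd := fun a => by
      obtain ⟨w, hw⟩ := heig a
      rw [hw, map_mul, map_pow, map_pow, toAdd_mul, toAdd_pow, toAdd_pow, nsmul_eq_mul,
        nsmul_eq_mul, ZMod.natCast_self, zero_mul, add_zero, Nat.cast_pow, ZMod.natCast_zmod_val]
    simp only [hc, ← mul_assoc, ← Finset.sum_mul, sum_inv_sq_mul_sq, neg_mul, one_mul]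
  rw [h1, MonoidHom.one_apply, toAdd_one, eq_comm, neg_eq_zero] at h2
  exact hφ₀y h2

/-- If `u y ^ p` lies in the `ω²`-component modulo `p`-th powers, so does the unit `u`. -/
lemma isEigen_of_eq_mul_pow {α y : 𝓞 K} {u : (𝓞 K)ˣ} (hyK : (y : K) ≠ 0)
    (hαu : (α : K) = ((u : 𝓞 K) : K) * (y : K) ^ p)
    (heig : ∀ a : (ZMod p)ˣ, ∃ z : K,
      sigma K a (α : K) = (α : K) ^ ((a : ZMod p).val ^ 2) * z ^ p) : IsEigen (p := p) u := by
  intro a
  obtain ⟨z, hz⟩ := heig a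
  set n := (a : ZMod p).val ^ 2
  have hsy : sigma K a (y : K) ≠ 0 := (map_ne_zero _).mpr hyK
  set q : K := z * (y : K) ^ n / sigma K a (y : K) with hq
  have huK : sigma K a ((u : 𝓞 K) : K) = ((u : 𝓞 K) : K) ^ n * q ^ p := by
    rw [hαu, map_mul, map_pow, mul_pow, ← pow_mul] at hz
    rw [hq, div_pow, mul_pow, ← mul_div_assoc, eq_div_iff (pow_ne_zero _ hsy), hz, ← pow_mul,
      mul_comm n p]
    ring
  set t : (𝓞 K)ˣ := (u ^ n)⁻¹ * uSigma K a u with ht
  have htK : ((t : 𝓞 K) : K) = q ^ p := by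
    have h1 : u ^ n * t = uSigma K a u := by rw [ht, mul_inv_cancel_left]
    have h2 := congrArg (fun v : (𝓞 K)ˣ => algebraMap (𝓞 K) K (v : 𝓞 K)) h1
    simp only [Units.val_mul, Units.val_pow_eq_pow_val, map_mul, map_pow] at h2
    refine mul_left_cancel₀ (pow_ne_zero n
      (RingOfIntegers.coe_ne_zero_iff.mpr u.ne_zero)) ?_
    exact h2.trans huK
  have hqi : IsIntegral ℤ q := IsIntegral.of_pow hp.out.pos (htK ▸ (t : 𝓞 K).2)
  obtain ⟨q', hq'⟩ : ∃ q' : 𝓞 K, algebraMap (𝓞 K) K q' = q := ⟨⟨q, hqi⟩, rfl⟩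
  have htQ : q' ^ p = (t : 𝓞 K) := RingOfIntegers.coe_injective (by
    exact (RingHom.map_pow (algebraMap (𝓞 K) K) q' p).trans (hq'.symm ▸ htK.symm))
  have hqu : IsUnit q' := (isUnit_pow_iff hp.out.ne_zero).mp (htQ ▸ t.isUnit)
  refine ⟨hqu.unit, ?_⟩
  have : hqu.unit ^ p = t := Units.ext (by rw [Units.val_pow_eq_pow_val, IsUnit.unit_spec, htQ])
  rw [this, ht, mul_inv_cancel_left]

/-- The units of `ℚ(ζ₃)` are roots of unity. -/
lemma mem_torsion_of_eq_three (h3 : p = 3) (u : (𝓞 K)ˣ) : u ∈ Units.torsion K := by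
  rw [← Units.dirichletUnitTheorem.logEmbedding_eq_zero_iff]
  funext w
  exfalso
  have h1 : Units.rank K = 0 := by
    subst h3
    rw [Units.rank, InfinitePlace.card_eq_nrRealPlaces_add_nrComplexPlaces,
      IsCyclotomicExtension.Rat.nrComplexPlaces_eq_totient_div_two (n := 3),
      IsCyclotomicExtension.Rat.nrRealPlaces_eq_zero (n := 3) K (by omega)]
    rfl
  have h2 : Fintype.card {w : InfinitePlace K // w ≠ Units.dirichletUnitTheorem.w₀} = 0 := by
    simpa [Units.rank] using h1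
  exact (Fintype.card_eq_zero_iff.mp h2).false w

/-- A radical `α` in the `ω²`-component with all valuations divisible by `p` is a power of `xi2`
times a `p`-th power; for `p = 3` it is a `p`-th power. -/
theorem exists_radical_eq (hp3 : 3 ≤ p) {α : 𝓞 K} (hα : α ≠ 0)
    (heig : ∀ a : (ZMod p)ˣ, ∃ z : K,
      sigma K a (α : K) = (α : K) ^ ((a : ZMod p).val ^ 2) * z ^ p)
    (hv : ∀ P : HeightOneSpectrum (𝓞 K),
      p ∣ (UniqueFactorizationMonoid.normalizedFactors (Ideal.span {α})).count P.asIdeal) :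
    ∃ (k : ℕ) (w : K), (p = 3 → k = 0) ∧ (α : K) = (xi2 p K : K) ^ k * w ^ p := by
  have hspan : Ideal.span {α} ≠ 0 := by
    rw [Ideal.zero_eq_bot, ne_eq, Ideal.span_singleton_eq_bot]; exact hα
  obtain ⟨I, hI⟩ := exists_ideal_pow hspan hv
  have hI0 : I ≠ 0 := fun h => hspan (by rw [hI, h, zero_pow hp.out.ne_zero])
  set J : (Ideal (𝓞 K))⁰ := ⟨I, mem_nonZeroDivisors_of_ne_zero hI0⟩ with hJ
  have hxp : ClassGroup.mk0 J ^ p = 1 := by
    rw [← map_pow, ClassGroup.mk0_eq_one_iff (SetLike.coe_mem _)]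
    simp only [hJ, SubmonoidClass.mk_pow, ← hI]
    exact ⟨⟨α, rfl⟩⟩
  have hrep : ∀ a : (ZMod p)ˣ, ∃ z₁ z₂ : 𝓞 K, z₁ ≠ 0 ∧ z₂ ≠ 0 ∧
      (sigma K a • α) * z₂ ^ p = α ^ ((a : ZMod p).val ^ 2) * z₁ ^ p := by
    intro a
    obtain ⟨z, hz⟩ := heig a
    have hαK : (α : K) ≠ 0 := RingOfIntegers.coe_ne_zero_iff.mpr hα
    have hz0 : z ≠ 0 := fun h => by
      rw [h, zero_pow hp.out.ne_zero, mul_zero, map_eq_zero] at hz; exact hαK hz
    obtain ⟨z₁, z₂, hz₂, rfl⟩ := IsFractionRing.div_surjective (A := 𝓞 K) z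
    have hz₂0 : z₂ ≠ 0 := nonZeroDivisors.ne_zero hz₂
    refine ⟨z₁, z₂, fun h => hz0 (by rw [h, map_zero, zero_div]), hz₂0, ?_⟩
    apply RingOfIntegers.coe_injective
    rw [map_mul, map_mul, map_pow, map_pow, map_pow]
    change sigma K a (α : K) * _ = _
    rw [hz, div_pow, mul_assoc, div_mul_cancel₀]
    exact pow_ne_zero _ (RingOfIntegers.coe_ne_zero_iff.mpr hz₂0)
  have hx : ∀ a : (ZMod p)ˣ,
      clAct K a (ClassGroup.mk0 J) = ClassGroup.mk0 J ^ ((a : ZMod p).val ^ 2) := by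
    intro a
    obtain ⟨z₁, z₂, h1, h2, h⟩ := hrep a
    have hne : ∀ {z : 𝓞 K}, z ≠ 0 → Ideal.span {z} ≠ (0 : Ideal (𝓞 K)) := fun hz => by
      rwa [Ideal.zero_eq_bot, ne_eq, Ideal.span_singleton_eq_bot]
    have hsI := nonZeroDivisors.ne_zero (smul_mem_nonZeroDivisors (sigma K a) J.2)
    have heq : (sigma K a • I) * Ideal.span {z₂} =
        I ^ ((a : ZMod p).val ^ 2) * Ideal.span {z₁} := by
      refine ideal_pow_left_injective hp.out.ne_zero (mul_ne_zero hsI (hne h2))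
        (mul_ne_zero (pow_ne_zero _ hI0) (hne h1)) ?_
      rw [mul_pow, mul_pow, ← pow_mul, mul_comm _ p, pow_mul, ← smul_pow', ← hI,
        Ideal.span_singleton_pow, Ideal.span_singleton_pow, Ideal.span_singleton_pow,
        Ideal.pointwise_smul_def, Ideal.map_span, Set.image_singleton,
        Ideal.span_singleton_mul_span_singleton, Ideal.span_singleton_mul_span_singleton]
      exact congrArg (fun t => Ideal.span {t}) h
    rw [clAct_mk0 a J (smul_mem_nonZeroDivisors _ J.2), ← map_pow, ClassGroup.mk0_eq_mk0_iff]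
    exact ⟨z₂, z₁, h2, h1, by
      simp only [SubmonoidClass.coe_pow, hJ]
      rw [mul_comm, heq, mul_comm]⟩
  have hx1 : ClassGroup.mk0 J = 1 := by
    by_cases h3 : p = 3
    · subst h3
      have : IsPrincipalIdealRing (𝓞 K) := IsCyclotomicExtension.Rat.three_pid K
      exact (ClassGroup.mk0_eq_one_iff (SetLike.coe_mem J)).mpr
          (IsPrincipalIdealRing.principal (J : Ideal (𝓞 K)))
    · have hp5 := five_le_of_ne_three hp3 h3
      exact eigen_class_trivial (fun φ hφ => eigen_char_trivial hp3 (xi2_ne_pow hp5) φ hφ) hxp hx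
  obtain ⟨y, hy⟩ := ((ClassGroup.mk0_eq_one_iff (SetLike.coe_mem J)).mp hx1).principal
  have hy' : I = Ideal.span {y} := hy
  rw [hy', Ideal.span_singleton_pow, Ideal.span_singleton_eq_span_singleton] at hI
  obtain ⟨u, hu⟩ := hI.symm
  have hy0 : y ≠ 0 := fun h =>
      hI0 (by rw [hy', h, Ideal.span_singleton_eq_bot.mpr rfl, Ideal.zero_eq_bot])
  have hyK : (y : K) ≠ 0 := RingOfIntegers.coe_ne_zero_iff.mpr hy0
  have hαu : (α : K) = ((u : 𝓞 K) : K) * (y : K) ^ p := by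
    rw [← hu]
    change algebraMap (𝓞 K) K (y ^ p * u) =
      algebraMap (𝓞 K) K u * algebraMap (𝓞 K) K y ^ p
    rw [map_mul, map_pow, mul_comm]
  have hue : IsEigen (p := p) u := isEigen_of_eq_mul_pow hyK hαu heig
  by_cases h3 : p = 3
  · have ht : u ∈ Units.torsion K := mem_torsion_of_eq_three h3 u
    obtain ⟨v, rfl⟩ := torsion_eigen_is_pow hp3 ht hue
    refine ⟨0, ((v : 𝓞 K) : K) * (y : K), fun _ => rfl, ?_⟩
    rw [pow_zero, one_mul, mul_pow, hαu]
    simp only [RingOfIntegers.coe_eq_algebraMap, Units.val_pow_eq_pow_val, map_pow]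
  · have hp5 := five_le_of_ne_three hp3 h3
    obtain ⟨k, v, hkv⟩ := eigen_unit_eq_xi2_pow hp5 hue
    refine ⟨k, ((v : 𝓞 K) : K) * (y : K), fun h => absurd h h3, ?_⟩
    rw [hαu, hkv]
    simp only [RingOfIntegers.coe_eq_algebraMap, Units.val_mul, Units.val_pow_eq_pow_val, map_mul,
      map_pow, mul_pow, ← mul_assoc]
    rfl

end Fermat.Agent.ExtVan
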