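import Fermat.Prelude.Def_ExtCitation_AdmissibleExtension
import Fermat.Agent.ExtVan.Core
import Fermat.Agent.Gal.FiniteLevel

/-!
The mod `p` cyclotomic character on `Gal(ℚ̄/ℚ)` and the cyclotomic field inside `ℚ̄`. It
translates cocycles on the absolute Galois group into Kummer theory over that field.
-/

noncomputable section

namespace Fermat.Agent.ExtVan

open NumberField IntermediateField

local notation "Qbar" => AlgebraicClosure ℚ
local notation "GQ" => AlgebraicClosure ℚ ≃ₐ[ℚ] AlgebraicClosure ℚ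

variable (p : ℕ) [hp : Fact p.Prime]

/-- The mod `p` cyclotomic character. -/
def chi : GQ →* (ZMod p)ˣ :=
  (modularCyclotomicCharacter Qbar (ExtCitation.card_rootsOfUnity_eq_self p)).comp
    (algAutToRingAut ℚ Qbar)

lemma cycloExp_eq (σ : GQ) : ExtCitation.cycloExp p σ = (chi p σ : ZMod p).val := rfl

/-- `σ` acts on the `p`th roots of unity through `chi p σ`. -/
lemma chi_spec (σ : GQ) {z : Qbar} (hz : z ^ p = 1) : σ z = z ^ (chi p σ : ZMod p).val := by
  obtain ⟨u, rfl⟩ : IsUnit z := (isUnit_pow_iff hp.out.ne_zero).mp (hz ▸ isUnit_one)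
  exact modularCyclotomicCharacter.spec Qbar (ExtCitation.card_rootsOfUnity_eq_self p)
    (algAutToRingAut ℚ Qbar σ)
    (t := u) ((mem_rootsOfUnity p u).mpr (Units.ext (by simpa using hz)))

/-- A primitive `p`-th root of unity in `ℚ̄`. -/
def zetaQ : Qbar := (HasEnoughRootsOfUnity.exists_primitiveRoot Qbar p).choose

lemma zetaQ_spec : IsPrimitiveRoot (zetaQ p) p :=
  (HasEnoughRootsOfUnity.exists_primitiveRoot Qbar p).choose_spec

/-- `ζ ^ a` for `a : ZMod p`, where `ζ = zetaQ p`. -/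
def zetaPow (a : ZMod p) : Qbar := zetaQ p ^ a.val

lemma zetaQ_pow (n : ℕ) : zetaQ p ^ n = zetaPow p (n : ZMod p) := by
  rw [zetaPow, ZMod.val_natCast, ← pow_eq_pow_mod n (zetaQ_spec p).pow_eq_one]

lemma zetaPow_zero : zetaPow p 0 = 1 := by rw [zetaPow, ZMod.val_zero, pow_zero]

lemma zetaPow_add (a b : ZMod p) : zetaPow p (a + b) = zetaPow p a * zetaPow p b := by
  simp only [zetaPow]
  rw [← pow_add, zetaQ_pow p (a.val + b.val), Nat.cast_add, ZMod.natCast_zmod_val,
      ZMod.natCast_zmod_val]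
  rfl

lemma zetaPow_pow (a : ZMod p) (n : ℕ) : zetaPow p a ^ n = zetaPow p (a * n) := by
  rw [zetaPow, ← pow_mul, zetaQ_pow, Nat.cast_mul, ZMod.natCast_zmod_val]

lemma zetaPow_pow_prime (a : ZMod p) : zetaPow p a ^ p = 1 := by
  rw [zetaPow_pow, ZMod.natCast_self, mul_zero, zetaPow_zero]

lemma zetaPow_inj {a b : ZMod p} (h : zetaPow p a = zetaPow p b) : a = b :=
  ZMod.val_injective p ((zetaQ_spec p).pow_inj (ZMod.val_lt a) (ZMod.val_lt b) h)

lemma apply_zetaPow (σ : GQ) (a : ZMod p) :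
    σ (zetaPow p a) = zetaPow p (a * (chi p σ : ZMod p)) := by
  rw [chi_spec p σ (zetaPow_pow_prime p a), zetaPow_pow, ZMod.natCast_zmod_val]

/-- The cyclotomic field inside `ℚ̄`. -/
def KQ : IntermediateField ℚ Qbar := ℚ⟮zetaQ p⟯

instance isCyclotomicExtension_KQ : IsCyclotomicExtension {p} ℚ (KQ p) :=
  (zetaQ_spec p).intermediateField_adjoin_isCyclotomicExtension ℚ

instance finiteDimensional_KQ : FiniteDimensional ℚ (KQ p) :=
  IsCyclotomicExtension.finiteDimensional {p} ℚ (KQ p)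

instance numberField_KQ : NumberField (KQ p) := ⟨⟩

/-- The kernel of `chi` fixes the cyclotomic field. -/
lemma fixes_KQ {σ : GQ} (h : chi p σ = 1) {x : Qbar} (hx : x ∈ KQ p) : σ x = x := by
  have hle : KQ p ≤ fixedField (chi p).ker := adjoin_simple_le_iff.mpr fun g => by
    have h1 : chi p g = 1 := g.2
    change (g : GQ) (zetaQ p) = zetaQ p
    rw [chi_spec p g (zetaQ_spec p).pow_eq_one, h1, Units.val_one, ZMod.val_one, pow_one]
  exact hle hx ⟨σ, h⟩

/-- An automorphism fixing the cyclotomic field has trivial character. -/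
lemma chi_eq_one {σ : GQ} (h : ∀ x ∈ KQ p, σ x = x) : chi p σ = 1 := by
  have h1 := h _ (mem_adjoin_simple_self ℚ (zetaQ p))
  rw [← pow_one (zetaQ p), zetaQ_pow, apply_zetaPow] at h1
  have h2 := zetaPow_inj p h1
  rw [Nat.cast_one, one_mul] at h2
  exact Units.ext h2

/-- An element fixed by the kernel of the character lies in the cyclotomic field. -/
lemma mem_KQ {x : Qbar} (h : ∀ σ : GQ, chi p σ = 1 → σ x = x) : x ∈ KQ p := by
  rw [← InfiniteGalois.fixedField_fixingSubgroup (KQ p)]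
  exact fun g => h g (chi_eq_one p ((mem_fixingSubgroup_iff (KQ p) _).mp g.2))

/-- Every `a : (ZMod p)ˣ` is the character of an automorphism of `ℚ̄` which restricts to `σ_a` on
the cyclotomic field. -/
lemma exists_lift (a : (ZMod p)ˣ) :
    ∃ σ : GQ, chi p σ = a ∧ ∀ x : KQ p, σ (x : Qbar) = ((sigma (KQ p) a x : KQ p) : Qbar) := by
  refine ⟨(sigma (KQ p) a).liftNormal Qbar, ?_,
    fun x => (sigma (KQ p) a).liftNormal_commutes Qbar x⟩
  let z : KQ p := ⟨zetaQ p, mem_adjoin_simple_self ℚ _⟩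
  have hz : z ^ p = 1 := Subtype.ext (zetaQ_spec p).pow_eq_one
  obtain ⟨Z, hZ⟩ : ∃ Z : 𝓞 (KQ p), algebraMap _ (KQ p) Z = z :=
    ⟨⟨z, IsIntegral.of_pow hp.out.pos (hz ▸ isIntegral_one)⟩, rfl⟩
  have hZp : Z ^ p = 1 := RingOfIntegers.coe_injective (by rw [map_pow, hZ, hz, map_one])
  have h1 : sigma (KQ p) a z = z ^ (a : ZMod p).val := by
    have h := congrArg (algebraMap (𝓞 (KQ p)) (KQ p)) (sigma_smul_root a hZp)
    rw [map_pow, hZ] at h
    rw [← hZ]
    exact h.trans (by rw [hZ])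
  have h2 : ((sigma (KQ p) a).liftNormal Qbar) (zetaQ p) = zetaQ p ^ (a : ZMod p).val := by
    refine ((sigma (KQ p) a).liftNormal_commutes Qbar z).trans ?_
    rw [h1, map_pow]
    rfl
  rw [chi_spec p _ (zetaQ_spec p).pow_eq_one] at h2
  exact Units.ext (ZMod.val_injective p
    ((zetaQ_spec p).pow_inj (ZMod.val_lt _) (ZMod.val_lt _) h2))

end Fermat.Agent.ExtVan
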