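import Fermat.Agent.ExtVan.Chi

/-!
An admissible cocycle on `Gal(ℚ̄/ℚ)` vanishes on the kernel of the cyclotomic character. This is
the vanishing of admissible extensions, restricted to the cyclotomic field.
-/

noncomputable section

namespace Fermat.Agent.ExtVan

open NumberField IntermediateField IsDedekindDomain
open scoped Pointwise nonZeroDivisors Classical

section Approx

variable {K M : Type} [Field K] [NumberField K] [Field M] [NumberField M] [Algebra K M]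
  [IsGalois K M]

/-- If only `1` stabilizes `L`, every integer is congruent modulo `L ^ n` to one from below. -/
lemma exists_sub_mem_pow_of_stabilizer (L : Ideal (𝓞 M)) [L.IsMaximal] (hL : L ≠ ⊥)
    (hstab : ∀ g : M ≃ₐ[K] M, g • L = L → g = 1) (n : ℕ) (y : 𝓞 M) :
    ∃ x : 𝓞 K, y - algebraMap (𝓞 K) (𝓞 M) x ∈ L ^ n := by
  have hco : IsCoprime (L ^ n) (∏ g ∈ Finset.univ.erase (1 : M ≃ₐ[K] M), (g • L) ^ n) := by
    refine IsCoprime.prod_right fun g hg => IsCoprime.pow ?_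
    refine Ideal.isCoprime_iff_sup_eq.mpr (Ideal.IsMaximal.coprime_of_ne ‹_› ?_ ?_)
    · refine Ideal.IsPrime.isMaximal (Ideal.IsPrime.smul g) fun h => hL ?_
      simpa [Ideal.smul_bot] using congrArg (g⁻¹ • ·) h
    · exact fun h => (Finset.ne_of_mem_erase hg) (hstab g h.symm)
  obtain ⟨i, hi, e, he, hie⟩ := Ideal.isCoprime_iff_exists.mp hco
  set s : 𝓞 M := ∑ g : M ≃ₐ[K] M, g • (y * e) with hs
  have hfix : ∀ h : M ≃ₐ[K] M, h (s : M) = s := by
    intro h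
    have h1 : h • s = s := by
      rw [hs, Finset.smul_sum, ← Equiv.sum_comp (Equiv.mulLeft h) fun g => g • (y * e)]
      exact Finset.sum_congr rfl fun g _ => by rw [Equiv.coe_mulLeft, mul_smul]
    exact congrArg (algebraMap (𝓞 M) M) h1
  obtain ⟨x, hx⟩ := (IsGalois.mem_range_algebraMap_iff_fixed (F := K) (s : M)).mpr hfix
  have hxi : IsIntegral ℤ x :=
    (isIntegral_algHom_iff (algebraMap K M).toIntAlgHom (algebraMap K M).injective).mp
      (show IsIntegral ℤ (algebraMap K M x) by rw [hx]; exact s.2)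
  obtain ⟨x', hx'⟩ : ∃ x' : 𝓞 K, algebraMap (𝓞 K) K x' = x := ⟨⟨x, hxi⟩, rfl⟩
  refine ⟨x', ?_⟩
  have hs' : algebraMap (𝓞 K) (𝓞 M) x' = s := RingOfIntegers.coe_injective (by
    rw [← IsScalarTower.algebraMap_apply, IsScalarTower.algebraMap_apply (𝓞 K) K M, hx', hx])
  rw [hs', hs, ← Finset.add_sum_erase _ _ (Finset.mem_univ (1 : M ≃ₐ[K] M)), one_smul,
    show y - (y * e + ∑ g ∈ Finset.univ.erase (1 : M ≃ₐ[K] M), g • (y * e)) =
      y * i - ∑ g ∈ Finset.univ.erase (1 : M ≃ₐ[K] M), g • (y * e) by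
      linear_combination (-y) * hie]
  refine sub_mem (Ideal.mul_mem_left _ _ hi) (sum_mem fun g hg => ?_)
  have hg' : g⁻¹ ∈ Finset.univ.erase (1 : M ≃ₐ[K] M) := Finset.mem_erase.mpr
    ⟨fun h => (Finset.ne_of_mem_erase hg) (inv_eq_one.mp h), Finset.mem_univ _⟩
  have h2 : e ∈ (g⁻¹ • L) ^ n :=
    Ideal.le_of_dvd (Finset.dvd_prod_of_mem _ hg') he
  have h3 := Ideal.smul_mem_pointwise_smul g _ _ (Ideal.mul_mem_left _ y h2)
  rwa [smul_pow', smul_inv_smul] at h3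

/-- If `α` becomes a `q`th power in an extension unramified everywhere, then `q` divides all
the valuations of `α`. -/
lemma dvd_count_of_algebraMap_eq_pow
    (hinert : ∀ (P : HeightOneSpectrum (𝓞 K)) (L : Ideal (𝓞 M)) [L.IsPrime]
      [L.LiesOver P.asIdeal], L.inertia (M ≃ₐ[K] M) = ⊥)
    {α : 𝓞 K} (hα : α ≠ 0) {b : 𝓞 M} (hb : b ≠ 0) {q : ℕ}
    (hbα : algebraMap (𝓞 K) (𝓞 M) α = b ^ q) (P : HeightOneSpectrum (𝓞 K)) :
    q ∣ (UniqueFactorizationMonoid.normalizedFactors (Ideal.span {α})).count P.asIdeal := by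
  have : P.asIdeal.IsMaximal := P.isMaximal
  obtain ⟨L, hLmax, hLover⟩ :=
    Ideal.exists_maximal_ideal_liesOver_of_isIntegral (S := 𝓞 M) P.asIdeal
  have hL : L ≠ ⊥ := Ideal.ne_bot_of_liesOver_of_ne_bot P.ne_bot L
  have hspan : Ideal.span {α} ≠ ⊥ := by simpa using hα
  have hb0 : Ideal.span {b} ≠ ⊥ := by simpa using hb
  have hm := multiplicity_algebraMap P L hL hα
  rw [ramificationIdx'_eq_card_inertia P L, hinert P L, Subgroup.card_bot, one_mul, hbα,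
    ← Ideal.span_singleton_pow, FiniteMultiplicity.multiplicity_pow
      (Ideal.prime_of_isPrime hL inferInstance)
      (FiniteMultiplicity.of_prime_left (Ideal.prime_of_isPrime hL inferInstance) hb0)] at hm
  rw [← normalize_eq P.asIdeal,
    ← UniqueFactorizationMonoid.multiplicity_eq_count_normalizedFactors P.irreducible hspan,
    ← hm]
  exact dvd_mul_right q _

/-- If `a` is a `q`th power at an unramified prime `L` over `P` with trivial stabilizer, then it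
is congruent to a `q`th power modulo every power of `P`. -/
lemma exists_sub_pow_mem_of_stabilizer (P : HeightOneSpectrum (𝓞 K)) (L : Ideal (𝓞 M))
    [L.IsMaximal] [L.LiesOver P.asIdeal] (hinert : L.inertia (M ≃ₐ[K] M) = ⊥)
    (hstab : ∀ g : M ≃ₐ[K] M, g • L = L → g = 1) {a : 𝓞 K} {Q : 𝓞 M} {q : ℕ}
    (hQ : algebraMap (𝓞 K) (𝓞 M) a = Q ^ q) (n : ℕ) :
    ∃ x : 𝓞 K, a - x ^ q ∈ P.asIdeal ^ n := by
  have hL : L ≠ ⊥ := Ideal.ne_bot_of_liesOver_of_ne_bot P.ne_bot L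
  obtain ⟨x, hx⟩ := exists_sub_mem_pow_of_stabilizer L hL hstab n Q
  have hn : algebraMap (𝓞 K) (𝓞 M) (a - x ^ q) ∈ L ^ n := by
    rw [map_sub, hQ, map_pow]
    exact Ideal.mem_of_dvd _ (sub_dvd_pow_sub_pow _ _ q) hx
  refine ⟨x, ?_⟩
  by_cases hz : a - x ^ q = 0
  · rw [hz]; exact zero_mem _
  have hm := multiplicity_algebraMap P L hL hz
  rw [ramificationIdx'_eq_card_inertia P L, hinert, Subgroup.card_bot, one_mul] at hm
  have hz' : Ideal.span {algebraMap (𝓞 K) (𝓞 M) (a - x ^ q)} ≠ ⊥ :=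
    Ideal.span_singleton_eq_bot.not.mpr
      ((map_ne_zero_iff _ (FaithfulSMul.algebraMap_injective _ _)).mpr hz)
  have hle := (FiniteMultiplicity.of_prime_left (Ideal.prime_of_isPrime hL inferInstance)
    hz').le_multiplicity_of_pow_dvd (Ideal.dvd_span_singleton.mpr hn)
  rw [hm] at hle
  exact Ideal.dvd_span_singleton.mp (pow_dvd_of_le_multiplicity hle)

end Approx

local notation "Qbar" => AlgebraicClosure ℚ
local notation "GQ" => AlgebraicClosure ℚ ≃ₐ[ℚ] AlgebraicClosure ℚ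

variable {p : ℕ} [hp : Fact p.Prime]

section Lift

variable {F : IntermediateField ℚ Qbar} [FiniteDimensional ℚ F] [Algebra (KQ p) F]
  [IsScalarTower (KQ p) F Qbar] [IsScalarTower ℚ (KQ p) F] {ℓ : ℕ} {A : ValuationSubring Qbar}

omit [FiniteDimensional ℚ F] in
/-- An element of a decomposition group over `KQ p` lifts to one of `ℚ̄`. -/
lemma exists_lift_decomposition (hℓ : ℓ.Prime) (hA : A.LiesOverPrime ℓ) {g : F ≃ₐ[KQ p] F}
    (h : g • Gal.placePrime A F = Gal.placePrime A F) :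
    ∃ σ ∈ A.decompositionSubgroup ℚ, chi p σ = 1 ∧ ∀ x : F, σ (x : Qbar) = (g x : Qbar) := by
  set G := (g.restrictScalars ℚ).liftNormal Qbar with hG
  have hGc : ∀ x : F, G (x : Qbar) = (g x : Qbar) := fun x =>
    (g.restrictScalars ℚ).liftNormal_commutes Qbar x
  obtain ⟨σ, hσ, hσG⟩ := Gal.exists_mem_decomposition_eqOn hℓ hA F G fun x hx hxi => by
    have hxi' : IsIntegral ℤ (⟨x, hx⟩ : F) :=
      (isIntegral_algHom_iff (IsScalarTower.toAlgHom ℤ F Qbar)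
        (algebraMap F Qbar).injective).mp hxi
    obtain ⟨X, hX⟩ : ∃ X : 𝓞 F, algebraMap (𝓞 F) F X = ⟨x, hx⟩ := ⟨⟨_, hxi'⟩, rfl⟩
    have h1 : ((algebraMap (𝓞 F) F (g • X) : F) : Qbar) = G x := by
      rw [show algebraMap (𝓞 F) F (g • X) = g (algebraMap (𝓞 F) F X) from rfl, hX]
      exact (hGc ⟨x, hx⟩).symm
    have h2 : ((algebraMap (𝓞 F) F X : F) : Qbar) = x := by rw [hX]
    rw [← h1, ← h2, ← Gal.mem_placePrime, ← Gal.mem_placePrime]
    conv_lhs => rw [← h]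
    exact Ideal.smul_mem_pointwise_smul_iff
  refine ⟨σ, hσ, chi_eq_one p fun x hx => ?_, fun x => (hσG _ x.2).trans (hGc x)⟩
  have hx' : ((algebraMap (KQ p) F ⟨x, hx⟩ : F) : Qbar) = x :=
    (IsScalarTower.algebraMap_apply (KQ p) F Qbar ⟨x, hx⟩).symm
  rw [← hx', hσG _ (algebraMap (KQ p) F ⟨x, hx⟩).2, hGc, g.commutes]

omit [FiniteDimensional ℚ F] [IsScalarTower (KQ p) F Qbar] in
/-- An element of an inertia group over `KQ p` lifts to one of `ℚ̄`. -/
lemma exists_lift_inertia (hℓ : ℓ.Prime) (hA : A.LiesOverPrime ℓ) {g : F ≃ₐ[KQ p] F}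
    (h : g ∈ (Gal.placePrime A F).inertia (F ≃ₐ[KQ p] F)) :
    ∃ σ ∈ A.inertiaSubgroupIn ℚ, ∀ x : F, σ (x : Qbar) = (g x : Qbar) := by
  set G := (g.restrictScalars ℚ).liftNormal Qbar with hG
  have hGc : ∀ x : F, G (x : Qbar) = (g x : Qbar) := fun x =>
    (g.restrictScalars ℚ).liftNormal_commutes Qbar x
  obtain ⟨σ, hσ, hσG⟩ := Gal.exists_mem_inertia_eqOn hℓ hA F G fun x hx hxi => by
    have hxi' : IsIntegral ℤ (⟨x, hx⟩ : F) :=
      (isIntegral_algHom_iff (IsScalarTower.toAlgHom ℤ F Qbar)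
        (algebraMap F Qbar).injective).mp hxi
    obtain ⟨X, hX⟩ : ∃ X : 𝓞 F, algebraMap (𝓞 F) F X = ⟨x, hx⟩ := ⟨⟨_, hxi'⟩, rfl⟩
    have h0 := Gal.mem_placePrime.mp (h X)
    rw [RingOfIntegers.coe_eq_algebraMap, map_sub,
      show algebraMap (𝓞 F) F (g • X) = g (algebraMap (𝓞 F) F X) from rfl, hX] at h0
    rw [show G x = (g ⟨x, hx⟩ : Qbar) from hGc ⟨x, hx⟩]
    simpa using h0
  exact ⟨σ, hσ, fun x => (hσG _ x.2).trans (hGc x)⟩

end Lift

/-- The `p`th power of an eigenvector of the kernel of `chi` with eigencharacter `zetaPow ∘ c` is,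
up to `p`th powers, an eigenvector with character `a ↦ a²`. -/
lemma exists_eigen_radical (c : GQ → ZMod p)
    (hc : ∀ σ τ : GQ, c (σ * τ) = (chi p τ : ZMod p) * c σ + c τ) (hc1 : c 1 = 0)
    {β : Qbar} (hβ0 : β ≠ 0) (hact : ∀ h : GQ, chi p h = 1 → h β = zetaPow p (c h) * β)
    {α : KQ p} (hα : (α : Qbar) = β ^ p) (a : (ZMod p)ˣ) :
    ∃ z : KQ p, sigma (KQ p) a α = α ^ ((a : ZMod p).val ^ 2) * z ^ p := by
  obtain ⟨σ, hσ, hσK⟩ := exists_lift p a
  set n := (a : ZMod p).val ^ 2 with hn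
  have hz : σ β / β ^ n ∈ KQ p := mem_KQ p fun h hh => by
    have hconj : chi p (σ⁻¹ * h * σ) = 1 := by
      rw [map_mul, map_mul, hh, mul_one, map_inv, inv_mul_cancel]
    have hcc : c (σ⁻¹ * h * σ) = (a : ZMod p) * c h := by
      have e1 := hc (σ⁻¹ * h) σ
      have e2 := hc σ⁻¹ h
      have e3 := hc σ⁻¹ σ
      rw [inv_mul_cancel, hc1, hσ] at e3
      rw [e1, e2, hh, hσ, Units.val_one, one_mul, mul_add, add_right_comm, ← e3, zero_add]
    have h1 : h (σ β) = zetaPow p (c h * (a : ZMod p) ^ 2) * σ β := by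
      have h2 := congrArg σ (hact _ hconj)
      rw [map_mul σ, apply_zetaPow, hσ, hcc] at h2
      rw [← AlgEquiv.mul_apply, show h * σ = σ * (σ⁻¹ * h * σ) by group, AlgEquiv.mul_apply, h2]
      congr 2
      ring
    rw [map_div₀, map_pow, h1, hact h hh, mul_pow, zetaPow_pow, hn, Nat.cast_pow,
      ZMod.natCast_zmod_val, mul_div_mul_left]
    exact pow_ne_zero _ (zetaQ_spec p |>.ne_zero hp.out.ne_zero)
  refine ⟨⟨_, hz⟩, Subtype.ext ?_⟩
  rw [← hσK]
  push_cast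
  rw [hα, map_pow, div_pow, ← pow_mul, ← pow_mul, mul_comm p n, mul_div_cancel₀]
  exact pow_ne_zero _ hβ0

/-- A Lagrange resolvent: a nonzero element on which the kernel of `chi` acts through `zetaPow ∘ c`,
provided that `chi` and `c` only depend on the restriction to a finite Galois extension `F`. -/
lemma exists_resolvent {F : IntermediateField ℚ Qbar} [FiniteDimensional ℚ F] [IsGalois ℚ F]
    (c : GQ → ZMod p) (hc : ∀ σ τ : GQ, c (σ * τ) = (chi p τ : ZMod p) * c σ + c τ)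
    (hc1 : c 1 = 0)
    (heq : ∀ σ τ : GQ, (∀ x : F, σ (x : Qbar) = τ x) → chi p σ = chi p τ ∧ c σ = c τ) :
    ∃ β : Qbar, β ≠ 0 ∧ ∀ h : GQ, chi p h = 1 → h β = zetaPow p (c h) * β := by
  let lift : (F ≃ₐ[ℚ] F) → GQ := fun τ => τ.liftNormal Qbar
  have hlift : ∀ (τ : F ≃ₐ[ℚ] F) (x : F), lift τ (x : Qbar) = (τ x : Qbar) :=
    fun τ x => τ.liftNormal_commutes Qbar x
  let w : (F ≃ₐ[ℚ] F) → Qbar := fun τ =>
    if chi p (lift τ) = 1 then zetaPow p (-c (lift τ)) else 0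
  let f : (F ≃ₐ[ℚ] F) → (F →* Qbar) := fun τ =>
    ((algebraMap F Qbar).comp (τ : F →+* F) : F →+* Qbar)
  have hfinj : Function.Injective f := fun τ τ' h => AlgEquiv.ext fun x =>
    (algebraMap F Qbar).injective (DFunLike.congr_fun h x)
  obtain ⟨x₀, hx₀⟩ : ∃ x : F, ∑ τ, w τ * f τ x ≠ 0 := by
    by_contra hall
    push Not at hall
    have hli := (linearIndependent_monoidHom F Qbar).comp f hfinj
    have h1 := Fintype.linearIndependent_iff.mp hli w (funext fun x => by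
      simpa using hall x) 1
    have h2 := heq (lift 1) 1 fun x => hlift 1 x
    simp only [w, h2.1, h2.2, map_one, hc1, neg_zero, zetaPow_zero, if_true] at h1
    exact one_ne_zero h1
  refine ⟨∑ τ, w τ * f τ x₀, hx₀, fun h hh => ?_⟩
  set hF' : F ≃ₐ[ℚ] F := h.restrictNormal F with hhF'
  have hcomp : ∀ τ (x : F), h (f τ x) = f (hF' * τ) x := fun τ x =>
    (h.restrictNormal_commutes F (τ x)).symm
  have hw : ∀ τ, h (w τ) = zetaPow p (c h) * w (hF' * τ) := by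
    intro τ
    obtain ⟨e1, e2⟩ := heq (lift (hF' * τ)) (h * lift τ) fun x => by
      rw [hlift, AlgEquiv.mul_apply, AlgEquiv.mul_apply, hlift]
      exact h.restrictNormal_commutes F (τ x)
    rw [map_mul, hh, one_mul] at e1
    simp only [w, e1, e2, hc]
    split_ifs with hτ
    · rw [apply_zetaPow, hh, hτ, Units.val_one, one_mul, mul_one, ← zetaPow_add]
      congr 1
      ring
    · rw [map_zero, mul_zero]
  rw [map_sum]
  simp only [map_mul, hw, hcomp, mul_assoc, ← Finset.mul_sum]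
  exact congrArg (zetaPow p (c h) * ·) (Equiv.sum_comp (Equiv.mulLeft hF') fun τ => w τ * f τ x₀)

/-- The elements of the kernel of `chi` on which the cocycle `c` vanishes. -/
def cocycleKer (c : GQ → ZMod p)
    (hc : ∀ σ τ : GQ, c (σ * τ) = (chi p τ : ZMod p) * c σ + c τ) (hc1 : c 1 = 0) :
    Subgroup GQ where
  carrier := {σ : GQ | chi p σ = 1 ∧ c σ = 0}
  one_mem' := ⟨map_one _, hc1⟩
  mul_mem' := fun {σ τ} hσ hτ =>
    ⟨by rw [map_mul, hσ.1, hτ.1, one_mul], by rw [hc, hσ.2, hτ.2, mul_zero, add_zero]⟩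
  inv_mem' := fun {σ} hσ => ⟨by rw [map_inv, hσ.1, inv_one], by
    have h := hc σ σ⁻¹
    rwa [mul_inv_cancel, hc1, hσ.2, mul_zero, zero_add, eq_comm] at h⟩

lemma cocycleKer_normal (c : GQ → ZMod p)
    (hc : ∀ σ τ : GQ, c (σ * τ) = (chi p τ : ZMod p) * c σ + c τ) (hc1 : c 1 = 0) :
    (cocycleKer c hc hc1).Normal := ⟨fun σ hσ τ => ⟨by
  rw [map_mul, map_mul, hσ.1, mul_one, map_inv, mul_inv_cancel], by
  rw [hc, hc τ σ, hσ.1, hσ.2, Units.val_one, one_mul, add_zero, ← hc, mul_inv_cancel, hc1]⟩⟩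

section Finish

variable {F : IntermediateField ℚ Qbar} [FiniteDimensional ℚ F] [NumberField F] [Algebra (KQ p) F]
  [IsScalarTower (KQ p) F Qbar] [IsScalarTower ℚ (KQ p) F] [IsGalois (KQ p) F] {c : GQ → ZMod p}

/-- A field cut out by the zero set of an admissible cocycle on the kernel of `chi` is unramified
over the cyclotomic field. -/
lemma inertia_eq_bot_of_cocycle
    (hdefF : ∀ (g : F ≃ₐ[KQ p] F) (σ : GQ), chi p σ = 1 → c σ = 0 →
      (∀ x : F, σ (x : Qbar) = (g x : Qbar)) → g = 1)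
    (hin : ∀ ℓ : ℕ, ℓ.Prime → ℓ ≠ p → ∀ A : ValuationSubring Qbar, A.LiesOverPrime ℓ →
      ∀ σ ∈ A.inertiaSubgroupIn ℚ, chi p σ = 1 ∧ c σ = 0)
    (hdec : ∀ A : ValuationSubring Qbar, A.LiesOverPrime p →
      ∀ σ ∈ A.decompositionSubgroup ℚ, chi p σ = 1 → c σ = 0)
    (P : HeightOneSpectrum (𝓞 (KQ p))) (L : Ideal (𝓞 F)) [L.IsPrime] [L.LiesOver P.asIdeal] :
    L.inertia (F ≃ₐ[KQ p] F) = ⊥ := by
  have hL : L ≠ ⊥ := Ideal.ne_bot_of_liesOver_of_ne_bot P.ne_bot L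
  obtain ⟨ℓ, hℓ⟩ := CharP.exists (𝓞 F ⧸ L)
  have : L.IsMaximal := Ideal.IsPrime.isMaximal ‹_› hL
  have hfin : Finite (𝓞 F ⧸ L) := Ring.HasFiniteQuotients.finiteQuotient hL
  have hℓp : ℓ.Prime := CharP.char_is_prime (𝓞 F ⧸ L) ℓ
  have hℓL : (ℓ : 𝓞 F) ∈ L := by
    rw [← Ideal.Quotient.eq_zero_iff_mem, map_natCast, CharP.cast_eq_zero]
  obtain ⟨A, hA, rfl⟩ := Gal.exists_place_of_prime hℓp F L hℓL
  refine (Subgroup.eq_bot_iff_forall _).mpr fun g hg => ?_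
  obtain ⟨σ, hσ, hσg⟩ := exists_lift_inertia (p := p) hℓp hA hg
  by_cases hlp : ℓ = p
  · subst hlp
    obtain ⟨τ, -, rfl⟩ := hσ
    have h1 : chi ℓ (τ : GQ) = 1 := chi_eq_one ℓ fun x hx => by
      have hx' : ((algebraMap (KQ ℓ) F ⟨x, hx⟩ : F) : Qbar) = x :=
          (IsScalarTower.algebraMap_apply (KQ ℓ) F Qbar ⟨x, hx⟩).symm
      have hσg' : ∀ x : F, (τ : GQ) (x : Qbar) = (g x : Qbar) := hσg
      rw [← hx', hσg', g.commutes]
    exact hdefF g _ h1 (hdec A hA _ τ.2 h1) hσg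
  · obtain ⟨h1, h2⟩ := hin ℓ hℓp hlp A hA σ hσ
    exact hdefF g σ h1 h2 hσg

/-- `xi2 ^ k` with `p ∤ k` does not become a `p`-th power, up to `p`-th powers, in such a field:
it would be a local `p`-th power at the prime over `p`. -/
lemma false_of_pow_eq_xi2_pow (hp5 : 5 ≤ p)
    (hdefF : ∀ (g : F ≃ₐ[KQ p] F) (σ : GQ), chi p σ = 1 → c σ = 0 →
      (∀ x : F, σ (x : Qbar) = (g x : Qbar)) → g = 1)
    (hdec : ∀ A : ValuationSubring Qbar, A.LiesOverPrime p →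
      ∀ σ ∈ A.decompositionSubgroup ℚ, chi p σ = 1 → c σ = 0)
    (hinert : ∀ (P : HeightOneSpectrum (𝓞 (KQ p))) (L : Ideal (𝓞 F)) [L.IsPrime]
      [L.LiesOver P.asIdeal], L.inertia (F ≃ₐ[KQ p] F) = ⊥)
    {k : ℕ} (hdvd : ¬ p ∣ k) {v : KQ p} (hv0 : v ≠ 0) {b : 𝓞 F}
    (hb : (b : F) ^ p = algebraMap (KQ p) F ((xi2 p (KQ p) : KQ p) ^ k * v ^ p)) : False := by
  set q : F := (b : F) / algebraMap (KQ p) F v with hq
  have hqp : q ^ p = algebraMap (KQ p) F ((xi2 p (KQ p) : KQ p) ^ k) := by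
    rw [hq, div_pow, div_eq_iff (pow_ne_zero _ ((map_ne_zero _).mpr hv0)),
      ← map_pow (algebraMap (KQ p) F),
      ← map_mul]
    exact hb
  have hqi : IsIntegral ℤ q := IsIntegral.of_pow hp.out.pos (by
    rw [hqp]
    exact IsIntegral.algebraMap ((RingOfIntegers.isIntegral_coe (xi2 p (KQ p))).pow k))
  obtain ⟨Q, hQ⟩ : ∃ Q : 𝓞 F, algebraMap (𝓞 F) F Q = q := ⟨⟨q, hqi⟩, rfl⟩
  have hQp : algebraMap (𝓞 (KQ p)) (𝓞 F) (xi2 p (KQ p) ^ k) = Q ^ p :=
    RingOfIntegers.coe_injective (by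
      rw [← IsScalarTower.algebraMap_apply, map_pow (algebraMap (𝓞 F) F), hQ, hqp,
        IsScalarTower.algebraMap_apply (𝓞 (KQ p)) (KQ p) F, map_pow])
  let P : HeightOneSpectrum (𝓞 (KQ p)) :=
    ⟨piIdeal p (KQ p), piIdeal_isPrime, piIdeal_ne_bot⟩
  have : P.asIdeal.IsMaximal := P.isMaximal
  obtain ⟨L, hLmax, hLover⟩ :=
    Ideal.exists_maximal_ideal_liesOver_of_isIntegral (S := 𝓞 F) P.asIdeal
  have hL : L ≠ ⊥ := Ideal.ne_bot_of_liesOver_of_ne_bot P.ne_bot L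
  have hpP : (p : 𝓞 (KQ p)) ∈ P.asIdeal :=
    Ideal.pow_le_self (by norm_num) (natCast_mem_piIdeal_pow hp5)
  have hpL : (p : 𝓞 F) ∈ L := by
    rw [Ideal.mem_of_liesOver L P.asIdeal] at hpP
    rwa [map_natCast] at hpP
  obtain ⟨A, hA, hAL⟩ := Gal.exists_place_of_prime hp.out F L hpL
  have hstab : ∀ g : F ≃ₐ[KQ p] F, g • L = L → g = 1 := fun g hg => by
    obtain ⟨σ, hσ, h1, h2⟩ := exists_lift_decomposition hp.out hA (g := g) (by rwa [hAL])
    exact hdefF g σ h1 (hdec A hA σ hσ h1) h2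
  obtain ⟨x, hx⟩ := exists_sub_pow_mem_of_stabilizer P L (hinert P L) hstab hQp 3
  exact xi2_pow_sub_pow_notMem hp5 hdvd x hx

end Finish

/-- If the `p`-th power of an eigenvector `β` of the kernel of `chi` is a power of `xi2` with
exponent divisible by `p`, up to `p`-th powers, then the cocycle vanishes there. -/
lemma eq_zero_of_pow_eq_xi2_pow (hp2 : p ≠ 2) {c : GQ → ZMod p} {β : Qbar} (hβ0 : β ≠ 0)
    (hact : ∀ h : GQ, chi p h = 1 → h β = zetaPow p (c h) * β) {d : ℕ} {v : KQ p} (hv0 : v ≠ 0)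
    (hβ : β ^ p = (((xi2 p (KQ p) : KQ p) ^ (p * d) * v ^ p : KQ p) : Qbar))
    {h₀ : GQ} (hχ₀ : chi p h₀ = 1) : c h₀ = 0 := by
  have hxi0 : (xi2 p (KQ p) : KQ p) ≠ 0 :=
    RingOfIntegers.coe_ne_zero_iff.mpr (isUnit_xi2 (p := p) (K := KQ p) hp2).ne_zero
  set u : KQ p := (xi2 p (KQ p) : KQ p) ^ d * v with hu
  have hu0 : (u : Qbar) ≠ 0 :=
    (map_ne_zero (algebraMap (KQ p) Qbar)).mpr (mul_ne_zero (pow_ne_zero _ hxi0) hv0)
  have h1 : (β / (u : Qbar)) ^ p = 1 := by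
    rw [div_pow, div_eq_one_iff_eq (pow_ne_zero _ hu0), hβ, hu]
    push_cast
    ring
  have hfix : h₀ (β / u) = β / u := by
    rw [chi_spec p h₀ h1, hχ₀, Units.val_one, ZMod.val_one, pow_one]
  rw [map_div₀, fixes_KQ p hχ₀ u.2, hact h₀ hχ₀, mul_div_assoc] at hfix
  have h2 : zetaPow p (c h₀) = zetaPow p 0 := by
    rw [zetaPow_zero]
    exact (mul_eq_right₀ (div_ne_zero hβ0 hu0)).mp hfix
  exact zetaPow_inj p h2

/-- An admissible cocycle vanishes on the kernel of the character. -/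
theorem cocycle_vanish (hp3 : 3 ≤ p) (c : GQ → ZMod p)
    (hc : ∀ σ τ : GQ, c (σ * τ) = (chi p τ : ZMod p) * c σ + c τ)
    (hopen : IsOpen {σ : GQ | chi p σ = 1 ∧ c σ = 0})
    (hin : ∀ ℓ : ℕ, ℓ.Prime → ℓ ≠ p → ∀ A : ValuationSubring Qbar, A.LiesOverPrime ℓ →
      ∀ σ ∈ A.inertiaSubgroupIn ℚ, chi p σ = 1 ∧ c σ = 0)
    (hdec : ∀ A : ValuationSubring Qbar, A.LiesOverPrime p →
      ∀ σ ∈ A.decompositionSubgroup ℚ, chi p σ = 1 → c σ = 0) :
    ∀ σ : GQ, chi p σ = 1 → c σ = 0 := by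
  by_contra hne
  push Not at hne
  obtain ⟨h₀, hχ₀, hc₀⟩ := hne
  have hc1 : c 1 = 0 := by
    have h := hc 1 1
    rwa [mul_one, map_one, Units.val_one, one_mul, eq_comm, add_eq_left] at h
  let N : Subgroup GQ := cocycleKer c hc hc1
  have hNnormal : N.Normal := cocycleKer_normal c hc hc1
  set F := fixedField N with hF
  have hFN : F.fixingSubgroup = N :=
    InfiniteGalois.fixingSubgroup_fixedField ⟨N, Subgroup.isClosed_of_isOpen N hopen⟩
  have : FiniteDimensional ℚ F :=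
    (InfiniteGalois.isOpen_iff_finite F).mp (by rw [hFN]; exact hopen)
  have : IsGalois ℚ F := (InfiniteGalois.normal_iff_isGalois F).mp (by rw [hFN]; exact hNnormal)
  have hKF : KQ p ≤ F := fun x hx g => fixes_KQ p g.2.1 hx
  let _ : Algebra (KQ p) F := (IntermediateField.inclusion hKF).toRingHom.toAlgebra
  have : IsScalarTower (KQ p) F Qbar := IsScalarTower.of_algebraMap_eq fun _ => rfl
  have : IsScalarTower ℚ (KQ p) F := IsScalarTower.of_algebraMap_eq fun _ => rfl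
  have : IsGalois (KQ p) F := IsGalois.tower_top_of_isGalois ℚ (KQ p) F
  have : NumberField F := ⟨⟩
  have heq : ∀ σ τ : GQ, (∀ x : F, σ (x : Qbar) = τ x) →
      chi p σ = chi p τ ∧ c σ = c τ := by
    intro σ τ h
    have hn : τ⁻¹ * σ ∈ N := hFN ▸ (mem_fixingSubgroup_iff F _).mpr fun x hx => by
      have h' := h ⟨x, hx⟩
      rw [AlgEquiv.mul_apply, h', ← AlgEquiv.mul_apply, inv_mul_cancel, AlgEquiv.one_apply]
    obtain ⟨hn1, hn2⟩ := hn
    have h1 : chi p σ = chi p τ := by rwa [map_mul, map_inv, inv_mul_eq_one, eq_comm] at hn1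
    refine ⟨h1, ?_⟩
    have h2 := hc τ (τ⁻¹ * σ)
    rw [mul_inv_cancel_left, hn1, hn2, Units.val_one, one_mul, add_zero] at h2
    exact h2
  have hdefF : ∀ g : F ≃ₐ[KQ p] F, ∀ σ : GQ, chi p σ = 1 → c σ = 0 →
      (∀ x : F, σ (x : Qbar) = (g x : Qbar)) → g = 1 := fun g σ h1 h2 h => by
    have hσN : σ ∈ F.fixingSubgroup := by rw [hFN]; exact ⟨h1, h2⟩
    exact AlgEquiv.ext fun x => Subtype.ext ((h x).symm.trans
      ((mem_fixingSubgroup_iff F σ).mp hσN x x.2))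
  obtain ⟨β₀, hx₀, hact₀⟩ := exists_resolvent c hc hc1 heq
  obtain ⟨m, hm, hmint⟩ : ∃ m : ℤ, m ≠ 0 ∧ IsIntegral ℤ (m • β₀) :=
    ((IsFractionRing.isAlgebraic_iff ℤ ℚ Qbar).mpr
      (Algebra.IsAlgebraic.isAlgebraic β₀)).exists_integral_multiple
  set β := m • β₀ with hβ
  have hβ0 : β ≠ 0 := smul_ne_zero hm hx₀
  have hact : ∀ h : GQ, chi p h = 1 → h β = zetaPow p (c h) * β := fun h hh => by
    rw [hβ, map_zsmul, hact₀ h hh, mul_smul_comm]
  have hβF : β ∈ F := fun g => by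
    change (g : GQ) β = β
    rw [hact _ g.2.1, g.2.2, zetaPow_zero, one_mul]
  have hαK : β ^ p ∈ KQ p := mem_KQ p fun σ hσ => by
    rw [map_pow, hact σ hσ, mul_pow, zetaPow_pow_prime, one_mul]
  obtain ⟨α, hα⟩ : ∃ α : 𝓞 (KQ p), ((α : KQ p) : Qbar) = β ^ p :=
    ⟨⟨⟨β ^ p, hαK⟩, (isIntegral_algHom_iff (IsScalarTower.toAlgHom ℤ (KQ p) Qbar)
      (algebraMap (KQ p) Qbar).injective).mp (hmint.pow p)⟩, rfl⟩
  have hα0 : α ≠ 0 := fun h => pow_ne_zero p hβ0 (by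
    rw [← hα, h]; simp)
  have heig := exists_eigen_radical c hc hc1 hβ0 hact hα
  obtain ⟨b, hb⟩ : ∃ b : 𝓞 F, ((b : F) : Qbar) = β :=
    ⟨⟨⟨β, hβF⟩, (isIntegral_algHom_iff (IsScalarTower.toAlgHom ℤ F Qbar)
      (algebraMap F Qbar).injective).mp hmint⟩, rfl⟩
  have hbα : algebraMap (𝓞 (KQ p)) (𝓞 F) α = b ^ p :=
    RingOfIntegers.coe_injective ((algebraMap F Qbar).injective (by
      change ((α : KQ p) : Qbar) = algebraMap F Qbar (algebraMap (𝓞 F) F (b ^ p))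
      rw [map_pow, map_pow]
      exact hα.trans (congrArg (· ^ p) hb.symm)))
  have hinert := inertia_eq_bot_of_cocycle hdefF hin hdec
  have hb0 : b ≠ 0 := fun h => hβ0 (by rw [← hb, h]; simp)
  have hval := dvd_count_of_algebraMap_eq_pow hinert hα0 hb0 hbα
  obtain ⟨k, v, hk3, hkv⟩ := exists_radical_eq (K := KQ p) hp3 hα0 heig hval
  have hv0 : v ≠ 0 := fun h => by
    rw [h, zero_pow hp.out.ne_zero, mul_zero] at hkv
    exact RingOfIntegers.coe_ne_zero_iff.mpr hα0 hkv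
  by_cases hdvd : p ∣ k
  · obtain ⟨d, rfl⟩ := hdvd
    exact hc₀ (eq_zero_of_pow_eq_xi2_pow (by omega) hβ0 hact hv0 (by rw [← hα, hkv]) hχ₀)
  · have hp3' : p ≠ 3 := fun h => hdvd (by rw [hk3 h]; exact dvd_zero p)
    refine false_of_pow_eq_xi2_pow (five_le_of_ne_three hp3 hp3') hdefF hdec hinert hdvd hv0
      (b := b) ?_
    rw [← hkv]
    exact (algebraMap F Qbar).injective (by
      rw [map_pow]
      exact (congrArg (· ^ p) hb).trans hα.symm)

end Fermat.Agent.ExtVan
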