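import Fermat.Prelude.Def_ExtCitation_AdmissibleExtension_v2
import Fermat.Agent.ExtVan.Kummer

/-!
An admissible extension of the cyclotomic character by the trivial one splits. It is an ingredient
of Mazur's proof of irreducibility for the Frey curve.
-/

noncomputable section

namespace Fermat.Agent.ExtVan

open ExtCitation

local notation "Qbar" => AlgebraicClosure ℚ
local notation "GQ" => AlgebraicClosure ℚ ≃ₐ[ℚ] AlgebraicClosure ℚ

section

variable {p : ℕ} [hp : Fact p.Prime]

/-- A cocycle for the cyclotomic character vanishing on its kernel is a coboundary. -/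
lemma exists_eq_coboundary (hp3 : 3 ≤ p) {c : GQ → ZMod p}
    (hmul : ∀ σ τ : GQ, c (σ * τ) = (chi p τ : ZMod p) * c σ + c τ)
    (hvan : ∀ σ : GQ, chi p σ = 1 → c σ = 0) :
    ∃ t : ZMod p, ∀ σ : GQ, c σ = t * ((chi p σ : ZMod p) - 1) := by
  obtain ⟨τ, hτ, -⟩ := exists_lift p (-1 : (ZMod p)ˣ)
  have hne : (chi p τ : ZMod p) - 1 ≠ 0 := by
    rw [hτ, Units.val_neg, Units.val_one, sub_ne_zero]
    exact fun h => two_ne_zero_of_three_le hp3 (by linear_combination -h)
  set t : ZMod p := c τ / ((chi p τ : ZMod p) - 1) with ht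
  have hkey : ∀ σ : GQ, c σ = t * ((chi p σ : ZMod p) - 1) := by
    intro σ
    have hq : chi p ((τ * σ)⁻¹ * (σ * τ)) = 1 := by
      rw [map_mul, map_inv, map_mul, map_mul, mul_comm (chi p σ), inv_mul_cancel]
    have h1 : c (σ * τ) = c (τ * σ) := by
      have h2 := hmul (τ * σ) ((τ * σ)⁻¹ * (σ * τ))
      rw [mul_inv_cancel_left, hq, hvan _ hq, Units.val_one, one_mul, add_zero] at h2
      exact h2
    rw [hmul, hmul] at h1
    rw [ht, div_mul_eq_mul_div, eq_div_iff hne]
    linear_combination h1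
  exact ⟨t, hkey⟩

end

/-- Continuous admissible extensions of the cyclotomic character by the trivial one split. -/
theorem extVanishingCts {p : ℕ} [hp : Fact p.Prime] (hp3 : 3 ≤ p) :
    ExtCitation.ExtVanishingCts p := by
  intro V _ _ _ _ C hadm
  have hp0 : 0 < p := hp.out.pos
  have : Finite V := Nat.finite_of_card_ne_zero
    (by rw [hadm.card_total]; exact pow_ne_zero _ hp0.ne')
  obtain ⟨e, heC, he0⟩ : ∃ e ∈ C, e ≠ (0 : V) := by
    by_contra h
    push Not at h
    have hC : C = ⊥ := (Submodule.eq_bot_iff C).mpr h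
    have := hadm.card_sub
    rw [hC, Nat.card_unique] at this
    exact hp.out.one_lt.ne this
  have hCspan : ∀ x ∈ C, ∃ t : ZMod p, x = t • e := by
    have hb := Function.Injective.bijective_of_nat_card_le
      (f := fun t : ZMod p => (⟨t • e, C.smul_mem t heC⟩ : C))
      (fun s t h => smul_left_injective (ZMod p) he0 (congrArg Subtype.val h))
      (by rw [hadm.card_sub, Nat.card_zmod])
    intro x hx
    obtain ⟨t, ht⟩ := hb.2 ⟨x, hx⟩
    exact ⟨t, (congrArg Subtype.val ht).symm⟩
  obtain ⟨v₀, hv₀⟩ : ∃ v : V, v ∉ C := by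
    by_contra h
    push Not at h
    have hC : C = ⊤ := Submodule.eq_top_iff'.mpr h
    have := hadm.card_sub
    rw [hC, Nat.card_congr (Submodule.topEquiv (R := ZMod p) (M := V)).toEquiv,
      hadm.card_total] at this
    nlinarith [hp.out.one_lt]
  have hind : ∀ a b : ZMod p, a • v₀ + b • e = 0 → a = 0 ∧ b = 0 := by
    intro a b h
    have ha : a = 0 := by
      by_contra ha
      apply hv₀
      have h1 : a • v₀ ∈ C := by
        rw [eq_neg_of_add_eq_zero_left h]
        exact neg_mem (C.smul_mem b heC)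
      simpa [smul_smul, inv_mul_cancel₀ ha] using C.smul_mem a⁻¹ h1
    rw [ha, zero_smul, zero_add] at h
    exact ⟨ha, (smul_eq_zero.mp h).resolve_right he0⟩
  have hspan : ∀ x : V, ∃ a b : ZMod p, x = a • v₀ + b • e := by
    have hb := Function.Injective.bijective_of_nat_card_le
      (f := fun u : ZMod p × ZMod p => u.1 • v₀ + u.2 • e)
      (fun u v h => by
        obtain ⟨h1, h2⟩ := hind (u.1 - v.1) (u.2 - v.2) (by
          rw [sub_smul, sub_smul, sub_add_sub_comm]
          exact sub_eq_zero.mpr h)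
        exact Prod.ext (sub_eq_zero.mp h1) (sub_eq_zero.mp h2))
      (by rw [hadm.card_total, Nat.card_prod, Nat.card_zmod, pow_two])
    intro x
    obtain ⟨u, hu⟩ := hb.2 x
    exact ⟨u.1, u.2, hu.symm⟩
  have hchi : ∀ (σ : GQ), ∃ t : ZMod p, σ • v₀ = (chi p σ : ZMod p) • v₀ + t • e := by
    intro σ
    have h := hadm.cyclo_quot σ v₀
    rw [cycloExp_eq, ZMod.natCast_zmod_val] at h
    obtain ⟨t, ht⟩ := hCspan _ h
    exact ⟨t, by rw [← ht, add_sub_cancel]⟩
  choose c hc using hchi
  have hσe : ∀ σ : GQ, σ • e = e := fun σ => hadm.fixed_sub σ e heC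
  have hlin : ∀ (σ : GQ) (a b : ZMod p),
      σ • (a • v₀ + b • e) = (a * (chi p σ : ZMod p)) • v₀ + (a * c σ + b) • e := by
    intro σ a b
    rw [smul_add, smul_comm σ a, smul_comm σ b, hσe, hc, smul_add, smul_smul, smul_smul,
      add_assoc, ← add_smul]
  have hmul : ∀ σ τ : GQ, c (σ * τ) = (chi p τ : ZMod p) * c σ + c τ := by
    intro σ τ
    have h1 : (σ * τ) • v₀ = σ • ((chi p τ : ZMod p) • v₀ + c τ • e) := by rw [mul_smul, hc]
    rw [hlin, hc, map_mul, Units.val_mul, mul_comm (chi p σ : ZMod p), add_right_inj] at h1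
    exact smul_left_injective (ZMod p) he0 h1
  have hker : ∀ σ : GQ, (∀ v : V, σ • v = v) ↔ chi p σ = 1 ∧ c σ = 0 := by
    intro σ
    constructor
    · intro h
      have h1 := h v₀
      rw [hc] at h1
      obtain ⟨h2, h3⟩ := hind ((chi p σ : ZMod p) - 1) (c σ) (by
        rw [sub_smul, one_smul, sub_add_eq_add_sub, h1, sub_self])
      exact ⟨Units.ext (sub_eq_zero.mp h2), h3⟩
    · rintro ⟨h1, h2⟩ v
      obtain ⟨a, b, rfl⟩ := hspan v
      rw [hlin, h1, h2, Units.val_one, mul_one, mul_zero, zero_add]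
  have hvan : ∀ σ : GQ, chi p σ = 1 → c σ = 0 := by
    refine cocycle_vanish hp3 c hmul ?_ ?_ ?_
    · have := hadm.open_kernel
      simp only [hker] at this
      exact this
    · intro ℓ hℓ hne A hA σ hσ
      exact (hker σ).mp (hadm.unramified_outside ℓ hℓ hne A hA σ hσ)
    · intro A hA σ hσ hχ
      obtain ⟨C', hstab, hcompl⟩ := hadm.locally_split A hA
      obtain ⟨y, hy, z, hz, hyz⟩ := Submodule.mem_sup.mp
        (show v₀ ∈ C ⊔ C' by rw [hcompl.sup_eq_top]; exact Submodule.mem_top)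
      obtain ⟨t, rfl⟩ := hCspan y hy
      have hz' : z = (1 : ZMod p) • v₀ + (-t) • e := by
        rw [← hyz, one_smul, neg_smul]; abel
      have h1 : σ • z - z = c σ • e := by
        rw [hz', hlin, hχ, Units.val_one, one_mul, one_mul, add_smul]; abel
      have h2 : c σ • e ∈ C ⊓ C' :=
        ⟨C.smul_mem _ heC, h1 ▸ sub_mem (hstab σ hσ z hz) hz⟩
      rw [hcompl.inf_eq_bot, Submodule.mem_bot] at h2
      exact (smul_eq_zero.mp h2).resolve_right he0
  obtain ⟨t, hkey⟩ := exists_eq_coboundary hp3 hmul hvan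
  set w : V := (1 : ZMod p) • v₀ + t • e with hw
  have hσw : ∀ σ : GQ, σ • w = (chi p σ : ZMod p) • w := by
    intro σ
    rw [hw, hlin, hkey σ, smul_add, smul_smul, smul_smul, one_mul, mul_one, one_mul]
    congr 2
    ring
  refine ⟨Submodule.span (ZMod p) {w}, fun σ x hx => ?_, ⟨?_, ?_⟩⟩
  · obtain ⟨a, rfl⟩ := Submodule.mem_span_singleton.mp hx
    rw [smul_comm σ a, hσw, smul_smul]
    exact Submodule.mem_span_singleton.mpr ⟨_, rfl⟩
  · rw [Submodule.disjoint_def]
    intro x hx hx'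
    obtain ⟨a, rfl⟩ := Submodule.mem_span_singleton.mp hx'
    obtain ⟨s, hs⟩ := hCspan _ hx
    obtain ⟨ha, -⟩ := hind a (a * t - s) (by
      rw [sub_smul, ← hs, hw, smul_add, smul_smul, smul_smul, mul_one]; abel)
    rw [ha, zero_smul]
  · rw [codisjoint_iff, Submodule.eq_top_iff']
    intro x
    obtain ⟨a, b, rfl⟩ := hspan x
    refine Submodule.mem_sup.mpr ⟨(b - a * t) • e, C.smul_mem _ heC, a • w,
      Submodule.mem_span_singleton.mpr ⟨a, rfl⟩, ?_⟩
    rw [hw, smul_add, smul_smul, smul_smul, mul_one, sub_smul]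
    abel

end Fermat.Agent.ExtVan
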